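import Fermat.Agent.Corollaries.Gauss.EulLog
import Fermat.Agent.Corollaries.ZetaK.WienerIkehara
import Fermat.Agent.Corollaries.ZetaK.ThreeFourAbs
import Fermat.Agent.Corollaries.ZetaK.NonVanAbs

/-!
# Equidistribution on the circle from Euler products

`N : ι → ℕ`, `z : ι → ℂ`, `|z_i| = 1`, and for every `k : ℤ` a function `L k` which is a constant
times `∏_i (1 - z_i^k N_i^{-s})⁻¹` for `Re s > 1` and is holomorphic in a neighbourhood of
`Re s ≥ 1`, except for a simple pole at `1` if `k = 0`. Then: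

* `HeckeDat.ne_zero` : `L k s ≠ 0` for `Re s ≥ 1`.
* `HeckeDat.tendsto_card` : `#{N_i ≤ x} ~ x / log x`.
* `HeckeDat.tendsto_sum` : `∑_{N_i ≤ x} z_i^k = o(x / log x)` for `k ≠ 0`.
-/

set_option autoImplicit false

noncomputable section

open Complex Filter Topology

namespace Fermat.Agent.Cor.Gauss

variable {ι : Type*}

/-- the data: see the head of the file -/
structure HeckeDat (N : ι → ℕ) (z : ι → ℂ) (L : ℤ → ℂ → ℂ) (Z : ℂ → ℂ) (U : Set ℂ) : Prop where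
  two_le : ∀ i, 2 ≤ N i
  norm_z : ∀ i, ‖z i‖ = 1
  summable : ∀ σ : ℝ, 1 < σ → Summable fun i => (N i : ℝ) ^ (-σ)
  isOpen : IsOpen U
  subset : {s : ℂ | 1 ≤ s.re} ⊆ U
  euler : ∀ k : ℤ, ∃ c : ℂ, c ≠ 0 ∧
    ∀ s : ℂ, 1 < s.re → L k s = c * Complex.exp (eul N (fun i => z i ^ k) s)
  diff : ∀ (k : ℤ) (s : ℂ), s ∈ U → (s ≠ 1 ∨ k ≠ 0) → DifferentiableAt ℂ (L k) s
  diffZ : DifferentiableOn ℂ Z U
  Z_one : Z 1 ≠ 0
  Z_eq : ∀ s ∈ U, s ≠ 1 → Z s = (s - 1) * L 0 s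

namespace HeckeDat

variable {N : ι → ℕ} {z : ι → ℂ} {L : ℤ → ℂ → ℂ} {Z : ℂ → ℂ} {U : Set ℂ}
  (h : HeckeDat N z L Z U)

include h

theorem eulDat (k : ℤ) : EulDat N (fun i => z i ^ k) where
  two_le := h.two_le
  norm_le i := by rw [norm_zpow, h.norm_z, one_zpow]
  summable := h.summable

theorem mem {s : ℂ} (hs : 1 ≤ s.re) : s ∈ U := h.subset hs

theorem ne_zero_of_one_lt {k : ℤ} {s : ℂ} (hs : 1 < s.re) : L k s ≠ 0 := by
  obtain ⟨c, hc, hL⟩ := h.euler k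
  rw [hL s hs]
  exact mul_ne_zero hc (Complex.exp_ne_zero _)

/-- the inequality of Mertens -/
theorem one_le_norm {c₀ c₁ c₂ : ℂ} {k : ℤ} (hc₀ : c₀ ≠ 0) (hc₁ : c₁ ≠ 0) (hc₂ : c₂ ≠ 0)
    (h₀ : ∀ s : ℂ, 1 < s.re → L 0 s = c₀ * Complex.exp (eul N (fun i => z i ^ (0 : ℤ)) s))
    (h₁ : ∀ s : ℂ, 1 < s.re → L k s = c₁ * Complex.exp (eul N (fun i => z i ^ k) s))
    (h₂ : ∀ s : ℂ, 1 < s.re → L (2 * k) s = c₂ * Complex.exp (eul N (fun i => z i ^ (2 * k)) s))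
    (t : ℝ) {x : ℝ} (hx : 0 < x) :
    1 ≤ ‖(L 0 (1 + x) / c₀) ^ 3 * (L k (1 + x + I * t) / c₁) ^ 4 *
      (L (2 * k) (1 + x + 2 * I * t) / c₂)‖ := by
  have e0 : (1 + (x : ℂ)) = ((1 + x : ℝ) : ℂ) := by push_cast; rfl
  have hr0 : 1 < (1 + (x : ℂ)).re := by simp; exact hx
  have hr1 : 1 < (1 + (x : ℂ) + I * t).re := by simp; exact hx
  have hr2 : 1 < (1 + (x : ℂ) + 2 * I * t).re := by simp; exact hx
  rw [h₀ _ hr0, h₁ _ hr1, h₂ _ hr2, mul_div_cancel_left₀ _ hc₀, mul_div_cancel_left₀ _ hc₁,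
    mul_div_cancel_left₀ _ hc₂]
  have s0 := (h.eulDat 0).summable_log hr0
  have s1 := (h.eulDat k).summable_log hr1
  have s2 := (h.eulDat (2 * k)).summable_log hr2
  have e1 : (((1 + x : ℝ) : ℂ) + I * t) = (((1 + x : ℝ) : ℂ) + t * I) := by ring
  have e2 : (((1 + x : ℝ) : ℂ) + 2 * I * t) = (((1 + x : ℝ) : ℂ) + 2 * t * I) := by ring
  have e3 : ∀ i, z i ^ (2 * k) = (z i ^ k) ^ 2 := fun i => by
    rw [mul_comm, zpow_mul]
    norm_cast
  simp only [zpow_zero, one_mul, e0, e1, e2, e3] at s0 s1 s2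
  have h3 := threeFour_euler (n := N) h.two_le (c := fun i => z i ^ k)
    (fun i => by rw [norm_zpow, h.norm_z, one_zpow]) (σ := 1 + x) (by linarith) t s0 s1 s2
  simp only [eul, zpow_zero, one_mul, e0, e1, e2, e3]
  exact h3

/-- **Non-vanishing** on `Re s = 1`. -/
theorem ne_zero_line {k : ℤ} {t : ℝ} (hkt : k ≠ 0 ∨ t ≠ 0) : L k (1 + I * t) ≠ 0 := by
  obtain ⟨c₀, hc₀, h₀⟩ := h.euler 0
  obtain ⟨c₁, hc₁, h₁⟩ := h.euler k
  obtain ⟨c₂, hc₂, h₂⟩ := h.euler (2 * k)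
  have m1 : (1 + I * t : ℂ) ∈ U := h.mem (by simp)
  have m2 : (1 + 2 * I * t : ℂ) ∈ U := h.mem (by simp)
  have n1 : (1 + I * t : ℂ) ≠ 1 ∨ k ≠ 0 := by
    rcases hkt with h1 | h1
    · exact Or.inr h1
    · left
      intro h2
      have h3 := congrArg Complex.im h2
      simp at h3
      exact h1 h3
  have n2 : (1 + 2 * I * t : ℂ) ≠ 1 ∨ 2 * k ≠ 0 := by
    rcases hkt with h1 | h1
    · exact Or.inr (by omega)
    · left
      intro h2
      have h3 := congrArg Complex.im h2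
      simp at h3
      exact h1 h3
  have h5 := ne_zero_of_three_four_one (Z := fun s => L 0 s / c₀) (X := fun s => L k s / c₁)
    (Y := fun s => L (2 * k) s / c₂) (t := t) ?_ ((h.diff k _ m1 n1).div_const _)
    ((h.diff (2 * k) _ m2 n2).div_const _).continuousAt
    (fun x hx => h.one_le_norm hc₀ hc₁ hc₂ h₀ h₁ h₂ t hx)
  · intro h6
    exact h5 (by simp only [h6, zero_div])
  · -- the pole at `1`
    have hZ : ContinuousAt Z 1 :=
      (h.diffZ.differentiableAt (h.isOpen.mem_nhds (h.mem (by simp)))).continuousAt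
    have h6 : Tendsto (fun x : ℝ => Z (1 + x) / c₀) (𝓝[>] 0) (𝓝 (Z 1 / c₀)) := by
      refine Tendsto.div_const ?_ _
      have h7 : Tendsto (fun x : ℝ => (1 : ℂ) + x) (𝓝 0) (𝓝 1) := by
        have : Continuous fun x : ℝ => (1 : ℂ) + x := by fun_prop
        have h8 := this.tendsto 0
        simpa using h8
      exact (hZ.tendsto.comp h7).mono_left nhdsWithin_le_nhds
    have h9 := (h6.isBigO_one ℂ).mul
      (Asymptotics.isBigO_refl (fun x : ℝ => (1 : ℂ) / x) (𝓝[>] 0))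
    refine (h9.congr' ?_ ?_)
    · filter_upwards [self_mem_nhdsWithin] with x hx
      have hx' : (x : ℂ) ≠ 0 := by
        have : (0 : ℝ) < x := hx
        exact_mod_cast this.ne'
      have h10 : (1 : ℂ) + x ≠ 1 := by
        intro h11
        exact hx' (by simpa using h11)
      rw [h.Z_eq (1 + x) (h.mem (by simp; exact (le_of_lt hx))) h10]
      field_simp
      ring
    · exact Eventually.of_forall fun x => by simp

theorem ne_zero {k : ℤ} {s : ℂ} (hs : 1 ≤ s.re) (hk : k ≠ 0 ∨ s ≠ 1) : L k s ≠ 0 := by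
  rcases hs.lt_or_eq with h1 | h1
  · exact h.ne_zero_of_one_lt h1
  · have h2 : s = 1 + I * s.im := by
      apply Complex.ext <;> simp [← h1]
    rw [h2]
    refine h.ne_zero_line ?_
    rcases hk with h3 | h3
    · exact Or.inl h3
    · right
      intro h4
      exact h3 (by rw [h2, h4]; simp)

theorem Z_ne_zero {s : ℂ} (hs : 1 ≤ s.re) : Z s ≠ 0 := by
  rcases eq_or_ne s 1 with rfl | h1
  · exact h.Z_one
  · rw [h.Z_eq s (h.mem hs) h1]
    exact mul_ne_zero (sub_ne_zero.2 h1) (h.ne_zero hs (Or.inr h1))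

/-! ### The functions of Wiener and Ikehara -/

theorem continuousOn_logDeriv {k : ℤ} (hk : k ≠ 0) :
    ContinuousOn (fun s => -(deriv (L k) s / L k s)) {s : ℂ | 1 ≤ s.re} := by
  have hd : DifferentiableOn ℂ (L k) U := fun s hs =>
    (h.diff k s hs (Or.inr hk)).differentiableWithinAt
  exact (((hd.deriv h.isOpen).continuousOn.mono h.subset).div
    (hd.continuousOn.mono h.subset) fun s hs => h.ne_zero hs (Or.inl hk)).neg

theorem continuousOn_logDeriv_Z :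
    ContinuousOn (fun s => -(deriv Z s / Z s)) {s : ℂ | 1 ≤ s.re} :=
  (((h.diffZ.deriv h.isOpen).continuousOn.mono h.subset).div
    (h.diffZ.continuousOn.mono h.subset) fun _ hs => h.Z_ne_zero hs).neg

theorem logDeriv_zero {s : ℂ} (hs : 1 < s.re) :
    -(deriv (L 0) s / L 0 s) = -(deriv Z s / Z s) + 1 / (s - 1) := by
  have h1 : s ≠ 1 := by
    rintro rfl
    simp at hs
  have h2 : s - 1 ≠ 0 := sub_ne_zero.2 h1
  have h3 : Z =ᶠ[𝓝 s] fun s => (s - 1) * L 0 s := by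
    filter_upwards [h.isOpen.mem_nhds (h.mem hs.le), isOpen_ne.mem_nhds h1] with w hw hw1
    exact h.Z_eq w hw hw1
  have h4 : HasDerivAt (fun s : ℂ => (s - 1) * L 0 s) (1 * L 0 s + (s - 1) * deriv (L 0) s) s :=
    ((hasDerivAt_id s).sub_const 1).mul (h.diff 0 s (h.mem hs.le) (Or.inl h1)).hasDerivAt
  rw [(h4.congr_of_eventuallyEq h3).deriv, h3.self_of_nhds]
  have h5 : L 0 s ≠ 0 := h.ne_zero_of_one_lt hs
  field_simp
  ring

/-- the sum over the prime powers -/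
theorem hasSum_pp (k : ℤ) {s : ℂ} (hs : 1 < s.re) :
    HasSum (fun q : ι × ℕ => (Real.log (N q.1) : ℂ) * (z q.1 ^ k) ^ (q.2 + 1) *
      ((N q.1 ^ (q.2 + 1) : ℕ) : ℂ) ^ (-s)) (-(deriv (L k) s / L k s)) := by
  obtain ⟨c, hc, hL⟩ := h.euler k
  have h1 := ((h.eulDat k).summable_pair hs).hasSum
  rw [← (h.eulDat k).neg_logDeriv_eul hc hL hs] at h1
  have e : (fun q : ι × ℕ => (Real.log (N q.1) : ℂ) * (z q.1 ^ k) ^ (q.2 + 1) *
      ((N q.1 ^ (q.2 + 1) : ℕ) : ℂ) ^ (-s)) =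
      fun q : ι × ℕ => (Real.log (N q.1) : ℂ) * (z q.1 ^ k * (N q.1 : ℂ) ^ (-s)) ^ (q.2 + 1) := by
    ext q
    have e1 : ((N q.1 ^ (q.2 + 1) : ℕ) : ℂ) ^ (-s) = ((N q.1 : ℂ) ^ (-s)) ^ (q.2 + 1) := by
      rw [Nat.cast_pow, ← Complex.natCast_cpow_natCast_mul, mul_comm, Complex.cpow_mul_nat]
    rw [e1, mul_pow, mul_assoc]
  rw [e]
  exact h1

/-- the Dirichlet series of `vM N c`, for weights `c` -/
theorem hasSum_vM {c : ι → ℕ → ℝ} {s S : ℂ}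
    (hS : HasSum (fun q : ι × ℕ => ((c q.1 q.2 * Real.log (N q.1) : ℝ) : ℂ) *
      ((N q.1 ^ (q.2 + 1) : ℕ) : ℂ) ^ (-s)) S) :
    LSeriesSummable (fun n => (vM N c n : ℂ)) s ∧ LSeries (fun n => (vM N c n : ℂ)) s = S := by
  have hN : ∀ q : ι × ℕ, N q.1 ^ (q.2 + 1) ≠ 0 := fun q =>
    pow_ne_zero _ (by have := h.two_le q.1; omega)
  have h1 := hasSum_fib (N := fun q : ι × ℕ => N q.1 ^ (q.2 + 1)) hN hS.summable
  have e : fib (fun q : ι × ℕ => N q.1 ^ (q.2 + 1))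
      (fun q : ι × ℕ => ((c q.1 q.2 * Real.log (N q.1) : ℝ) : ℂ)) =
      fun n => (vM N c n : ℂ) := by
    ext n
    rw [fib, vM, Complex.ofReal_tsum]
  rw [e, hS.tsum_eq] at h1
  exact ⟨h1.summable, h1.tsum_eq⟩

theorem vM_nonneg {c : ι → ℕ → ℝ} (hc : ∀ i k, 0 ≤ c i k) (n : ℕ) : 0 ≤ vM N c n :=
  tsum_nonneg fun q => mul_nonneg (hc _ _) (Real.log_nonneg ((h.eulDat 0).one_le q.1.1))

omit h in
/-- the weight `1` -/
def wt1 (_ : ι) (_ : ℕ) : ℝ := 1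

/-- `ψ(x) ~ x` -/
theorem tendsto_psi_one :
    Tendsto (fun x : ℝ => (∑ n ∈ Finset.Icc 1 ⌊x⌋₊, vM N wt1 n) / x) atTop (𝓝 1) := by
  have h1 : ∀ s : ℂ, 1 < s.re → HasSum (fun q : ι × ℕ =>
      ((wt1 q.1 q.2 * Real.log (N q.1) : ℝ) : ℂ) * ((N q.1 ^ (q.2 + 1) : ℕ) : ℂ) ^ (-s))
      (-(deriv (L 0) s / L 0 s)) := by
    intro s hs
    have e : (fun q : ι × ℕ => ((wt1 q.1 q.2 * Real.log (N q.1) : ℝ) : ℂ) *
        ((N q.1 ^ (q.2 + 1) : ℕ) : ℂ) ^ (-s)) =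
        fun q : ι × ℕ => (Real.log (N q.1) : ℂ) * (z q.1 ^ (0 : ℤ)) ^ (q.2 + 1) *
          ((N q.1 ^ (q.2 + 1) : ℕ) : ℂ) ^ (-s) := by
      ext q
      rw [wt1, one_mul, zpow_zero, one_pow, mul_one]
    rw [e]
    exact h.hasSum_pp 0 hs
  have h2 : ∀ s : ℂ, 1 < s.re → -(deriv Z s / Z s) =
      LSeries (fun n => (vM N wt1 n : ℂ)) s - ((1 : ℝ) : ℂ) / (s - 1) := by
    intro s hs
    rw [(h.hasSum_vM (h1 s hs)).2, h.logDeriv_zero hs, Complex.ofReal_one]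
    ring
  exact wiener_ikehara (h.vM_nonneg fun _ _ => zero_le_one)
    (fun s hs => (h.hasSum_vM (h1 s hs)).1) h.continuousOn_logDeriv_Z h2

omit h in
/-- the weights `(1 + Re (u z_i^{k (j + 1)})) / 2` -/
def wt (z : ι → ℂ) (u : ℂ) (k : ℤ) (i : ι) (j : ℕ) : ℝ := (1 + (u * (z i ^ k) ^ (j + 1)).re) / 2

theorem abs_re_le {u : ℂ} (hu : ‖u‖ = 1) (k : ℤ) (i : ι) (j : ℕ) :
    |(u * (z i ^ k) ^ (j + 1)).re| ≤ 1 := by
  refine (Complex.abs_re_le_norm _).trans ?_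
  rw [norm_mul, hu, norm_pow, norm_zpow, h.norm_z, one_zpow, one_pow, mul_one]

theorem wt_nonneg {u : ℂ} (hu : ‖u‖ = 1) (k : ℤ) (i : ι) (j : ℕ) : 0 ≤ wt z u k i j := by
  have := neg_le_of_abs_le (h.abs_re_le hu k i j)
  rw [wt]
  linarith

theorem wt_le_one {u : ℂ} (hu : ‖u‖ = 1) (k : ℤ) (i : ι) (j : ℕ) : wt z u k i j ≤ 1 := by
  have := le_of_abs_le (h.abs_re_le hu k i j)
  rw [wt]
  linarith

theorem wt_eq (u : ℂ) (k : ℤ) (i : ι) (j : ℕ) : ((wt z u k i j : ℝ) : ℂ) =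
    1 / 2 + u / 4 * (z i ^ k) ^ (j + 1) + (starRingEnd ℂ u) / 4 * (z i ^ (-k)) ^ (j + 1) := by
  have h1 : z i ≠ 0 := by
    intro h2
    have h3 := h.norm_z i
    rw [h2, norm_zero] at h3
    exact zero_ne_one h3
  have h2 : starRingEnd ℂ (z i) = (z i)⁻¹ := by
    rw [Complex.inv_def, Complex.normSq_eq_norm_sq, h.norm_z]
    simp
  have h3 : starRingEnd ℂ (u * (z i ^ k) ^ (j + 1)) = starRingEnd ℂ u * (z i ^ (-k)) ^ (j + 1) := by
    rw [map_mul, map_pow, map_zpow₀, h2, inv_zpow, zpow_neg]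
  rw [wt]
  push_cast
  rw [Complex.re_eq_add_conj, h3]
  ring

theorem tendsto_psi_wt {u : ℂ} (hu : ‖u‖ = 1) {k : ℤ} (hk : k ≠ 0) :
    Tendsto (fun x : ℝ => (∑ n ∈ Finset.Icc 1 ⌊x⌋₊, vM N (wt z u k) n) / x) atTop
      (𝓝 (1 / 2)) := by
  have h1 : ∀ s : ℂ, 1 < s.re → HasSum (fun q : ι × ℕ =>
      ((wt z u k q.1 q.2 * Real.log (N q.1) : ℝ) : ℂ) * ((N q.1 ^ (q.2 + 1) : ℕ) : ℂ) ^ (-s))
      (1 / 2 * -(deriv (L 0) s / L 0 s) + u / 4 * -(deriv (L k) s / L k s) +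
        (starRingEnd ℂ u) / 4 * -(deriv (L (-k)) s / L (-k) s)) := by
    intro s hs
    have h2 := (((h.hasSum_pp 0 hs).mul_left (1 / 2)).add
      ((h.hasSum_pp k hs).mul_left (u / 4))).add
      ((h.hasSum_pp (-k) hs).mul_left ((starRingEnd ℂ u) / 4))
    have e : (fun q : ι × ℕ => ((wt z u k q.1 q.2 * Real.log (N q.1) : ℝ) : ℂ) *
        ((N q.1 ^ (q.2 + 1) : ℕ) : ℂ) ^ (-s)) = fun q : ι × ℕ =>
        1 / 2 * ((Real.log (N q.1) : ℂ) * (z q.1 ^ (0 : ℤ)) ^ (q.2 + 1) *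
          ((N q.1 ^ (q.2 + 1) : ℕ) : ℂ) ^ (-s)) +
        u / 4 * ((Real.log (N q.1) : ℂ) * (z q.1 ^ k) ^ (q.2 + 1) *
          ((N q.1 ^ (q.2 + 1) : ℕ) : ℂ) ^ (-s)) +
        (starRingEnd ℂ u) / 4 * ((Real.log (N q.1) : ℂ) * (z q.1 ^ (-k)) ^ (q.2 + 1) *
          ((N q.1 ^ (q.2 + 1) : ℕ) : ℂ) ^ (-s)) := by
      ext q
      rw [Complex.ofReal_mul, h.wt_eq, zpow_zero, one_pow]
      ring
    rw [e]
    exact h2
  have h2 : ∀ s : ℂ, 1 < s.re → 1 / 2 * -(deriv Z s / Z s) +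
      u / 4 * -(deriv (L k) s / L k s) + (starRingEnd ℂ u) / 4 * -(deriv (L (-k)) s / L (-k) s) =
      LSeries (fun n => (vM N (wt z u k) n : ℂ)) s - ((1 / 2 : ℝ) : ℂ) / (s - 1) := by
    intro s hs
    rw [(h.hasSum_vM (h1 s hs)).2, h.logDeriv_zero hs, Complex.ofReal_div, Complex.ofReal_one,
      Complex.ofReal_ofNat]
    ring
  have h3 : ContinuousOn (fun s => 1 / 2 * -(deriv Z s / Z s) +
      u / 4 * -(deriv (L k) s / L k s) + (starRingEnd ℂ u) / 4 * -(deriv (L (-k)) s / L (-k) s))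
      {s : ℂ | 1 ≤ s.re} :=
    (((continuousOn_const.mul h.continuousOn_logDeriv_Z)).add
      (continuousOn_const.mul (h.continuousOn_logDeriv hk))).add
      (continuousOn_const.mul (h.continuousOn_logDeriv (neg_ne_zero.2 hk)))
  exact wiener_ikehara (h.vM_nonneg (h.wt_nonneg hu k))
    (fun s hs => (h.hasSum_vM (h1 s hs)).1) h3 h2

/-! ### The primes -/

variable {D : ℝ} (hN : IsCount N D)

include hN

/-- **`#{N_i ≤ x} ~ x / log x`.** -/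
theorem tendsto_card : Tendsto (fun x : ℕ => ((hN.F x).card : ℝ) * Real.log x / x) atTop
    (𝓝 1) := by
  have h1 := (hN.tendsto_cnt (c := wt1) (fun _ _ => zero_le_one) (fun _ _ => le_rfl)
    h.tendsto_psi_one).comp tendsto_natCast_atTop_atTop
  refine h1.congr fun x => ?_
  simp [IsCount.cnt, wt1]

theorem tendsto_sum_re {u : ℂ} (hu : ‖u‖ = 1) {k : ℤ} (hk : k ≠ 0) :
    Tendsto (fun x : ℕ => (u * ∑ i ∈ hN.F x, z i ^ k).re * Real.log x / x) atTop (𝓝 0) := by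
  have h1 := (hN.tendsto_cnt (c := wt z u k) (h.wt_nonneg hu k) (h.wt_le_one hu k)
    (h.tendsto_psi_wt hu hk)).comp tendsto_natCast_atTop_atTop
  have h2 := (h1.const_mul 2).sub (h.tendsto_card hN)
  rw [show (2 : ℝ) * (1 / 2) - 1 = 0 by norm_num] at h2
  refine h2.congr fun x => ?_
  simp only [Function.comp_apply, Nat.floor_natCast, IsCount.cnt, wt, zero_add, pow_one]
  rw [Finset.mul_sum, Complex.re_sum, ← Finset.sum_div, Finset.sum_add_distrib,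
    Finset.sum_const, nsmul_one]
  ring

/-- **`∑_{N_i ≤ x} z_i^k = o(x / log x)` for `k ≠ 0`.** -/
theorem tendsto_sum {k : ℤ} (hk : k ≠ 0) :
    Tendsto (fun x : ℕ => ((Real.log x / x : ℝ) : ℂ) * ∑ i ∈ hN.F x, z i ^ k) atTop (𝓝 0) := by
  have h1 := h.tendsto_sum_re hN (u := 1) (by simp) hk
  have h2 := h.tendsto_sum_re hN (u := -I) (by simp) hk
  have h3 : Tendsto (fun x : ℕ => ((((1 : ℂ) * ∑ i ∈ hN.F x, z i ^ k).re * Real.log x / x : ℝ) : ℂ)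
      + (((-I * ∑ i ∈ hN.F x, z i ^ k).re * Real.log x / x : ℝ) : ℂ) * I) atTop
      (𝓝 (((0 : ℝ) : ℂ) + ((0 : ℝ) : ℂ) * I)) :=
    ((Complex.continuous_ofReal.tendsto 0).comp h1).add
      (((Complex.continuous_ofReal.tendsto 0).comp h2).mul_const I)
  rw [Complex.ofReal_zero, zero_mul, add_zero] at h3
  refine h3.congr fun x => ?_
  set S := ∑ i ∈ hN.F x, z i ^ k
  apply Complex.ext <;> simp <;> ring

end HeckeDat

end Fermat.Agent.Cor.Gauss
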