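import Fermat.Agent.Corollaries.Gauss.Defs

/-!
# Analytic continuation from the partial sums

If `∑_{m ≤ n} a(m) = c n + O(n^r)` with `0 ≤ r < 1`, then `∑ a(n) n^{-s} - c ζ(s)` continues to a
holomorphic function on `Re s > r`.
-/

set_option autoImplicit false

noncomputable section

open Filter Topology Asymptotics MeasureTheory Set

namespace Fermat.Agent.Cor.Gauss

/-- partial sums `O(n^r)`: the Dirichlet series is holomorphic on `Re s > r` -/
theorem exists_continuation {b : ℕ → ℂ} {r : ℝ} (hr : 0 ≤ r)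
    (hs : ∀ s : ℂ, 1 < s.re → LSeriesSummable b s) (hr1 : r < 1)
    (hO : (fun n : ℕ => ∑ m ∈ Finset.Icc 1 n, b m) =O[atTop] fun n : ℕ => (n : ℝ) ^ r) :
    ∃ H : ℂ → ℂ, DifferentiableOn ℂ H {s | r < s.re} ∧ ∀ s : ℂ, 1 < s.re → LSeries b s = H s := by
  set F : ℝ → ℂ := fun t => ∑ k ∈ Finset.Icc 1 ⌊t⌋₊, b k with hF
  have hloc : LocallyIntegrableOn F (Ioi 0) := by
    have h1 := locallyIntegrableOn_mul_sum_Icc b (m := 1) (le_refl (0 : ℝ)) (g := fun _ => (1 : ℂ))
      ((locallyIntegrable_const (1 : ℂ)).locallyIntegrableOn _)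
    simp only [one_mul] at h1
    exact h1.mono_set Ioi_subset_Ici_self
  have htop : F =O[atTop] fun t : ℝ => t ^ (-(-r)) := by
    have h1 : F =O[atTop] fun t : ℝ => ((⌊t⌋₊ : ℕ) : ℝ) ^ r :=
      hO.comp_tendsto (tendsto_nat_floor_atTop (α := ℝ))
    refine h1.trans ?_
    rw [neg_neg]
    refine IsBigO.of_bound 1 ?_
    filter_upwards [eventually_ge_atTop (0 : ℝ)] with t ht
    rw [one_mul, Real.norm_of_nonneg (Real.rpow_nonneg (Nat.cast_nonneg _) _),
      Real.norm_of_nonneg (Real.rpow_nonneg ht _)]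
    exact Real.rpow_le_rpow (Nat.cast_nonneg _) (Nat.floor_le ht) hr
  have hzero : ∀ t : ℝ, t < 1 → F t = 0 := by
    intro t ht
    simp only [hF]
    rw [Nat.floor_eq_zero.2 ht]
    simp
  have hbot : ∀ c : ℝ, F =O[𝓝[>] 0] fun t : ℝ => t ^ (-c) := by
    intro c
    refine (isBigO_zero _ _).congr' ?_ EventuallyEq.rfl
    filter_upwards [mem_nhdsWithin_of_mem_nhds (Iio_mem_nhds (zero_lt_one (α := ℝ)))] with t ht
    exact (hzero t ht).symm
  refine ⟨fun s => s * mellin F (-s), fun s hs1 => ?_, fun s hs1 => ?_⟩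
  · have hs2 : r < s.re := hs1
    have h1 : DifferentiableAt ℂ (mellin F) (-s) :=
      mellin_differentiableAt_of_isBigO_rpow (a := -r) (b := -s.re - 1) hloc htop
        (by simp; exact hs2) (hbot _) (by simp)
    have h2 : DifferentiableAt ℂ (fun s => mellin F (-s)) s :=
      h1.comp s differentiableAt_id.neg
    exact (differentiableAt_id.mul h2).differentiableWithinAt
  · rw [LSeries_eq_mul_integral b hr (hr1.trans hs1) (hs s hs1) hO]
    congr 1
    rw [mellin]
    have h1 : ∫ t in Ioi (0 : ℝ), (t : ℂ) ^ (-s - 1) • F t =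
        ∫ t in Ioi (1 : ℝ), (t : ℂ) ^ (-s - 1) • F t := by
      refine setIntegral_eq_of_subset_of_ae_sdiff_eq_zero measurableSet_Ioi.nullMeasurableSet
        (Ioi_subset_Ioi zero_le_one) ?_
      have h2 : ∀ᵐ t : ℝ, t ≠ 1 := by
        simp [ae_iff]
      filter_upwards [h2] with t ht ht1
      have h3 : t < 1 := lt_of_le_of_ne (not_lt.1 ht1.2) ht
      rw [hzero t h3, smul_zero]
    rw [h1]
    refine setIntegral_congr_fun measurableSet_Ioi fun t _ => ?_
    simp only [hF, smul_eq_mul]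
    rw [mul_comm]
    congr 2
    ring

/-- **(G2)** -/
theorem contStmt : ContStmt := by
  intro a c r hr hr1 hs hO
  have h1 : ∀ s : ℂ, 1 < s.re → LSeriesSummable (fun _ : ℕ => c) s := fun s hs => by
    have h2 := (LSeriesSummable_one_iff.2 hs).smul c
    refine (LSeriesSummable_congr s fun {n} _ => ?_).1 h2
    simp
  obtain ⟨H, hH, hH'⟩ := exists_continuation (b := fun n => a n - c) hr
    (fun s hs1 => (hs s hs1).sub (h1 s hs1)) hr1 (by
      refine hO.congr_left fun n => ?_
      rw [Finset.sum_sub_distrib, Finset.sum_const, Nat.card_Icc, Nat.add_sub_cancel, nsmul_eq_mul,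
        mul_comm])
  refine ⟨H, hH, fun s hs1 => ?_⟩
  rw [← hH' s hs1]
  have h3 : LSeries (fun n => a n - c) s = LSeries a s - LSeries (fun _ => c) s :=
    LSeries_sub (hs s hs1) (h1 s hs1)
  have h4 : LSeries (fun _ : ℕ => c) s = c * riemannZeta s := by
    have h5 : (fun _ : ℕ => c) = c • (1 : ℕ → ℂ) := by
      ext n
      simp
    rw [h5, LSeries_smul, ← LSeries_one_eq_riemannZeta hs1]
  rw [h3, h4]
  ring

end Fermat.Agent.Cor.Gauss
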