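import Fermat.Agent.Corollaries.Diary.Lemniscate
import Fermat.Prelude.Def_FLTPrelim_Modularity

/-!
# The elliptic curve `y² = x³ + 4 x`

* `ap_E4` : `a_p = p - #{(x, y) : y² = x³ + 4 x}` for odd `p`.
* `ap_E4_of_two_squares` : `a_p = 2 a` if `p = a² + b²`, `b` even, `a + b ≡ 1 mod 4`.
* `ap_E4_of_three` : `a_p = 0` if `p ≡ 3 mod 4`.
-/

set_option autoImplicit false

noncomputable section

open scoped Classical

namespace Fermat.Agent.Cor.Gauss

open WeierstrassCurve

/-- the curve `y² = x³ + 4 x` over `ℤ` -/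
def E4 : WeierstrassCurve ℤ := ⟨0, 0, 0, 4, 0⟩

variable {p : ℕ} [hp : Fact p.Prime]

theorem E4_equation (x y : ZMod p) :
    (E4.reductionMod p).toAffine.Equation x y ↔ y ^ 2 = x ^ 3 + 4 * x := by
  rw [Affine.equation_iff]
  simp [reductionMod, E4, WeierstrassCurve.map]

theorem E4_Δ (h2 : p ≠ 2) : (E4.reductionMod p).Δ ≠ 0 := by
  have h1 : (E4.reductionMod p).Δ = ((-4096 : ℤ) : ZMod p) := by
    rw [reductionMod, WeierstrassCurve.map_Δ]
    congr 1
  rw [h1]
  intro h
  rw [ZMod.intCast_zmod_eq_zero_iff_dvd] at h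
  have h3 : (p : ℤ) ∣ 2 ^ 12 := by
    have := (Int.dvd_neg).2 h
    norm_num at this ⊢
    exact this
  have h4 : (p : ℤ) ∣ 2 := (Nat.prime_iff_prime_int.1 hp.out).dvd_of_dvd_pow h3
  have h5 : p ∣ 2 := by exact_mod_cast h4
  exact h2 ((Nat.prime_dvd_prime_iff_eq hp.out Nat.prime_two).1 h5)

/-- the points, except the origin -/
def ptEquiv (h2 : p ≠ 2) : (E4.reductionMod p).toAffine.Point ≃
    Option {P : ZMod p × ZMod p // P.2 ^ 2 = P.1 ^ 3 + 4 * P.1} where
  toFun P := match P with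
    | .zero => none
    | .some x y h => some ⟨(x, y), (E4_equation x y).1 h.1⟩
  invFun P := match P with
    | none => .zero
    | some P => .some P.1.1 P.1.2
      ((Affine.equation_iff_nonsingular_of_Δ_ne_zero (E4_Δ h2)).1 ((E4_equation _ _).2 P.2))
  left_inv P := by
    match P with
    | .zero => rfl
    | .some x y h => rfl
  right_inv P := by
    match P with
    | none => rfl
    | some P => rfl

/-- `a_p = p - #{(x, y) : y² = x³ + 4 x}` -/
theorem ap_E4 (h2 : p ≠ 2) : E4.apOfModel p =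
    p - ((Finset.univ.filter fun P : ZMod p × ZMod p => P.2 ^ 2 = P.1 ^ 3 + 4 * P.1).card : ℤ) := by
  have h1 : Nat.card (E4.reductionMod p).toAffine.Point =
      (Finset.univ.filter fun P : ZMod p × ZMod p => P.2 ^ 2 = P.1 ^ 3 + 4 * P.1).card + 1 := by
    rw [Nat.card_congr (ptEquiv h2), Nat.card_eq_fintype_card, Fintype.card_option,
      Fintype.card_subtype]
  rw [apOfModel, traceOfFrobenius, card, h1, Nat.card_zmod]
  push_cast
  ring

/-- `p = a² + b²`, `b` even, `a + b ≡ 1 mod 4` -/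
theorem ap_E4_of_two_squares {a b : ℤ} (h : (p : ℤ) = a ^ 2 + b ^ 2) (hb : b % 2 = 0)
    (hab : (a + b) % 4 = 1) : E4.apOfModel p = 2 * a := by
  have h4 := (Diary.card_of_two_squares h hb hab).1
  have h2 : p ≠ 2 := by
    rintro rfl
    omega
  have h5 := Diary.card_weierstrass h hb hab
  rw [ap_E4 h2]
  have h6 : ((Finset.univ.filter fun P : ZMod p × ZMod p =>
      P.2 ^ 2 = P.1 ^ 3 + 4 * P.1).card : ℤ) = p - 2 * a := by
    rw [← h5]
  rw [h6]
  ring

/-- the supersingular primes -/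
theorem ap_E4_of_three (h4 : p % 4 = 3) : E4.apOfModel p = 0 := by
  have h2 : p ≠ 2 := by
    rintro rfl
    omega
  have hF : ringChar (ZMod p) ≠ 2 := by
    rw [ZMod.ringChar_zmod_n]
    exact h2
  rw [ap_E4 h2, sub_eq_zero]
  have h1 : ((Finset.univ.filter fun P : ZMod p × ZMod p =>
      P.2 ^ 2 = P.1 ^ 3 + 4 * P.1).card : ℤ) =
      ∑ x : ZMod p, (quadraticChar (ZMod p) (x ^ 3 + 4 * x) + 1) := by
    have h3 : (Finset.univ.filter fun P : ZMod p × ZMod p => P.2 ^ 2 = P.1 ^ 3 + 4 * P.1).card =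
        ∑ x : ZMod p, (Finset.univ.filter fun y : ZMod p => y ^ 2 = x ^ 3 + 4 * x).card := by
      simp only [Finset.card_filter]
      rw [Fintype.sum_prod_type]
    rw [h3]
    push_cast
    refine Finset.sum_congr rfl fun x _ => ?_
    rw [← quadraticChar_card_sqrts hF]
    congr 2
    ext y
    simp
  rw [h1, Finset.sum_add_distrib, Finset.sum_const, Finset.card_univ, ZMod.card, nsmul_eq_mul,
    mul_one]
  have h5 : ∑ x : ZMod p, quadraticChar (ZMod p) (x ^ 3 + 4 * x) =
      -∑ x : ZMod p, quadraticChar (ZMod p) (x ^ 3 + 4 * x) := by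
    have h6 : quadraticChar (ZMod p) (-1) = -1 := by
      rw [quadraticChar_neg_one hF, ZMod.card, ZMod.χ₄_nat_three_mod_four h4]
    calc ∑ x : ZMod p, quadraticChar (ZMod p) (x ^ 3 + 4 * x) =
          ∑ x : ZMod p, quadraticChar (ZMod p) ((-x) ^ 3 + 4 * -x) :=
          (Equiv.sum_comp (Equiv.neg (ZMod p)) _).symm
      _ = ∑ x : ZMod p, -quadraticChar (ZMod p) (x ^ 3 + 4 * x) := by
          refine Finset.sum_congr rfl fun x _ => ?_
          have h7 : (-x) ^ 3 + 4 * -x = -1 * (x ^ 3 + 4 * x) := by ring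
          rw [h7, map_mul, h6]
          ring
      _ = _ := Finset.sum_neg_distrib _
  have h6 : ∑ x : ZMod p, quadraticChar (ZMod p) (x ^ 3 + 4 * x) = 0 := by linarith
  rw [h6, zero_add]

end Fermat.Agent.Cor.Gauss
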