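import Mathlib

/-!
# Gaussian primes in sectors: definitions and interfaces

`ℤ[i]` is Mathlib's `GaussianInt`, embedded in `ℂ` by `GaussianInt.toComplex`.
-/

set_option autoImplicit false

noncomputable section

open Filter Topology Asymptotics

namespace Fermat.Agent.Cor.Gauss

/-- the norm `a² + b²` of `a + b i`, a natural number -/
def nG (z : GaussianInt) : ℕ := z.norm.natAbs

/-- the direction `z / |z|` of a Gaussian integer (`0` at `0`) -/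
def dir (z : GaussianInt) : ℂ := GaussianInt.toComplex z / ‖GaussianInt.toComplex z‖

/-- the Gaussian primes `a + b i` with `a > 0`, `b ≥ 0`: every Gaussian prime is associated to
exactly one of them -/
abbrev PrG : Type := {π : GaussianInt // Prime π ∧ 0 < π.re ∧ 0 ≤ π.im}

/-- `a_k(n) = ∑_{N z = n} (z / |z|) ^ (4 k)` (a finite sum) -/
def aG (k : ℤ) (n : ℕ) : ℂ := ∑' z : {z : GaussianInt // nG z = n}, dir z ^ (4 * k)

/-- **(G1)** the lattice point estimate -/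
def LatStmt : Prop := ∀ k : ℤ, (fun n : ℕ => (∑ m ∈ Finset.Icc 1 n, aG k m) -
  (if k = 0 then (Real.pi : ℂ) else 0) * n) =O[atTop] fun n : ℕ => (n : ℝ) ^ (1 / 2 : ℝ)

/-- **(G2)** continuation from the partial sums -/
def ContStmt : Prop := ∀ (a : ℕ → ℂ) (c : ℂ) (r : ℝ), 0 ≤ r → r < 1 →
  (∀ s : ℂ, 1 < s.re → LSeriesSummable a s) →
  ((fun n : ℕ => (∑ m ∈ Finset.Icc 1 n, a m) - c * n) =O[atTop] fun n : ℕ => (n : ℝ) ^ r) →
  ∃ H : ℂ → ℂ, DifferentiableOn ℂ H {s | r < s.re} ∧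
    ∀ s : ℂ, 1 < s.re → LSeries a s = H s + c * riemannZeta s

/-- **(G3)** the Euler product on `ℤ[i]`, for `f` completely multiplicative with `f = 1` on the
units -/
def EulerStmt : Prop := ∀ f : GaussianInt →*₀ ℂ, (∀ u : GaussianInt, IsUnit u → f u = 1) →
  (Summable fun z => ‖f z‖) → (Summable fun P : PrG => f P.1) ∧ (∀ P : PrG, ‖f P.1‖ < 1) ∧
    ∑' z, f z = 4 * Complex.exp (∑' P : PrG, -Complex.log (1 - f P.1))

/-- **(G5)** Weyl's criterion on `[0, 1)` -/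
def WeylStmt : Prop := ∀ (ι : Type) (θ : ι → ℝ) (F : ℕ → Finset ι) (c : ℕ → ℝ),
  (∀ i, 0 ≤ θ i) → (∀ i, θ i < 1) → (∀ n, 0 ≤ c n) →
  Tendsto (fun n => c n * ((F n).card : ℝ)) atTop (𝓝 1) →
  (∀ k : ℤ, k ≠ 0 → Tendsto (fun n => (c n : ℂ) *
    ∑ i ∈ F n, Complex.exp (2 * Real.pi * Complex.I * k * θ i)) atTop (𝓝 0)) →
  ∀ α β : ℝ, 0 ≤ α → α ≤ β → β ≤ 1 →
    Tendsto (fun n => c n * (Nat.card {i // i ∈ F n ∧ α < θ i ∧ θ i < β} : ℝ)) atTop (𝓝 (β - α)) ∧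
    Tendsto (fun n => c n * (Nat.card {i // i ∈ F n ∧ α ≤ θ i ∧ θ i ≤ β} : ℝ)) atTop (𝓝 (β - α))

end Fermat.Agent.Cor.Gauss
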