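import Fermat.Agent.Corollaries.Gauss.Defs

/-!
# Primary Gaussian primes: definitions and interfaces

`a + b i` is primary if it is `≡ 1 mod (2 + 2 i)`, that is `b` even and `a + b ≡ 1 mod 4`. Every
Gaussian integer of odd norm is associated to exactly one primary one.
-/

set_option autoImplicit false

noncomputable section

open Filter Topology Asymptotics

namespace Fermat.Agent.Cor.Gauss

/-- **(G9)** the lattice point estimate for a translate of `ℤ[i]` -/
def LatShiftStmt : Prop := ∀ (δ : ℂ) (j : ℤ), ∃ C : ℝ, ∀ R : ℝ, 1 ≤ R →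
  ‖(∑' u : {u : GaussianInt // GaussianInt.toComplex u + δ ≠ 0 ∧
      ‖GaussianInt.toComplex u + δ‖ ≤ R},
      ((GaussianInt.toComplex u + δ) / ‖GaussianInt.toComplex u + δ‖) ^ j) -
    (if j = 0 then (Real.pi : ℂ) * R ^ 2 else 0)‖ ≤ C * R

/-- primary: `≡ 1 mod (2 + 2 i)` -/
def Primary (z : GaussianInt) : Prop := z.im % 2 = 0 ∧ (z.re + z.im) % 4 = 1

/-- `b_k(n) = ∑ (z / |z|) ^ k` over the primary `z` of norm `n` -/
def bG (k : ℤ) (n : ℕ) : ℂ := ∑' z : {z : GaussianInt // nG z = n ∧ Primary z}, dir z ^ k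

/-- the lattice point estimate for the primary Gaussian integers -/
def LatPrimStmt : Prop := ∀ k : ℤ, (fun n : ℕ => (∑ m ∈ Finset.Icc 1 n, bG k m) -
  (if k = 0 then (Real.pi / 8 : ℂ) else 0) * n) =O[atTop] fun n : ℕ => (n : ℝ) ^ (1 / 2 : ℝ)

/-- the primary Gaussian primes -/
abbrev PrP : Type := {π : GaussianInt // Prime π ∧ Primary π}

end Fermat.Agent.Cor.Gauss
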