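import Fermat.Agent.Corollaries.ZetaK.PrimeCount

/-!
# Logarithmic derivatives of abstract Euler products

`N : ι → ℕ`, `z : ι → ℂ`, `|z| ≤ 1`: the Euler product `exp (∑ -log (1 - z_i N_i^{-s}))`.

* `neg_logDeriv_eul` : its logarithmic derivative as a sum over the prime powers.
* `LSeries_vM` : a weighted sum over the prime powers as a Dirichlet series.
-/

set_option autoImplicit false

noncomputable section

open Complex Filter Topology

namespace Fermat.Agent.Cor.Gauss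

variable {ι : Type*}

/-! ### Dirichlet series from families -/

section Fiber

variable {N : ι → ℕ} {w : ι → ℂ} {s : ℂ}

/-- the coefficients of the Dirichlet series `∑_i w(i) N(i)^{-s}` -/
def fib (N : ι → ℕ) (w : ι → ℂ) (n : ℕ) : ℂ := ∑' i : {i // N i = n}, w i

theorem hasSum_fib (hN : ∀ i, N i ≠ 0) (h : Summable fun i => w i * (N i : ℂ) ^ (-s)) :
    HasSum (fun n => LSeries.term (fib N w) s n) (∑' i, w i * (N i : ℂ) ^ (-s)) := by
  have h1 := h.hasSum
  rw [← (Equiv.sigmaFiberEquiv N).hasSum_iff] at h1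
  have h2 := h1.sigma (g := fun n => LSeries.term (fib N w) s n) ?_
  · exact h2
  · intro n
    have h3 : Summable fun i : {i // N i = n} => w i * (N i : ℂ) ^ (-s) :=
      h.comp_injective Subtype.val_injective
    have h4 : ∑' i : {i // N i = n}, w i * (N i : ℂ) ^ (-s) = LSeries.term (fib N w) s n := by
      rcases eq_or_ne n 0 with rfl | hn
      · rw [LSeries.term_zero]
        have : IsEmpty {i // N i = 0} := ⟨fun i => hN i i.2⟩
        exact tsum_empty
      · rw [LSeries.term_of_ne_zero hn, fib, div_eq_mul_inv, ← tsum_mul_right]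
        refine tsum_congr fun i => ?_
        rw [i.2, Complex.cpow_neg]
    rw [← h4]
    exact h3.hasSum

end Fiber

/-! ### The Euler product -/

/-- the data of an Euler product: `N_i ≥ 2`, `∑ N_i^{-σ} < ∞` for `σ > 1`, `|z_i| ≤ 1` -/
structure EulDat (N : ι → ℕ) (z : ι → ℂ) : Prop where
  two_le : ∀ i, 2 ≤ N i
  norm_le : ∀ i, ‖z i‖ ≤ 1
  summable : ∀ σ : ℝ, 1 < σ → Summable fun i => (N i : ℝ) ^ (-σ)

/-- `∑_i -log (1 - z_i N_i^{-s})` -/
def eul (N : ι → ℕ) (z : ι → ℂ) (s : ℂ) : ℂ :=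
  ∑' i, -Complex.log (1 - z i * (N i : ℂ) ^ (-s))

namespace EulDat

variable {N : ι → ℕ} {z : ι → ℂ} (h : EulDat N z)

include h

theorem pos (i : ι) : (0 : ℝ) < N i := by
  have := h.two_le i
  positivity

theorem one_le (i : ι) : (1 : ℝ) ≤ N i := by
  exact_mod_cast (show 1 ≤ 2 by norm_num).trans (h.two_le i)

theorem ne_zero (i : ι) : (N i : ℂ) ≠ 0 := by
  have := h.two_le i
  exact_mod_cast (by omega : N i ≠ 0)

theorem norm_term_le (i : ι) (s : ℂ) : ‖z i * (N i : ℂ) ^ (-s)‖ ≤ (N i : ℝ) ^ (-s.re) := by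
  rw [norm_mul, Complex.norm_natCast_cpow_of_pos (by have := h.two_le i; omega), neg_re]
  exact mul_le_of_le_one_left (Real.rpow_nonneg (h.pos i).le _) (h.norm_le i)

theorem rpow_le_half {σ : ℝ} (hσ : 1 ≤ σ) (i : ι) : (N i : ℝ) ^ (-σ) ≤ 1 / 2 := by
  have h2 : (2 : ℝ) ≤ N i := by exact_mod_cast h.two_le i
  calc (N i : ℝ) ^ (-σ) ≤ (N i : ℝ) ^ (-1 : ℝ) :=
        Real.rpow_le_rpow_of_exponent_le (by linarith) (by linarith)
    _ = ((N i : ℝ))⁻¹ := Real.rpow_neg_one _
    _ ≤ 2⁻¹ := inv_anti₀ two_pos h2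
    _ = 1 / 2 := by norm_num

theorem norm_term_lt {s : ℂ} (hs : 1 < s.re) (i : ι) : ‖z i * (N i : ℂ) ^ (-s)‖ < 1 := by
  have h1 := h.norm_term_le i s
  have h2 := h.rpow_le_half hs.le i
  linarith

theorem summable_term {s : ℂ} (hs : 1 < s.re) : Summable fun i => z i * (N i : ℂ) ^ (-s) :=
  Summable.of_norm ((h.summable s.re hs).of_nonneg_of_le (fun _ => norm_nonneg _)
    fun i => h.norm_term_le i s)

theorem summable_log {s : ℂ} (hs : 1 < s.re) :
    Summable fun i => -Complex.log (1 - z i * (N i : ℂ) ^ (-s)) := by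
  have h1 := Complex.summable_log_one_add_of_summable (h.summable_term hs).norm.of_norm.neg
  simpa only [sub_eq_add_neg] using h1.neg

/-- the weighted sum over the primes -/
theorem summable_log_rpow {σ : ℝ} (hσ : 1 < σ) :
    Summable fun i => Real.log (N i) * (N i : ℝ) ^ (-σ) := by
  have hε : 0 < (σ - 1) / 2 := by linarith
  have h1 : Summable fun i => ((σ - 1) / 2)⁻¹ * (N i : ℝ) ^ (-(σ - (σ - 1) / 2)) :=
    (h.summable (σ - (σ - 1) / 2) (by linarith)).mul_left _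
  refine h1.of_nonneg_of_le (fun i => ?_) fun i => ?_
  · exact mul_nonneg (Real.log_nonneg (h.one_le i)) (Real.rpow_nonneg (h.pos i).le _)
  · have h2 := Real.log_le_rpow_div (h.pos i).le hε
    calc Real.log (N i) * (N i : ℝ) ^ (-σ) ≤
          ((N i : ℝ) ^ ((σ - 1) / 2) / ((σ - 1) / 2)) * (N i : ℝ) ^ (-σ) :=
          mul_le_mul_of_nonneg_right h2 (Real.rpow_nonneg (h.pos i).le _)
      _ = ((σ - 1) / 2)⁻¹ * ((N i : ℝ) ^ ((σ - 1) / 2) * (N i : ℝ) ^ (-σ)) := by
          rw [div_eq_mul_inv]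
          ring
      _ = _ := by
          rw [← Real.rpow_add (h.pos i)]
          congr 2
          ring

omit h in
theorem one_sub_mem_slitPlane {w : ℂ} (hw : ‖w‖ < 1) : 1 - w ∈ slitPlane := by
  left
  have h1 := Complex.re_le_norm w
  simp only [sub_re, one_re]
  linarith

theorem hasDerivAt_term (s : ℂ) (i : ι) :
    HasDerivAt (fun s => z i * (N i : ℂ) ^ (-s))
      (-((Real.log (N i) : ℂ) * (z i * (N i : ℂ) ^ (-s)))) s := by
  have h1 := ((hasDerivAt_neg s).const_cpow (c := (N i : ℂ)) (Or.inl (h.ne_zero i))).const_mul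
    (z i)
  refine h1.congr_deriv ?_
  rw [← Complex.natCast_log]
  ring

omit h in
/-- the term of the logarithmic derivative -/
def ldT (N : ι → ℕ) (z : ι → ℂ) (s : ℂ) (i : ι) : ℂ :=
  (Real.log (N i) : ℂ) * (z i * (N i : ℂ) ^ (-s) / (1 - z i * (N i : ℂ) ^ (-s)))

theorem norm_ldT_le {σ : ℝ} (hσ : 1 ≤ σ) {s : ℂ} (hs : σ ≤ s.re) (i : ι) :
    ‖ldT N z s i‖ ≤ 2 * (Real.log (N i) * (N i : ℝ) ^ (-σ)) := by
  have h3 := h.norm_term_le i s
  have h4 : (N i : ℝ) ^ (-s.re) ≤ (N i : ℝ) ^ (-σ) :=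
    Real.rpow_le_rpow_of_exponent_le (h.one_le i) (by linarith)
  have h5 := h.rpow_le_half hσ i
  have h6 : 1 / 2 ≤ ‖1 - z i * (N i : ℂ) ^ (-s)‖ := by
    have := norm_sub_norm_le (1 : ℂ) (z i * (N i : ℂ) ^ (-s))
    rw [norm_one] at this
    linarith
  have hlog := Real.log_nonneg (h.one_le i)
  rw [ldT, norm_mul, norm_div, Complex.norm_real, Real.norm_of_nonneg hlog]
  calc Real.log (N i) * (‖z i * (N i : ℂ) ^ (-s)‖ / ‖1 - z i * (N i : ℂ) ^ (-s)‖)
      ≤ Real.log (N i) * ((N i : ℝ) ^ (-σ) / (1 / 2)) := by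
        gcongr
        exact h3.trans h4
    _ = _ := by ring

theorem hasDerivAt_eul {s : ℂ} (hs : 1 < s.re) :
    HasDerivAt (eul N z) (∑' i, -ldT N z s i) s := by
  obtain ⟨σ, hσ1, hσ2⟩ := exists_between hs
  refine hasDerivAt_tsum_of_isPreconnected (t := {s : ℂ | σ < s.re}) (y₀ := s)
    (g := fun (i : ι) (s : ℂ) => -Complex.log (1 - z i * (N i : ℂ) ^ (-s)))
    (g' := fun (i : ι) (s : ℂ) => -ldT N z s i)
    (u := fun i : ι => 2 * (Real.log (N i) * (N i : ℝ) ^ (-σ)))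
    ((h.summable_log_rpow hσ1).mul_left 2) (isOpen_lt continuous_const continuous_re)
    (convex_halfSpace_re_gt σ).isPreconnected (fun i y hy => ?_) (fun i y hy => ?_) hσ2
    (h.summable_log hs) hσ2
  · have hy' : σ < y.re := hy
    have hlt := h.norm_term_lt (hσ1.trans hy') i
    have h1 := ((h.hasDerivAt_term y i).const_sub 1).clog (one_sub_mem_slitPlane hlt)
    refine h1.neg.congr_deriv ?_
    rw [ldT]
    ring
  · rw [norm_neg]
    exact h.norm_ldT_le hσ1.le (le_of_lt hy) i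

/-- the terms over prime powers -/
theorem hasSum_ldT {s : ℂ} (hs : 1 < s.re) (i : ι) :
    HasSum (fun k : ℕ => (Real.log (N i) : ℂ) * (z i * (N i : ℂ) ^ (-s)) ^ (k + 1))
      (ldT N z s i) := by
  have h1 := ((hasSum_geometric_of_norm_lt_one (h.norm_term_lt hs i)).mul_left
    (z i * (N i : ℂ) ^ (-s))).mul_left (Real.log (N i) : ℂ)
  rw [ldT, div_eq_mul_inv]
  simpa only [pow_succ'] using h1

theorem summable_pair {s : ℂ} (hs : 1 < s.re) :
    Summable fun q : ι × ℕ => (Real.log (N q.1) : ℂ) * (z q.1 * (N q.1 : ℂ) ^ (-s)) ^ (q.2 + 1) := by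
  have hlog : ∀ i, 0 ≤ Real.log (N i) * (N i : ℝ) ^ (-s.re) := fun i =>
    mul_nonneg (Real.log_nonneg (h.one_le i)) (Real.rpow_nonneg (h.pos i).le _)
  have h1 : Summable fun q : ι × ℕ =>
      (Real.log (N q.1) * (N q.1 : ℝ) ^ (-s.re)) * ((1 / 2 : ℝ)) ^ q.2 :=
    (h.summable_log_rpow hs).mul_of_nonneg
      (summable_geometric_of_lt_one (by norm_num : (0 : ℝ) ≤ 1 / 2) (by norm_num)) hlog
      (fun k => by positivity)
  refine Summable.of_norm (h1.of_nonneg_of_le (fun q => norm_nonneg _) fun q => ?_)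
  have h3 := h.norm_term_le q.1 s
  have h4 := h.rpow_le_half hs.le q.1
  rw [norm_mul, norm_pow, Complex.norm_real, Real.norm_of_nonneg (Real.log_nonneg (h.one_le q.1)),
    pow_succ', mul_assoc]
  refine mul_le_mul_of_nonneg_left ?_ (Real.log_nonneg (h.one_le q.1))
  exact mul_le_mul h3 (pow_le_pow_left₀ (norm_nonneg _) (h3.trans h4) _)
    (pow_nonneg (norm_nonneg _) _) (Real.rpow_nonneg (h.pos q.1).le _)

/-- **The logarithmic derivative** as a sum over the prime powers. -/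
theorem neg_logDeriv_eul {L : ℂ → ℂ} {c : ℂ} (hc : c ≠ 0)
    (hL : ∀ s : ℂ, 1 < s.re → L s = c * Complex.exp (eul N z s)) {s : ℂ} (hs : 1 < s.re) :
    -(deriv L s / L s) =
      ∑' q : ι × ℕ, (Real.log (N q.1) : ℂ) * (z q.1 * (N q.1 : ℂ) ^ (-s)) ^ (q.2 + 1) := by
  have h1 : L =ᶠ[𝓝 s] fun s => c * Complex.exp (eul N z s) := by
    filter_upwards [(isOpen_lt continuous_const continuous_re).mem_nhds hs] with y hy
    exact hL y hy
  have h2 := (((h.hasDerivAt_eul hs).cexp.const_mul c).congr_of_eventuallyEq h1).deriv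
  have h3 : L s = c * Complex.exp (eul N z s) := h1.self_of_nhds
  have h4 : Complex.exp (eul N z s) ≠ 0 := Complex.exp_ne_zero _
  rw [h2, h3, (h.summable_pair hs).tsum_prod, tsum_neg]
  have h5 : ∑' i, ∑' k : ℕ, (Real.log (N i) : ℂ) * (z i * (N i : ℂ) ^ (-s)) ^ (k + 1) =
      ∑' i, ldT N z s i := tsum_congr fun i => (h.hasSum_ldT hs i).tsum_eq
  rw [h5]
  field_simp

end EulDat

end Fermat.Agent.Cor.Gauss
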