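import Fermat.Agent.Corollaries.Gauss.Defs

/-!
# The Euler product on `ℤ[i]`

`PrG` : the Gaussian primes in the quadrant `re > 0`, `im ≥ 0`. Every non-zero Gaussian integer is
associated to exactly one element of the quadrant (`exists_unit_quad`, `unit_quad_eq_one`).
-/

set_option autoImplicit false

noncomputable section

open Filter Topology Asymptotics

open scoped Classical

namespace Fermat.Agent.Cor.Gauss

/-! ### Units -/

theorem unit_cases {u : GaussianInt} (hu : IsUnit u) :
    u = ⟨1, 0⟩ ∨ u = ⟨-1, 0⟩ ∨ u = ⟨0, 1⟩ ∨ u = ⟨0, -1⟩ := by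
  have h1 : u.norm.natAbs = 1 := Zsqrtd.norm_eq_one_iff.2 hu
  have h2 : u.norm = 1 := by
    have := GaussianInt.norm_nonneg u
    omega
  rw [Zsqrtd.norm_def] at h2
  have h3 : u.re * u.re + u.im * u.im = 1 := by linarith
  have h4 : u.re ≤ 1 := by nlinarith
  have h5 : -1 ≤ u.re := by nlinarith
  have h6 : u.im ≤ 1 := by nlinarith
  have h7 : -1 ≤ u.im := by nlinarith
  obtain ⟨a, b⟩ := u
  simp only at h3 h4 h5 h6 h7
  simp only [Zsqrtd.mk.injEq]
  interval_cases a <;> interval_cases b <;> simp_all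

theorem unit_quad_eq_one {u z : GaussianInt} (hu : IsUnit u) (h1 : 0 < z.re) (h2 : 0 ≤ z.im)
    (h3 : 0 < (u * z).re) (h4 : 0 ≤ (u * z).im) : u = 1 := by
  rcases unit_cases hu with rfl | rfl | rfl | rfl
  · rfl
  · simp [Zsqrtd.re_mul] at h3
    omega
  · simp [Zsqrtd.re_mul] at h3
    omega
  · simp [Zsqrtd.im_mul] at h4
    omega

theorem isUnit_I : IsUnit (⟨0, 1⟩ : GaussianInt) := by
  rw [← Zsqrtd.norm_eq_one_iff]
  simp [Zsqrtd.norm_def]

theorem isUnit_negI : IsUnit (⟨0, -1⟩ : GaussianInt) := by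
  rw [← Zsqrtd.norm_eq_one_iff]
  simp [Zsqrtd.norm_def]

theorem isUnit_negOne : IsUnit (⟨-1, 0⟩ : GaussianInt) := by
  rw [← Zsqrtd.norm_eq_one_iff]
  simp [Zsqrtd.norm_def]

theorem isUnit_one' : IsUnit (⟨1, 0⟩ : GaussianInt) := by
  rw [← Zsqrtd.norm_eq_one_iff]
  simp [Zsqrtd.norm_def]

theorem exists_unit_quad {z : GaussianInt} (hz : z ≠ 0) :
    ∃ u : GaussianInt, IsUnit u ∧ 0 < (u * z).re ∧ 0 ≤ (u * z).im := by
  have hz' : ¬ (z.re = 0 ∧ z.im = 0) := fun h => hz (by
    apply Zsqrtd.ext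
    · exact h.1
    · exact h.2)
  by_cases h1 : 0 < z.re ∧ 0 ≤ z.im
  · exact ⟨1, isUnit_one, by simpa using h1.1, by simpa using h1.2⟩
  by_cases h2 : z.re ≤ 0 ∧ 0 < z.im
  · refine ⟨⟨0, -1⟩, isUnit_negI, ?_, ?_⟩
    · simp [Zsqrtd.re_mul]
      omega
    · simp [Zsqrtd.im_mul]
      omega
  by_cases h3 : z.re < 0 ∧ z.im ≤ 0
  · refine ⟨⟨-1, 0⟩, isUnit_negOne, ?_, ?_⟩
    · simp [Zsqrtd.re_mul]
      omega
    · simp [Zsqrtd.im_mul]
      omega
  · refine ⟨⟨0, 1⟩, isUnit_I, ?_, ?_⟩
    · simp [Zsqrtd.re_mul]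
      omega
    · simp [Zsqrtd.im_mul]
      omega

/-! ### The primes of the quadrant -/

theorem prG_dvd_prG {P Q : PrG} (h : P.1 ∣ Q.1) : P = Q := by
  have h1 : Associated P.1 Q.1 := P.2.1.associated_of_dvd Q.2.1 h
  obtain ⟨u, hu⟩ := h1
  have h2 : ((u : GaussianInt) * P.1) = Q.1 := by rw [mul_comm, hu]
  have h3 : (u : GaussianInt) = 1 := unit_quad_eq_one u.isUnit P.2.2.1 P.2.2.2
    (by rw [h2]; exact Q.2.2.1) (by rw [h2]; exact Q.2.2.2)
  rw [h3, one_mul] at h2
  exact Subtype.ext h2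

theorem exists_prG_dvd {z : GaussianInt} (hz : z ≠ 0) (hu : ¬ IsUnit z) : ∃ P : PrG, P.1 ∣ z := by
  obtain ⟨p, hp, hpz⟩ := WfDvdMonoid.exists_irreducible_factor hu hz
  have hp' : Prime p := hp.prime
  obtain ⟨u, hu1, h1, h2⟩ := exists_unit_quad hp'.ne_zero
  refine ⟨⟨u * p, ?_, h1, h2⟩, ?_⟩
  · exact (associated_unit_mul_left p u hu1).symm.prime hp'
  · exact (associated_unit_mul_left p u hu1).dvd.trans hpz

/-! ### Truncated sums -/

section Trunc

variable {f : GaussianInt →*₀ ℂ}

/-- truncated function -/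
def trunc (f : GaussianInt →*₀ ℂ) (T : Finset PrG) (z : GaussianInt) : ℂ :=
  if ∀ P ∈ T, ¬ P.1 ∣ z then f z else 0

theorem norm_trunc_le (f : GaussianInt →*₀ ℂ) (T : Finset PrG) (z : GaussianInt) :
    ‖trunc f T z‖ ≤ ‖f z‖ := by
  unfold trunc
  split_ifs
  · exact le_rfl
  · rw [norm_zero]; exact norm_nonneg _

theorem summable_trunc (hf : Summable fun z => ‖f z‖) (T : Finset PrG) :
    Summable (trunc f T) :=
  Summable.of_norm_bounded hf (norm_trunc_le f T)

theorem trunc_mul {T : Finset PrG} {P : PrG} (hP : P ∉ T) (w : GaussianInt) :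
    trunc f T (P.1 * w) = f P.1 * trunc f T w := by
  unfold trunc
  have : (∀ Q ∈ T, ¬ Q.1 ∣ P.1 * w) ↔ (∀ Q ∈ T, ¬ Q.1 ∣ w) := by
    refine forall₂_congr fun Q hQ => ?_
    rw [Q.2.1.dvd_mul, not_or]
    refine and_iff_right fun h => hP ?_
    rwa [← prG_dvd_prG h]
  simp only [this, map_mul, mul_ite, mul_zero]

theorem tsum_trunc_insert (hf : Summable fun z => ‖f z‖) {T : Finset PrG} {P : PrG}
    (hP : P ∉ T) :
    ∑' z, trunc f (insert P T) z = (1 - f P.1) * ∑' z, trunc f T z := by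
  have h1 : ∀ z, trunc f T z = trunc f (insert P T) z + (if P.1 ∣ z then trunc f T z else 0) := by
    intro z
    by_cases h : P.1 ∣ z
    · have : trunc f (insert P T) z = 0 := by
        unfold trunc
        rw [if_neg]
        simp [h]
      rw [if_pos h, this, zero_add]
    · rw [if_neg h, add_zero]
      unfold trunc
      simp [h]
  have hs2 : Summable fun z => (if P.1 ∣ z then trunc f T z else 0) := by
    refine Summable.of_norm_bounded hf fun z => ?_
    split_ifs
    · exact norm_trunc_le f T z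
    · rw [norm_zero]; exact norm_nonneg _
  have h2 : ∑' z, (if P.1 ∣ z then trunc f T z else 0) = f P.1 * ∑' z, trunc f T z := by
    have hinj : Function.Injective (fun w : GaussianInt => P.1 * w) :=
      mul_right_injective₀ P.2.1.ne_zero
    rw [← hinj.tsum_eq, ← tsum_mul_left]
    · refine tsum_congr fun w => ?_
      rw [if_pos (Dvd.intro _ rfl), trunc_mul hP]
    · intro z hz
      rw [Function.mem_support] at hz
      by_contra h
      apply hz
      rw [if_neg]
      rintro ⟨w, hw⟩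
      exact h ⟨w, hw.symm⟩
  have h3 : ∑' z, trunc f T z = ∑' z, trunc f (insert P T) z + f P.1 * ∑' z, trunc f T z := by
    rw [← h2, ← (summable_trunc hf _).tsum_add hs2]
    exact tsum_congr h1
  linear_combination -h3

theorem prod_mul_tsum (hf : Summable fun z => ‖f z‖) (T : Finset PrG) :
    (∏ P ∈ T, (1 - f P.1)) * ∑' z, f z = ∑' z, trunc f T z := by
  induction T using Finset.induction_on with
  | empty => simp [trunc]
  | insert P T hP ih =>
    rw [Finset.prod_insert hP, mul_assoc, ih, tsum_trunc_insert hf hP]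

/-- the four units -/
theorem tsum_units (hu : ∀ u : GaussianInt, IsUnit u → f u = 1) :
    ∑' z : GaussianInt, (if IsUnit z then f z else 0) = 4 := by
  rw [tsum_eq_sum (s := {⟨1, 0⟩, ⟨-1, 0⟩, ⟨0, 1⟩, ⟨0, -1⟩})]
  · rw [Finset.sum_insert, Finset.sum_insert, Finset.sum_insert, Finset.sum_singleton,
      if_pos isUnit_one', if_pos isUnit_negOne, if_pos isUnit_I, if_pos isUnit_negI,
      hu _ isUnit_one', hu _ isUnit_negOne, hu _ isUnit_I, hu _ isUnit_negI]
    · norm_num
    · simp
    · simp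
    · simp
  · intro z hz
    rw [if_neg]
    intro h
    apply hz
    rcases unit_cases h with h | h | h | h <;> simp [h]

theorem tendsto_tsum_trunc (hu : ∀ u : GaussianInt, IsUnit u → f u = 1)
    (hf : Summable fun z => ‖f z‖) :
    Tendsto (fun T : Finset PrG => ∑' z, trunc f T z) atTop (𝓝 4) := by
  rw [← tsum_units hu]
  refine tendsto_tsum_of_dominated_convergence (bound := fun z => ‖f z‖) hf (fun z => ?_)
    (Eventually.of_forall fun T z => norm_trunc_le f T z)
  by_cases hz : z = 0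
  · subst hz
    refine tendsto_const_nhds.congr fun T => ?_
    simp [trunc]
  by_cases hz' : IsUnit z
  · refine tendsto_const_nhds.congr fun T => ?_
    rw [if_pos hz', trunc, if_pos]
    intro P _ h
    exact P.2.1.not_isUnit (isUnit_of_dvd_unit h hz')
  · obtain ⟨P, hP⟩ := exists_prG_dvd hz hz'
    refine tendsto_const_nhds.congr' ?_
    filter_upwards [eventually_ge_atTop {P}] with T hT
    rw [if_neg hz', trunc, if_neg]
    intro h
    exact h P (hT (Finset.mem_singleton_self P)) hP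

/-! ### The Euler product -/

theorem norm_prG_lt_one (hf : Summable fun z => ‖f z‖) (P : PrG) : ‖f P.1‖ < 1 := by
  have hinj : Function.Injective fun n : ℕ => P.1 ^ n := by
    intro m n h
    have h1 := congrArg (fun z : GaussianInt => z.norm.natAbs) h
    have h2 : 2 ≤ P.1.norm.natAbs := by
      have h3 : P.1.norm.natAbs ≠ 1 := fun h4 =>
        P.2.1.not_isUnit (Zsqrtd.norm_eq_one_iff.1 h4)
      have h4 : P.1.norm.natAbs ≠ 0 := by
        rw [Int.natAbs_ne_zero]
        exact fun h5 => P.2.1.ne_zero (GaussianInt.norm_eq_zero.1 h5)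
      omega
    have h3 : ∀ n : ℕ, (P.1 ^ n).norm.natAbs = P.1.norm.natAbs ^ n := by
      intro n
      induction n with
      | zero => simp
      | succ n ih => rw [pow_succ, Zsqrtd.norm_mul, Int.natAbs_mul, ih, pow_succ]
    simp only [h3] at h1
    exact Nat.pow_right_injective h2 h1
  have h1 : Summable fun n : ℕ => ‖f P.1‖ ^ n := by
    have := hf.comp_injective hinj
    refine this.congr fun n => ?_
    simp only [Function.comp_apply, map_pow, norm_pow]
  by_contra hge
  rw [not_lt] at hge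
  have h2 := h1.tendsto_atTop_zero
  have h3 : ∀ n : ℕ, 1 ≤ ‖f P.1‖ ^ n := fun n => one_le_pow₀ hge
  have h4 := ge_of_tendsto h2 (Eventually.of_forall h3)
  linarith

theorem one_sub_ne_zero (hf : Summable fun z => ‖f z‖) (P : PrG) : 1 - f P.1 ≠ 0 := by
  intro h
  have h1 := norm_prG_lt_one hf P
  rw [← sub_eq_zero.mp h, norm_one] at h1
  exact lt_irrefl _ h1

theorem summable_prG (hf : Summable fun z => ‖f z‖) : Summable fun P : PrG => f P.1 :=
  (hf.of_norm).comp_injective Subtype.val_injective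

theorem summable_log_prG (hf : Summable fun z => ‖f z‖) :
    Summable fun P : PrG => -Complex.log (1 - f P.1) := by
  have h := Complex.summable_log_one_add_of_summable (summable_prG hf).neg
  refine h.neg.congr fun P => ?_
  rw [← sub_eq_add_neg]

/-- **The Euler product on `ℤ[i]`.** -/
theorem exp_tsum_log_prG (hu : ∀ u : GaussianInt, IsUnit u → f u = 1)
    (hf : Summable fun z => ‖f z‖) :
    ∑' z, f z = 4 * Complex.exp (∑' P : PrG, -Complex.log (1 - f P.1)) := by
  have h1 : Tendsto (fun T : Finset PrG => ∏ P ∈ T, (1 - f P.1)) atTop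
      (𝓝 (Complex.exp (∑' P : PrG, -Complex.log (1 - f P.1)))⁻¹) := by
    have h2 : Tendsto (fun T : Finset PrG =>
        Complex.exp (∑ P ∈ T, -Complex.log (1 - f P.1))) atTop
        (𝓝 (Complex.exp (∑' P : PrG, -Complex.log (1 - f P.1)))) :=
      (Complex.continuous_exp.tendsto _).comp (summable_log_prG hf).hasSum
    refine (h2.inv₀ (Complex.exp_ne_zero _)).congr fun T => ?_
    rw [Complex.exp_sum, ← Finset.prod_inv_distrib]
    refine Finset.prod_congr rfl fun P _ => ?_
    rw [Complex.exp_neg, inv_inv, Complex.exp_log (one_sub_ne_zero hf P)]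
  have h2 : Tendsto (fun T : Finset PrG => (∏ P ∈ T, (1 - f P.1)) * ∑' z, f z) atTop (𝓝 4) := by
    simp_rw [prod_mul_tsum hf]
    exact tendsto_tsum_trunc hu hf
  have h3 := tendsto_nhds_unique (h1.mul_const (∑' z, f z)) h2
  have h4 := Complex.exp_ne_zero (∑' P : PrG, -Complex.log (1 - f P.1))
  field_simp at h3
  rw [h3]
  ring

end Trunc

/-- **(G3)** -/
theorem eulerStmt : EulerStmt := fun _ hu hf =>
  ⟨summable_prG hf, norm_prG_lt_one hf, exp_tsum_log_prG hu hf⟩

end Fermat.Agent.Cor.Gauss
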