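import Fermat.Agent.Corollaries.Gauss.LFun
import Fermat.Agent.Corollaries.Gauss.Cont
import Fermat.Agent.Corollaries.Gauss.CharPNT
import Fermat.Agent.Corollaries.ZetaK.Moebius

/-!
# The `L`-functions of Hecke for `ℤ[i]` and the sums over the Gaussian primes

From the lattice point estimate `LatStmt`:

* `exists_heckeDat` : the `L`-functions `∑_z (z / |z|)^{4 k} N(z)^{-s}`.
* `tendsto_card_prG` : `#{π : N π ≤ x} ~ x / log x` (primes of the quadrant).
* `tendsto_sum_prG` : `∑_{N π ≤ x} (π / |π|)^{4 k} = o(x / log x)` for `k ≠ 0`.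
-/

set_option autoImplicit false

noncomputable section

open Filter Topology Complex

namespace Fermat.Agent.Cor.Gauss

theorem exists_heckeDat (hlat : LatStmt) : ∃ (L : ℤ → ℂ → ℂ) (Z : ℂ → ℂ),
    HeckeDat (fun P : PrG => nG P.1) (fun P : PrG => dir P.1 ^ (4 : ℤ)) L Z
      {s : ℂ | 1 / 2 < s.re} := by
  choose H hH hH' using fun k : ℤ => contStmt (aG k) (if k = 0 then (Real.pi : ℂ) else 0) (1 / 2)
    (by norm_num) (by norm_num) (fun s hs => lseriesSummable_aG k hs) (hlat k)
  set L : ℤ → ℂ → ℂ := fun k s => H k s + (if k = 0 then (Real.pi : ℂ) else 0) * riemannZeta s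
    with hL
  have hopen : IsOpen {s : ℂ | 1 / 2 < s.re} := isOpen_lt continuous_const continuous_re
  have hHd : ∀ (k : ℤ) (s : ℂ), s ∈ {s : ℂ | 1 / 2 < s.re} → DifferentiableAt ℂ (H k) s :=
    fun k s hs => (hH k).differentiableAt (hopen.mem_nhds hs)
  refine ⟨L, fun s => (s - 1) * H 0 s + Real.pi * zet s, ?_⟩
  refine
    { two_le := two_le_nG
      norm_z := fun P => by rw [norm_zpow, norm_dir P.2.1.ne_zero, one_zpow]
      summable := fun σ hσ => summable_prG_rpow hσ
      isOpen := hopen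
      subset := fun s hs => by
        have h1 : (1 : ℝ) ≤ s.re := hs
        change (1 / 2 : ℝ) < s.re
        linarith
      euler := fun k => ⟨4, by norm_num, fun s hs => ?_⟩
      diff := fun k s hs h => ?_
      diffZ := ?_
      Z_one := ?_
      Z_eq := fun s _ h1 => ?_ }
  · have h0 : s ≠ 0 := Complex.ne_zero_of_one_lt_re hs
    have h1 := (eulerStmt (fG k h0) (fun u hu => fG_unit k h0 hu) (summable_fG k hs h0)).2.2
    simp only [hL]
    have h2 : ∀ P : PrG, fG k h0 P.1 = (dir P.1 ^ (4 : ℤ)) ^ k * (nG P.1 : ℂ) ^ (-s) := by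
      intro P
      rw [fG_apply, zpow_mul]
    rw [← hH' k s hs, ← tsum_fG k hs h0, h1, eul]
    simp only [h2]
  · rcases eq_or_ne k 0 with rfl | hk
    · have h1 : s ≠ 1 := by
        rcases h with h | h
        · exact h
        · exact absurd rfl h
      exact (hHd 0 s hs).add ((differentiableAt_riemannZeta h1).const_mul _)
    · have h2 : L k = H k := by
        ext s
        simp only [hL, if_neg hk, zero_mul, add_zero]
      rw [h2]
      exact hHd k s hs
  · have h1 : DifferentiableOn ℂ (fun s : ℂ => s - 1) {s : ℂ | 1 / 2 < s.re} :=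
      (differentiable_id.sub_const (1 : ℂ)).differentiableOn
    exact (h1.mul (hH 0)).add (differentiable_zet.const_mul _).differentiableOn
  · rw [sub_self, zero_mul, zero_add, zet_one, mul_one]
    exact_mod_cast Real.pi_ne_zero
  · simp only [hL, if_true]
    rw [zet_of_ne h1]
    ring

/-- **The prime number theorem for `ℤ[i]`.** -/
theorem tendsto_card_prG (hlat : LatStmt) :
    Tendsto (fun x : ℕ => ((isCount_prG.F x).card : ℝ) * Real.log x / x) atTop (𝓝 1) := by
  obtain ⟨L, Z, h⟩ := exists_heckeDat hlat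
  exact h.tendsto_card isCount_prG

/-- `∑_{N π ≤ x} (π / |π|)^{4 k} = o(x / log x)` for `k ≠ 0` -/
theorem tendsto_sum_prG (hlat : LatStmt) {k : ℤ} (hk : k ≠ 0) :
    Tendsto (fun x : ℕ => ((Real.log x / x : ℝ) : ℂ) *
      ∑ P ∈ isCount_prG.F x, (dir P.1 ^ (4 : ℤ)) ^ k) atTop (𝓝 0) := by
  obtain ⟨L, Z, h⟩ := exists_heckeDat hlat
  exact h.tendsto_sum isCount_prG hk

end Fermat.Agent.Cor.Gauss
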