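import Fermat.Agent.Corollaries.Gauss.Euler
import Fermat.Agent.Corollaries.Gauss.EulLog

/-!
# The functions `z ↦ (z / |z|)^{4 k} N(z)^{-s}` on `ℤ[i]`

* `fG k hs` : this function, as a homomorphism of monoids with zero.
* `summable_fG`, `tsum_fG` : `∑_z fG k s z = ∑_n a_k(n) n^{-s}` for `Re s > 1`.
* `isCount_prG` : the number of Gaussian primes of norm `≤ x` in the quadrant is `≤ 2 x`.
-/

set_option autoImplicit false

noncomputable section

open Filter Topology Asymptotics Complex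

namespace Fermat.Agent.Cor.Gauss

/-! ### Norms and directions -/

theorem nG_mul (z w : GaussianInt) : nG (z * w) = nG z * nG w := by
  rw [nG, Zsqrtd.norm_mul, Int.natAbs_mul]
  rfl

theorem nG_one : nG 1 = 1 := by simp [nG]

theorem nG_zero : nG 0 = 0 := by simp [nG]

theorem nG_eq_zero {z : GaussianInt} : nG z = 0 ↔ z = 0 := by
  rw [nG, Int.natAbs_eq_zero, GaussianInt.norm_eq_zero]

theorem nG_eq (z : GaussianInt) : (nG z : ℤ) = z.re * z.re + z.im * z.im := by
  rw [nG, GaussianInt.abs_natCast_norm, Zsqrtd.norm_def]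
  ring

theorem dir_mul (z w : GaussianInt) : dir (z * w) = dir z * dir w := by
  rw [dir, dir, dir, map_mul, norm_mul, Complex.ofReal_mul]
  ring

theorem dir_one : dir 1 = 1 := by simp [dir]

theorem dir_zero : dir 0 = 0 := by simp [dir]

theorem norm_dir {z : GaussianInt} (hz : z ≠ 0) : ‖dir z‖ = 1 := by
  have h1 : ‖GaussianInt.toComplex z‖ ≠ 0 := by
    rw [norm_ne_zero_iff]
    exact fun h => hz (GaussianInt.toComplex_eq_zero.1 h)
  rw [dir, norm_div, Complex.norm_real, norm_norm, div_self h1]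

theorem norm_dir_le (z : GaussianInt) (k : ℤ) : ‖dir z ^ (4 * k)‖ ≤ 1 := by
  rcases eq_or_ne z 0 with rfl | hz
  · rw [dir_zero]
    rcases eq_or_ne k 0 with rfl | hk
    · simp
    · rw [zero_zpow _ (by omega)]
      simp
  · rw [norm_zpow, norm_dir hz, one_zpow]

theorem dir_unit {u : GaussianInt} (hu : IsUnit u) (k : ℤ) : dir u ^ (4 * k) = 1 := by
  have h1 : dir u ^ (4 : ℤ) = 1 := by
    rcases unit_cases hu with rfl | rfl | rfl | rfl
    · simp [dir, GaussianInt.toComplex_def]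
    · simp [dir, GaussianInt.toComplex_def]
      norm_num
    · simp [dir, GaussianInt.toComplex_def]
    · simp [dir, GaussianInt.toComplex_def]
      norm_cast
      rw [neg_pow]
      simp [Complex.I_pow_four]
      norm_num
  rw [zpow_mul, h1, one_zpow]

/-- `z ↦ (z / |z|)^{4 k} N(z)^{-s}` -/
def fG (k : ℤ) {s : ℂ} (hs : s ≠ 0) : GaussianInt →*₀ ℂ where
  toFun z := dir z ^ (4 * k) * (nG z : ℂ) ^ (-s)
  map_zero' := by rw [nG_zero, Nat.cast_zero, zero_cpow (neg_ne_zero.2 hs), mul_zero]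
  map_one' := by rw [nG_one, Nat.cast_one, one_cpow, dir_one, one_zpow, mul_one]
  map_mul' z w := by
    rw [nG_mul, Nat.cast_mul, Complex.natCast_mul_natCast_cpow, dir_mul, mul_zpow]
    ring

theorem fG_apply (k : ℤ) {s : ℂ} (hs : s ≠ 0) (z : GaussianInt) :
    fG k hs z = dir z ^ (4 * k) * (nG z : ℂ) ^ (-s) := rfl

theorem fG_unit (k : ℤ) {s : ℂ} (hs : s ≠ 0) {u : GaussianInt} (hu : IsUnit u) :
    fG k hs u = 1 := by
  have h1 : nG u = 1 := Zsqrtd.norm_eq_one_iff.2 hu
  rw [fG_apply, dir_unit hu, h1, Nat.cast_one, one_cpow, mul_one]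

/-! ### Summability -/

/-- `ℤ[i] ≃ ℤ²` -/
def eqv : GaussianInt ≃ (Fin 2 → ℤ) where
  toFun z := ![z.re, z.im]
  invFun x := ⟨x 0, x 1⟩
  left_inv z := rfl
  right_inv x := by
    ext i
    fin_cases i <;> rfl

theorem sq_norm_le (z : GaussianInt) : ‖eqv z‖ ^ 2 ≤ nG z := by
  have h1 : ((nG z : ℤ) : ℝ) = (z.re : ℝ) ^ 2 + (z.im : ℝ) ^ 2 := by
    rw [nG_eq]
    push_cast
    ring
  have h2 : (nG z : ℝ) = (z.re : ℝ) ^ 2 + (z.im : ℝ) ^ 2 := by exact_mod_cast h1
  have h3 : ‖eqv z‖ ≤ Real.sqrt (nG z) := by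
    rw [pi_norm_le_iff_of_nonneg (Real.sqrt_nonneg _)]
    intro i
    rw [h2]
    fin_cases i
    · change ‖z.re‖ ≤ _
      rw [Int.norm_eq_abs]
      exact Real.abs_le_sqrt (by nlinarith [sq_nonneg (z.im : ℝ)])
    · change ‖z.im‖ ≤ _
      rw [Int.norm_eq_abs]
      exact Real.abs_le_sqrt (by nlinarith [sq_nonneg (z.re : ℝ)])
  calc ‖eqv z‖ ^ 2 ≤ Real.sqrt (nG z) ^ 2 := pow_le_pow_left₀ (norm_nonneg _) h3 2
    _ = nG z := Real.sq_sqrt (Nat.cast_nonneg _)

theorem summable_nG {σ : ℝ} (hσ : 1 < σ) : Summable fun z : GaussianInt => (nG z : ℝ) ^ (-σ) := by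
  have h1 : Summable fun z : GaussianInt => ‖eqv z‖ ^ (-(2 * σ)) :=
    (EisensteinSeries.summable_one_div_norm_rpow (k := 2 * σ) (by linarith)).comp_injective
      eqv.injective
  refine h1.of_nonneg_of_le (fun z => Real.rpow_nonneg (Nat.cast_nonneg _) _) fun z => ?_
  rcases eq_or_ne z 0 with rfl | hz
  · rw [nG_zero, Nat.cast_zero, Real.zero_rpow (by linarith)]
    exact Real.rpow_nonneg (norm_nonneg _) _
  · have h2 : 0 < ‖eqv z‖ := by
      rw [norm_pos_iff]
      intro h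
      apply hz
      have h3 := congrFun h 0
      have h4 := congrFun h 1
      apply Zsqrtd.ext
      · exact h3
      · exact h4
    have h3 : (‖eqv z‖ ^ (2 : ℝ)) ^ (-σ) = ‖eqv z‖ ^ (-(2 * σ)) := by
      rw [← Real.rpow_mul h2.le]
      congr 1
      ring
    rw [← h3]
    refine Real.rpow_le_rpow_of_nonpos (by positivity) ?_ (by linarith)
    exact_mod_cast sq_norm_le z

theorem norm_fG_le (k : ℤ) {s : ℂ} (h0 : s ≠ 0) (z : GaussianInt) :
    ‖fG k h0 z‖ ≤ (nG z : ℝ) ^ (-s.re) := by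
  rcases eq_or_ne z 0 with rfl | hz
  · rw [map_zero, norm_zero]
    exact Real.rpow_nonneg (Nat.cast_nonneg _) _
  · rw [fG_apply, norm_mul, Complex.norm_natCast_cpow_of_pos
      (Nat.pos_of_ne_zero fun h => hz (nG_eq_zero.1 h)), neg_re]
    exact mul_le_of_le_one_left (Real.rpow_nonneg (Nat.cast_nonneg _) _) (norm_dir_le z k)

theorem summable_fG (k : ℤ) {s : ℂ} (hs : 1 < s.re) (h0 : s ≠ 0) :
    Summable fun z => ‖fG k h0 z‖ :=
  (summable_nG hs).of_nonneg_of_le (fun _ => norm_nonneg _) fun z => norm_fG_le k h0 z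

/-! ### The Dirichlet series -/

theorem hasSum_aG (k : ℤ) {s : ℂ} (hs : 1 < s.re) (h0 : s ≠ 0) :
    HasSum (fun n => LSeries.term (aG k) s n) (∑' z, fG k h0 z) := by
  have hsum : Summable fun z => fG k h0 z := (summable_fG k hs h0).of_norm
  have h1 := hsum.hasSum
  rw [← (Equiv.sigmaFiberEquiv nG).hasSum_iff] at h1
  have h2 := h1.sigma (g := fun n => LSeries.term (aG k) s n) ?_
  · exact h2
  · intro n
    have h3 : Summable fun z : {z // nG z = n} => fG k h0 z :=
      hsum.comp_injective Subtype.val_injective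
    have h4 : ∑' z : {z // nG z = n}, fG k h0 z = LSeries.term (aG k) s n := by
      rcases eq_or_ne n 0 with rfl | hn
      · rw [LSeries.term_zero]
        refine (tsum_congr fun z => ?_).trans tsum_zero
        rw [nG_eq_zero.1 z.2, map_zero]
      · rw [LSeries.term_of_ne_zero hn, aG, div_eq_mul_inv, ← tsum_mul_right]
        refine tsum_congr fun z => ?_
        rw [fG_apply, z.2, Complex.cpow_neg]
    rw [← h4]
    exact h3.hasSum

theorem lseriesSummable_aG (k : ℤ) {s : ℂ} (hs : 1 < s.re) : LSeriesSummable (aG k) s :=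
  (hasSum_aG k hs (Complex.ne_zero_of_one_lt_re hs)).summable

theorem tsum_fG (k : ℤ) {s : ℂ} (hs : 1 < s.re) (h0 : s ≠ 0) :
    ∑' z, fG k h0 z = LSeries (aG k) s :=
  (hasSum_aG k hs h0).tsum_eq.symm

/-! ### The primes -/

theorem two_le_nG (P : PrG) : 2 ≤ nG P.1 := by
  have h1 : nG P.1 ≠ 0 := fun h => P.2.1.ne_zero (nG_eq_zero.1 h)
  have h2 : nG P.1 ≠ 1 := fun h => P.2.1.not_isUnit (Zsqrtd.norm_eq_one_iff.1 h)
  omega

theorem summable_prG_rpow {σ : ℝ} (hσ : 1 < σ) :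
    Summable fun P : PrG => (nG P.1 : ℝ) ^ (-σ) :=
  (summable_nG hσ).comp_injective Subtype.val_injective

/-- the box containing the primes of norm `≤ x` -/
def box (x : ℕ) : Finset (ℤ × ℤ) := Finset.Icc 1 (Nat.sqrt x : ℤ) ×ˢ Finset.Icc 0 (Nat.sqrt x : ℤ)

theorem mem_box {x : ℕ} {P : PrG} (h : nG P.1 ≤ x) : (P.1.re, P.1.im) ∈ box x := by
  have h1 := nG_eq P.1
  have h2 := P.2.2.1
  have h3 := P.2.2.2
  have h4 : P.1.re.toNat ≤ Nat.sqrt x := by
    rw [Nat.le_sqrt]
    zify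
    rw [Int.toNat_of_nonneg h2.le]
    have : (nG P.1 : ℤ) ≤ x := by exact_mod_cast h
    nlinarith
  have h5 : P.1.im.toNat ≤ Nat.sqrt x := by
    rw [Nat.le_sqrt]
    zify
    rw [Int.toNat_of_nonneg h3]
    have : (nG P.1 : ℤ) ≤ x := by exact_mod_cast h
    nlinarith
  rw [box, Finset.mem_product, Finset.mem_Icc, Finset.mem_Icc]
  refine ⟨⟨by omega, by omega⟩, by omega, by omega⟩

theorem pair_injective : Function.Injective fun P : PrG => (P.1.re, P.1.im) := by
  intro P Q h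
  have h1 := congrArg Prod.fst h
  have h2 := congrArg Prod.snd h
  exact Subtype.ext (Zsqrtd.ext h1 h2)

theorem finite_prG (x : ℕ) : {P : PrG | nG P.1 ≤ x}.Finite :=
  ((box x).finite_toSet.preimage pair_injective.injOn).subset fun _ hP => mem_box hP

theorem ncard_prG_le (x : ℕ) : {P : PrG | nG P.1 ≤ x}.ncard ≤ 2 * x := by
  have h1 : ((fun P : PrG => (P.1.re, P.1.im)) '' {P : PrG | nG P.1 ≤ x}).ncard ≤ 2 * x := by
    refine (Set.ncard_le_ncard (t := ((box x : Finset (ℤ × ℤ)) : Set (ℤ × ℤ))) ?_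
      (Finset.finite_toSet _)).trans ?_
    · rintro _ ⟨P, hP, rfl⟩
      exact mem_box hP
    · rw [Set.ncard_coe_finset, box, Finset.card_product, Int.card_Icc, Int.card_Icc]
      have h2 : ((Nat.sqrt x : ℤ) + 1 - 1).toNat = Nat.sqrt x := by omega
      have h3 : ((Nat.sqrt x : ℤ) + 1 - 0).toNat = Nat.sqrt x + 1 := by omega
      rw [h2, h3]
      have h4 := Nat.sqrt_le x
      rcases Nat.eq_zero_or_pos (Nat.sqrt x) with h5 | h5
      · rw [h5]
        omega
      · nlinarith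
  rwa [Set.ncard_image_of_injective _ pair_injective] at h1

/-- the Gaussian primes of the quadrant: `≤ 2 x` of norm `≤ x` -/
theorem isCount_prG : IsCount (fun P : PrG => nG P.1) 2 where
  two_le := two_le_nG
  fin := finite_prG
  card x := by exact_mod_cast ncard_prG_le x

end Fermat.Agent.Cor.Gauss
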