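import Fermat.Agent.Corollaries.Gauss.LatShift

/-!
# The lattice point estimate for the primary Gaussian integers

The primary Gaussian integers are the `1 + (2 + 2 i) u = (2 + 2 i) (u + δ)`, `δ = 1 / (2 + 2 i)`,
`u ∈ ℤ[i]`, so this is the estimate for the translate of `ℤ[i]` by `δ`, with radius `√(n / 8)`.
-/

set_option autoImplicit false

noncomputable section

open Filter Topology Asymptotics Set

namespace Fermat.Agent.Cor.Gauss

namespace Lat

/-- `u ↦ 1 + (2 + 2 i) u` -/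
def phi (u : GaussianInt) : GaussianInt := ⟨1 + 2 * (u.re - u.im), 2 * (u.re + u.im)⟩

theorem phi_injective : Function.Injective phi := by
  intro u v h
  rw [phi, phi, Zsqrtd.ext_iff] at h
  dsimp only at h
  exact Zsqrtd.ext (by omega) (by omega)

theorem mem_range_phi {z : GaussianInt} : z ∈ range phi ↔ Primary z := by
  constructor
  · rintro ⟨u, rfl⟩
    simp only [phi, Primary]
    constructor <;> omega
  · rintro ⟨h1, h2⟩
    obtain ⟨t, ht⟩ : ∃ t, z.im = 2 * t := ⟨z.im / 2, by omega⟩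
    obtain ⟨a, ha⟩ : ∃ a, z.re + z.im = 4 * a + 1 := ⟨(z.re + z.im) / 4, by omega⟩
    refine ⟨⟨a, t - a⟩, ?_⟩
    rw [phi, Zsqrtd.ext_iff]
    dsimp only
    constructor <;> omega

theorem two_add_ne_zero : (2 + 2 * Complex.I : ℂ) ≠ 0 := by
  intro h
  have := congrArg Complex.re h
  simp at this

theorem norm_two_add_sq : ‖(2 + 2 * Complex.I : ℂ)‖ ^ 2 = 8 := by
  rw [← Complex.normSq_eq_norm_sq, Complex.normSq_apply]
  simp
  norm_num

theorem toComplex_phi (u : GaussianInt) : GaussianInt.toComplex (phi u) =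
    (2 + 2 * Complex.I) * (GaussianInt.toComplex u + (2 + 2 * Complex.I)⁻¹) := by
  rw [mul_add, mul_inv_cancel₀ two_add_ne_zero, phi, GaussianInt.toComplex_def']
  rw [GaussianInt.toComplex_def u]
  push_cast
  linear_combination (-2 * (u.im : ℂ)) * Complex.I_mul_I

theorem nG_phi_le_iff (u : GaussianInt) (n : ℕ) : nG (phi u) ≤ n ↔
    ‖GaussianInt.toComplex u + (2 + 2 * Complex.I)⁻¹‖ ≤
      √(n : ℝ) / ‖(2 + 2 * Complex.I : ℂ)‖ := by
  rw [← norm_le_iff, toComplex_phi, norm_mul, le_div_iff₀ (norm_pos_iff.2 two_add_ne_zero), mul_comm]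

theorem not_primary_zero : ¬ Primary 0 := by
  intro h
  have := h.2
  simp at this

theorem add_ne_zero (u : GaussianInt) :
    GaussianInt.toComplex u + (2 + 2 * Complex.I)⁻¹ ≠ 0 := by
  intro h
  have h1 := toComplex_phi u
  rw [h, mul_zero, GaussianInt.toComplex_eq_zero] at h1
  exact not_primary_zero (h1 ▸ mem_range_phi.1 ⟨u, rfl⟩)

theorem dir_phi (u : GaussianInt) (k : ℤ) : dir (phi u) ^ k =
    ((2 + 2 * Complex.I) / ‖(2 + 2 * Complex.I : ℂ)‖) ^ k *
      ((GaussianInt.toComplex u + (2 + 2 * Complex.I)⁻¹) /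
        ‖GaussianInt.toComplex u + (2 + 2 * Complex.I)⁻¹‖) ^ k := by
  rw [← mul_zpow, dir, toComplex_phi, norm_mul, Complex.ofReal_mul, mul_div_mul_comm]

open Classical in
theorem sum_bG (k : ℤ) (n : ℕ) : ∑ m ∈ Finset.Icc 1 n, bG k m =
    ∑' z : GaussianInt, if nG z ≤ n ∧ Primary z then dir z ^ k else 0 := by
  obtain ⟨B, hB⟩ := exists_ball n
  have h1 : ∀ m ∈ Finset.Icc 1 n, bG k m =
      ∑ z ∈ B, if nG z = m ∧ Primary z then dir z ^ k else 0 := by
    intro m hm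
    have h2 : bG k m = ∑' z : GaussianInt, if nG z = m ∧ Primary z then dir z ^ k else 0 := by
      rw [bG]
      have h3 := tsum_subtype {z : GaussianInt | nG z = m ∧ Primary z} (fun z => dir z ^ k)
      refine h3.trans (tsum_congr fun z => ?_)
      by_cases hz : nG z = m ∧ Primary z
      · rw [indicator_of_mem (by exact hz), if_pos hz]
      · rw [indicator_of_notMem (by exact hz), if_neg hz]
    rw [h2]
    refine tsum_eq_sum fun z hz => if_neg fun h => hz ?_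
    rw [hB, h.1]
    exact (Finset.mem_Icc.1 hm).2
  have h4 : ∑' z : GaussianInt, (if nG z ≤ n ∧ Primary z then dir z ^ k else 0) =
      ∑ z ∈ B, if nG z ≤ n ∧ Primary z then dir z ^ k else 0 :=
    tsum_eq_sum fun z hz => if_neg fun h => hz ((hB z).2 h.1)
  rw [Finset.sum_congr rfl h1, Finset.sum_comm, h4]
  refine Finset.sum_congr rfl fun z hz => ?_
  by_cases hP : Primary z
  · have h5 : ∀ m, (if nG z = m ∧ Primary z then dir z ^ k else 0) =
        if nG z = m then dir z ^ k else 0 := fun m => by simp only [hP, and_true]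
    rw [Finset.sum_congr rfl fun m _ => h5 m, Finset.sum_ite_eq, if_pos, if_pos ⟨(hB z).1 hz, hP⟩]
    refine Finset.mem_Icc.2 ⟨?_, (hB z).1 hz⟩
    rw [Nat.one_le_iff_ne_zero]
    intro h
    have h3 : z.norm = 0 := Int.natAbs_eq_zero.1 h
    rw [GaussianInt.norm_eq_zero] at h3
    exact not_primary_zero (h3 ▸ hP)
  · rw [if_neg fun h => hP h.2]
    exact Finset.sum_eq_zero fun m _ => if_neg fun h => hP h.2

theorem sum_bG_eq (k : ℤ) (n : ℕ) : ∑ m ∈ Finset.Icc 1 n, bG k m =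
    ((2 + 2 * Complex.I) / ‖(2 + 2 * Complex.I : ℂ)‖) ^ k *
      ∑' u : {u : GaussianInt // GaussianInt.toComplex u + (2 + 2 * Complex.I)⁻¹ ≠ 0 ∧
        ‖GaussianInt.toComplex u + (2 + 2 * Complex.I)⁻¹‖ ≤
          √(n : ℝ) / ‖(2 + 2 * Complex.I : ℂ)‖},
        ((GaussianInt.toComplex u + (2 + 2 * Complex.I)⁻¹) /
          ‖GaussianInt.toComplex u + (2 + 2 * Complex.I)⁻¹‖) ^ k := by
  classical
  rw [sum_bG, ← phi_injective.tsum_eq, ← tsum_mul_left]
  · have h3 := tsum_subtype {u : GaussianInt | GaussianInt.toComplex u +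
      (2 + 2 * Complex.I)⁻¹ ≠ 0 ∧ ‖GaussianInt.toComplex u + (2 + 2 * Complex.I)⁻¹‖ ≤
      √(n : ℝ) / ‖(2 + 2 * Complex.I : ℂ)‖} (fun u =>
      ((2 + 2 * Complex.I) / ‖(2 + 2 * Complex.I : ℂ)‖) ^ k *
      ((GaussianInt.toComplex u + (2 + 2 * Complex.I)⁻¹) /
          ‖GaussianInt.toComplex u + (2 + 2 * Complex.I)⁻¹‖) ^ k)
    refine Eq.trans (tsum_congr fun u => ?_) h3.symm
    by_cases hu : nG (phi u) ≤ n
    · have h5 : GaussianInt.toComplex u + (2 + 2 * Complex.I)⁻¹ ≠ 0 ∧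
          ‖GaussianInt.toComplex u + (2 + 2 * Complex.I)⁻¹‖ ≤
            √(n : ℝ) / ‖(2 + 2 * Complex.I : ℂ)‖ := ⟨add_ne_zero u, (nG_phi_le_iff u n).1 hu⟩
      rw [indicator_of_mem (by exact h5), if_pos ⟨hu, mem_range_phi.1 ⟨u, rfl⟩⟩, dir_phi]
    · have h5 : ¬ (GaussianInt.toComplex u + (2 + 2 * Complex.I)⁻¹ ≠ 0 ∧
          ‖GaussianInt.toComplex u + (2 + 2 * Complex.I)⁻¹‖ ≤
            √(n : ℝ) / ‖(2 + 2 * Complex.I : ℂ)‖) := fun h => hu ((nG_phi_le_iff u n).2 h.2)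
      rw [indicator_of_notMem (by exact h5), if_neg fun h => hu h.1]
  · intro z hz
    rw [mem_range_phi]
    by_contra h
    exact hz (if_neg fun h' => h h'.2)

end Lat

open Fermat.Agent.Cor.Gauss.Lat in
/-- **(G10)** the lattice point estimate for the primary Gaussian integers -/
theorem latPrimStmt_of (hlat : LatShiftStmt) : LatPrimStmt := by
  intro k
  obtain ⟨C, hC⟩ := hlat (2 + 2 * Complex.I)⁻¹ k
  have hc : ‖((2 + 2 * Complex.I) / ‖(2 + 2 * Complex.I : ℂ)‖ : ℂ) ^ k‖ = 1 := by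
    rw [norm_zpow, norm_unit two_add_ne_zero, one_zpow]
  have hn0 : 0 < ‖(2 + 2 * Complex.I : ℂ)‖ := norm_pos_iff.2 two_add_ne_zero
  have hn1 : 1 ≤ ‖(2 + 2 * Complex.I : ℂ)‖ := by
    nlinarith [norm_two_add_sq]
  have hn2 : ‖(2 + 2 * Complex.I : ℂ)‖ ≤ 3 := by
    nlinarith [norm_two_add_sq]
  have hC0 : 0 ≤ C := by
    have := (norm_nonneg _).trans (hC 1 le_rfl)
    linarith
  refine IsBigO.of_bound C ?_
  filter_upwards [eventually_ge_atTop 9] with n hn
  have hn' : (9 : ℝ) ≤ n := by exact_mod_cast hn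
  have hs3 : 3 ≤ √(n : ℝ) := by
    rw [Real.le_sqrt (by norm_num) (by linarith)]
    linarith
  have hR : 1 ≤ √(n : ℝ) / ‖(2 + 2 * Complex.I : ℂ)‖ := by
    rw [le_div_iff₀ hn0]
    linarith
  have hR2 : √(n : ℝ) / ‖(2 + 2 * Complex.I : ℂ)‖ ≤ √(n : ℝ) :=
    div_le_self (Real.sqrt_nonneg _) hn1
  have hsq : (√(n : ℝ) / ‖(2 + 2 * Complex.I : ℂ)‖) ^ 2 = n / 8 := by
    rw [div_pow, Real.sq_sqrt (Nat.cast_nonneg n), norm_two_add_sq]
  have h1 := hC _ hR
  have h2 : (∑ m ∈ Finset.Icc 1 n, bG k m) - (if k = 0 then (Real.pi / 8 : ℂ) else 0) * n =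
      ((2 + 2 * Complex.I) / ‖(2 + 2 * Complex.I : ℂ)‖) ^ k *
      ((∑' u : {u : GaussianInt // GaussianInt.toComplex u + (2 + 2 * Complex.I)⁻¹ ≠ 0 ∧
        ‖GaussianInt.toComplex u + (2 + 2 * Complex.I)⁻¹‖ ≤
          √(n : ℝ) / ‖(2 + 2 * Complex.I : ℂ)‖},
        ((GaussianInt.toComplex u + (2 + 2 * Complex.I)⁻¹) /
          ‖GaussianInt.toComplex u + (2 + 2 * Complex.I)⁻¹‖) ^ k) -
        (if k = 0 then (Real.pi : ℂ) * ((√(n : ℝ) / ‖(2 + 2 * Complex.I : ℂ)‖ : ℝ) : ℂ) ^ 2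
          else 0)) := by
    rw [sum_bG_eq, mul_sub]
    congr 1
    by_cases hk : k = 0
    · rw [if_pos hk, if_pos hk, hk, zpow_zero, one_mul, ← Complex.ofReal_pow, hsq]
      push_cast
      ring
    · rw [if_neg hk, if_neg hk, zero_mul, mul_zero]
  rw [h2, norm_mul, hc, one_mul, Real.norm_of_nonneg (by positivity), ← Real.sqrt_eq_rpow]
  exact h1.trans (mul_le_mul_of_nonneg_left hR2 hC0)

/-- **(G10)** -/
theorem latPrimStmt : LatPrimStmt := latPrimStmt_of latShiftStmt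

end Fermat.Agent.Cor.Gauss
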