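import Fermat.Agent.Corollaries.Gauss.Defs

/-!
# The lattice point estimate for `ℤ[i]` with the characters `(z / |z|) ^ (4 k)`

`∑_{0 < N z ≤ n} (z / |z|) ^ (4 k) = [k = 0] π n + O(√n)`: the sum is the integral over the plane of
the function `w ↦ (⌊w⌋ / |⌊w⌋|) ^ (4 k)` cut off at `|⌊w⌋| ≤ √n`, which is compared with the integral
of `(w / |w|) ^ (4 k)` over the disc of radius `√n` (zero for `k ≠ 0` by rotation).
-/

set_option autoImplicit false

noncomputable section

open Filter Topology Asymptotics MeasureTheory Set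

namespace Fermat.Agent.Cor.Gauss

namespace Lat

/-! ### Pointwise estimates -/

/-- the lower left corner of the unit square containing `w` -/
def fl (w : ℂ) : GaussianInt := ⟨⌊w.re⌋, ⌊w.im⌋⟩

/-- the angular function -/
def ang (k : ℤ) (w : ℂ) : ℂ := (w / ‖w‖) ^ (4 * k)

theorem ang_toComplex (k : ℤ) (z : GaussianInt) : ang k (GaussianInt.toComplex z) =
    dir z ^ (4 * k) := rfl

theorem norm_fl_sub_le (w : ℂ) : ‖GaussianInt.toComplex (fl w) - w‖ ≤ 2 := by
  refine (Complex.norm_le_abs_re_add_abs_im _).trans ?_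
  have h1 : |(GaussianInt.toComplex (fl w) - w).re| ≤ 1 := by
    rw [Complex.sub_re, fl, GaussianInt.re_toComplex, abs_le]
    constructor <;> linarith [Int.floor_le w.re, Int.lt_floor_add_one w.re]
  have h2 : |(GaussianInt.toComplex (fl w) - w).im| ≤ 1 := by
    rw [Complex.sub_im, fl, GaussianInt.im_toComplex, abs_le]
    constructor <;> linarith [Int.floor_le w.im, Int.lt_floor_add_one w.im]
  linarith

theorem norm_unit_le (w : ℂ) : ‖w / ‖w‖‖ ≤ 1 := by
  rw [norm_div, Complex.norm_real, norm_norm]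
  exact div_self_le_one _

theorem norm_unit {w : ℂ} (hw : w ≠ 0) : ‖w / ‖w‖‖ = 1 := by
  rw [norm_div, Complex.norm_real, norm_norm]
  exact div_self (norm_ne_zero_iff.2 hw)

theorem norm_ang_le (k : ℤ) (w : ℂ) : ‖ang k w‖ ≤ 1 := by
  rcases eq_or_ne w 0 with rfl | hw
  · rcases eq_or_ne k 0 with rfl | hk
    · simp [ang]
    · simp [ang, zero_zpow _ (mul_ne_zero four_ne_zero hk)]
  · rw [ang, norm_zpow, norm_unit hw, one_zpow]

theorem norm_pow_sub_pow_le {u v : ℂ} (hu : ‖u‖ ≤ 1) (hv : ‖v‖ ≤ 1) (n : ℕ) :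
    ‖u ^ n - v ^ n‖ ≤ n * ‖u - v‖ := by
  induction n with
  | zero => simp
  | succ n ih =>
    have h : u ^ (n + 1) - v ^ (n + 1) = u ^ n * (u - v) + (u ^ n - v ^ n) * v := by ring
    rw [h]
    refine (norm_add_le _ _).trans ?_
    rw [norm_mul, norm_mul, norm_pow]
    push_cast
    have h1 : ‖u‖ ^ n * ‖u - v‖ ≤ 1 * ‖u - v‖ :=
      mul_le_mul_of_nonneg_right (pow_le_one₀ (norm_nonneg _) hu) (norm_nonneg _)
    have h2 : ‖u ^ n - v ^ n‖ * ‖v‖ ≤ (n * ‖u - v‖) * 1 :=
      mul_le_mul ih hv (norm_nonneg _) (by positivity)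
    linarith

theorem norm_zpow_sub_zpow_le {u v : ℂ} (hu : ‖u‖ = 1) (hv : ‖v‖ = 1) (n : ℤ) :
    ‖u ^ n - v ^ n‖ ≤ |(n : ℝ)| * ‖u - v‖ := by
  have hinv : ‖u⁻¹ - v⁻¹‖ = ‖u - v‖ := by
    have hu0 : u ≠ 0 := by rintro rfl; simp at hu
    have hv0 : v ≠ 0 := by rintro rfl; simp at hv
    rw [inv_sub_inv hu0 hv0, norm_div, norm_mul, hu, hv, mul_one, div_one, norm_sub_rev]
  obtain ⟨m, rfl | rfl⟩ := n.eq_nat_or_neg
  · rw [zpow_natCast, zpow_natCast]
    simpa using norm_pow_sub_pow_le hu.le hv.le m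
  · rw [zpow_neg, zpow_neg, ← inv_zpow, ← inv_zpow, zpow_natCast, zpow_natCast, ← hinv]
    have := norm_pow_sub_pow_le (u := u⁻¹) (v := v⁻¹) (by rw [norm_inv, hu, inv_one])
      (by rw [norm_inv, hv, inv_one]) m
    simpa using this

theorem norm_unit_sub_le {z w : ℂ} (hz : z ≠ 0) (hw : w ≠ 0) :
    ‖z / ‖z‖ - w / ‖w‖‖ ≤ 2 * ‖z - w‖ / ‖w‖ := by
  have hz' : (‖z‖ : ℂ) ≠ 0 := by exact_mod_cast norm_ne_zero_iff.2 hz
  have hw' : (‖w‖ : ℂ) ≠ 0 := by exact_mod_cast norm_ne_zero_iff.2 hw
  have hwp : 0 < ‖w‖ := norm_pos_iff.2 hw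
  have h : z / ‖z‖ - w / ‖w‖ = ((z - w) + (z / ‖z‖) * ((‖w‖ - ‖z‖ : ℝ) : ℂ)) / ‖w‖ := by
    push_cast
    field_simp
    ring
  rw [h, norm_div, Complex.norm_real, norm_norm]
  refine div_le_div_of_nonneg_right ?_ hwp.le
  refine (norm_add_le _ _).trans ?_
  rw [norm_mul, norm_unit hz, one_mul, Complex.norm_real, Real.norm_eq_abs]
  have := abs_norm_sub_norm_le w z
  rw [norm_sub_rev] at this
  linarith

/-- the angular function changes slowly -/
theorem norm_ang_sub_le (k : ℤ) : ∃ C : ℝ, 0 ≤ C ∧ ∀ w : ℂ,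
    ‖ang k (GaussianInt.toComplex (fl w)) - ang k w‖ ≤ C * ‖w‖⁻¹ := by
  refine ⟨8 + |((4 * k : ℤ) : ℝ)| * 4, by positivity, fun w => ?_⟩
  have hk : 0 ≤ |((4 * k : ℤ) : ℝ)| := abs_nonneg _
  rcases eq_or_ne w 0 with rfl | hw
  · have : fl 0 = 0 := by simp [fl]; rfl
    rw [this, map_zero, sub_self, norm_zero]
    positivity
  have hwp : 0 < ‖w‖ := norm_pos_iff.2 hw
  have hb := norm_fl_sub_le w
  by_cases h4 : ‖w‖ ≤ 4
  · have h1 : ‖ang k (GaussianInt.toComplex (fl w)) - ang k w‖ ≤ 2 := by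
      have h5 := norm_ang_le k (GaussianInt.toComplex (fl w))
      have h6 := norm_ang_le k w
      exact (norm_sub_le _ _).trans (by linarith)
    refine h1.trans ?_
    rw [← div_eq_mul_inv, le_div_iff₀ hwp]
    nlinarith
  · have hz : GaussianInt.toComplex (fl w) ≠ 0 := by
      intro h0
      rw [h0, zero_sub, norm_neg] at hb
      linarith
    refine (norm_zpow_sub_zpow_le (norm_unit hz) (norm_unit hw) _).trans ?_
    have h2 := norm_unit_sub_le hz hw
    have h3 : 2 * ‖GaussianInt.toComplex (fl w) - w‖ / ‖w‖ ≤ 4 * ‖w‖⁻¹ := by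
      rw [div_eq_mul_inv]
      exact mul_le_mul_of_nonneg_right (by linarith) (by positivity)
    calc |((4 * k : ℤ) : ℝ)| * _ ≤ |((4 * k : ℤ) : ℝ)| * (4 * ‖w‖⁻¹) :=
          mul_le_mul_of_nonneg_left (h2.trans h3) hk
      _ ≤ (8 + |((4 * k : ℤ) : ℝ)| * 4) * ‖w‖⁻¹ := by
          have : 0 ≤ ‖w‖⁻¹ := by positivity
          nlinarith

/-! ### Integrals over the unit cells -/

/-- the unit square with lower left corner `z` -/
def cell (z : GaussianInt) : Set ℂ := fl ⁻¹' {z}

theorem cell_eq (z : GaussianInt) : cell z = Complex.measurableEquivRealProd ⁻¹'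
    (Ico (z.re : ℝ) (z.re + 1) ×ˢ Ico (z.im : ℝ) (z.im + 1)) := by
  ext w
  simp only [cell, fl, mem_preimage, mem_singleton_iff, Complex.measurableEquivRealProd_apply,
    mem_prod, mem_Ico, Zsqrtd.ext_iff, Int.floor_eq_iff]

theorem measurableSet_cell (z : GaussianInt) : MeasurableSet (cell z) := by
  rw [cell_eq]
  exact Complex.measurableEquivRealProd.measurable (measurableSet_Ico.prod measurableSet_Ico)

theorem volume_cell (z : GaussianInt) : volume (cell z) = 1 := by
  rw [cell_eq, Complex.volume_preserving_equiv_real_prod.measure_preimage_equiv,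
    Measure.volume_eq_prod, Measure.prod_prod, Real.volume_Ico, Real.volume_Ico]
  simp

theorem comp_fl_eq (B : Finset GaussianInt) (f : GaussianInt → ℂ) (hf : ∀ z ∉ B, f z = 0) :
    (fun w => f (fl w)) = fun w => ∑ z ∈ B, (cell z).indicator (fun _ => f z) w := by
  funext w
  by_cases hw : fl w ∈ B
  · rw [Finset.sum_eq_single (fl w)]
    · rw [indicator_of_mem]
      exact rfl
    · intro z _ hz
      rw [indicator_of_notMem]
      exact fun h => hz (mem_singleton_iff.1 h).symm
    · exact fun h => absurd hw h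
  · rw [hf _ hw, Finset.sum_eq_zero]
    intro z hz
    rw [indicator_of_notMem]
    intro h
    rw [cell, mem_preimage, mem_singleton_iff] at h
    exact hw (h ▸ hz)

theorem integrable_indicator_cell (z : GaussianInt) (c : ℂ) :
    Integrable ((cell z).indicator fun _ => c) := by
  rw [integrable_indicator_iff (measurableSet_cell z)]
  exact integrableOn_const (by rw [volume_cell]; exact ENNReal.one_ne_top)

theorem integrable_comp_fl (B : Finset GaussianInt) (f : GaussianInt → ℂ)
    (hf : ∀ z ∉ B, f z = 0) : Integrable fun w => f (fl w) := by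
  rw [comp_fl_eq B f hf]
  exact integrable_finsetSum _ fun z _ => integrable_indicator_cell z _

theorem integral_comp_fl (B : Finset GaussianInt) (f : GaussianInt → ℂ)
    (hf : ∀ z ∉ B, f z = 0) : ∫ w, f (fl w) = ∑ z ∈ B, f z := by
  rw [comp_fl_eq B f hf, integral_finsetSum _ fun z _ => integrable_indicator_cell z _]
  refine Finset.sum_congr rfl fun z _ => ?_
  rw [integral_indicator (measurableSet_cell z), setIntegral_const, measureReal_def, volume_cell,
    ENNReal.toReal_one, one_smul]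

/-! ### The disc -/

theorem measurable_ang (k : ℤ) : Measurable (ang k) := by
  unfold ang
  exact (measurable_id.div (Complex.measurable_ofReal.comp measurable_norm)).pow_const _

theorem integrable_disc (k : ℤ) (R : ℝ) :
    Integrable ((Metric.closedBall (0 : ℂ) R).indicator (ang k)) := by
  rw [integrable_indicator_iff Metric.isClosed_closedBall.measurableSet]
  refine Measure.integrableOn_of_bounded (M := 1) ?_ (measurable_ang k).aestronglyMeasurable
    (ae_of_all _ fun w => norm_ang_le k w)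
  exact Metric.isBounded_closedBall.measure_lt_top.ne

theorem integral_disc (k : ℤ) (hk : k ≠ 0) (R : ℝ) :
    ∫ w, (Metric.closedBall (0 : ℂ) R).indicator (ang k) w = 0 := by
  have hk' : (k : ℂ) ≠ 0 := by exact_mod_cast hk
  let c : Circle := Circle.exp (Real.pi / (4 * k))
  have hc : (c : ℂ) ^ (4 * k) = -1 := by
    rw [Circle.coe_exp, ← Complex.exp_int_mul, ← Complex.exp_pi_mul_I]
    congr 1
    push_cast
    field_simp
  have h1 : ∀ w : ℂ, (Metric.closedBall (0 : ℂ) R).indicator (ang k) (rotation c w) =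
      -(Metric.closedBall (0 : ℂ) R).indicator (ang k) w := by
    intro w
    have h2 : ang k (rotation c w) = - ang k w := by
      rw [ang, LinearIsometryEquiv.norm_map, rotation_apply, mul_div_assoc, mul_zpow, hc, ang]
      ring
    by_cases hw : w ∈ Metric.closedBall (0 : ℂ) R
    · have hw' : rotation c w ∈ Metric.closedBall (0 : ℂ) R := by
        rw [mem_closedBall_zero_iff, LinearIsometryEquiv.norm_map]
        exact mem_closedBall_zero_iff.1 hw
      rw [indicator_of_mem hw, indicator_of_mem hw', h2]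
    · have hw' : rotation c w ∉ Metric.closedBall (0 : ℂ) R := by
        rw [mem_closedBall_zero_iff, LinearIsometryEquiv.norm_map]
        exact fun h => hw (mem_closedBall_zero_iff.2 h)
      rw [indicator_of_notMem hw, indicator_of_notMem hw', neg_zero]
  have h2 := (rotation c).measurePreserving.integral_comp
    (rotation c).toHomeomorph.measurableEmbedding
    (g := (Metric.closedBall (0 : ℂ) R).indicator (ang k))
  simp only [h1, integral_neg] at h2
  linear_combination (-1 / 2 : ℂ) * h2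

theorem integral_disc_zero {R : ℝ} (hR : 0 ≤ R) :
    ∫ w, (Metric.closedBall (0 : ℂ) R).indicator (ang 0) w = Real.pi * R ^ 2 := by
  rw [integral_indicator Metric.isClosed_closedBall.measurableSet]
  simp only [ang, mul_zero, zpow_zero]
  rw [setIntegral_const, measureReal_def, Complex.volume_closedBall]
  simp [hR]
  ring

/-! ### The bound -/

/-- the radial majorant -/
def maj (C R : ℝ) (y : ℝ) : ℝ :=
  (Iic (R + 2)).indicator (fun y => C * y⁻¹) y +
    (Icc (R - 2) (R + 2)).indicator (fun y => (R + 2) * y⁻¹) y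

theorem smul_maj {C R y : ℝ} (hy : 0 < y) : y ^ (Module.finrank ℝ ℂ - 1) • maj C R y =
    (Iic (R + 2)).indicator (fun _ => C) y +
      (Icc (R - 2) (R + 2)).indicator (fun _ => R + 2) y := by
  rw [Complex.finrank_real_complex, maj, smul_eq_mul]
  have h : y * y⁻¹ = 1 := mul_inv_cancel₀ hy.ne'
  have h' : ∀ c : ℝ, y * (c * y⁻¹) = c := fun c => by rw [mul_left_comm, h, mul_one]
  by_cases h1 : y ∈ Iic (R + 2) <;> by_cases h2 : y ∈ Icc (R - 2) (R + 2) <;>
    simp [indicator, h1, h2, mul_add, h']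

theorem eqOn_maj (C R : ℝ) : EqOn (fun y : ℝ => y ^ (Module.finrank ℝ ℂ - 1) • maj C R y)
    (fun y => (Iic (R + 2)).indicator (fun _ => C) y +
      (Icc (R - 2) (R + 2)).indicator (fun _ => R + 2) y) (Ioi 0) := fun _ hy => smul_maj hy

theorem integrableOn_maj (C : ℝ) {R : ℝ} :
    IntegrableOn (fun y : ℝ => y ^ (Module.finrank ℝ ℂ - 1) • maj C R y) (Ioi 0) := by
  rw [integrableOn_congr_fun (eqOn_maj C R) measurableSet_Ioi]
  refine Integrable.add ?_ ?_
  · rw [integrable_indicator_iff measurableSet_Iic, IntegrableOn, Measure.restrict_restrict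
      measurableSet_Iic, Iic_inter_Ioi]
    exact integrableOn_const (by simp)
  · rw [integrable_indicator_iff measurableSet_Icc, IntegrableOn, Measure.restrict_restrict
      measurableSet_Icc]
    exact integrableOn_const
      ((measure_mono inter_subset_left).trans_lt (by simp [Real.volume_Icc])).ne

theorem integral_maj (C : ℝ) {R : ℝ} (hR : 2 < R) :
    ∫ w : ℂ, maj C R ‖w‖ = 2 * Real.pi * ((C + 4) * (R + 2)) := by
  rw [integral_fun_norm_addHaar, setIntegral_congr_fun measurableSet_Ioi (eqOn_maj C R),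
    integral_add, integral_indicator measurableSet_Iic, integral_indicator measurableSet_Icc,
    Measure.restrict_restrict measurableSet_Iic, Measure.restrict_restrict measurableSet_Icc,
    Iic_inter_Ioi]
  · have h1 : Icc (R - 2) (R + 2) ∩ Ioi 0 = Icc (R - 2) (R + 2) :=
      inter_eq_left.2 fun y hy => lt_of_lt_of_le (by linarith) hy.1
    rw [h1, setIntegral_const, setIntegral_const]
    simp only [measureReal_def]
    rw [Real.volume_Ioc, Real.volume_Icc, Complex.finrank_real_complex, Complex.volume_ball]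
    rw [ENNReal.toReal_ofReal (by linarith), ENNReal.toReal_ofReal (by linarith)]
    simp
    ring
  · rw [integrable_indicator_iff measurableSet_Iic, IntegrableOn, Measure.restrict_restrict
      measurableSet_Iic, Iic_inter_Ioi]
    exact integrableOn_const (by simp)
  · rw [integrable_indicator_iff measurableSet_Icc, IntegrableOn, Measure.restrict_restrict
      measurableSet_Icc]
    exact integrableOn_const
      ((measure_mono inter_subset_left).trans_lt (by simp [Real.volume_Icc])).ne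

theorem integrable_maj (C R : ℝ) : Integrable fun w : ℂ => maj C R ‖w‖ :=
  (integrable_fun_norm_addHaar volume (f := maj C R)).2 (integrableOn_maj C)

/-- comparison of the sum and of the integral -/
theorem norm_sub_le_maj {C : ℝ} (hC : 0 ≤ C) {k : ℤ} (h : ∀ w : ℂ,
    ‖ang k (GaussianInt.toComplex (fl w)) - ang k w‖ ≤ C * ‖w‖⁻¹) {R : ℝ} (hR : 2 < R) (w : ℂ) :
    ‖(if ‖GaussianInt.toComplex (fl w)‖ ≤ R then ang k (GaussianInt.toComplex (fl w)) else 0) -
      (Metric.closedBall (0 : ℂ) R).indicator (ang k) w‖ ≤ maj C R ‖w‖ := by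
  have hb := norm_fl_sub_le w
  have hb1 : ‖GaussianInt.toComplex (fl w)‖ ≤ ‖w‖ + 2 := by
    have := norm_le_norm_add_norm_sub' (GaussianInt.toComplex (fl w)) w
    linarith
  have hb2 : ‖w‖ ≤ ‖GaussianInt.toComplex (fl w)‖ + 2 := by
    have := norm_le_norm_add_norm_sub' w (GaussianInt.toComplex (fl w))
    rw [norm_sub_rev] at this
    linarith
  have hy0 : 0 ≤ ‖w‖ := norm_nonneg w
  have hm1 : 0 ≤ (Iic (R + 2)).indicator (fun y => C * y⁻¹) ‖w‖ := by
    refine indicator_apply_nonneg fun _ => ?_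
    positivity
  have hm2 : 0 ≤ (Icc (R - 2) (R + 2)).indicator (fun y => (R + 2) * y⁻¹) ‖w‖ := by
    refine indicator_apply_nonneg fun _ => ?_
    have : 0 ≤ R + 2 := by linarith
    positivity
  have hone : R - 2 ≤ ‖w‖ → ‖w‖ ≤ R + 2 → 1 ≤ maj C R ‖w‖ := by
    intro h1 h2
    have h3 : (Icc (R - 2) (R + 2)).indicator (fun y => (R + 2) * y⁻¹) ‖w‖ =
        (R + 2) * ‖w‖⁻¹ := indicator_of_mem (mem_Icc.2 ⟨h1, h2⟩) (fun y => (R + 2) * y⁻¹)
    have h4 : 1 ≤ (R + 2) * ‖w‖⁻¹ := by
      rw [← div_eq_mul_inv, le_div_iff₀ (by linarith)]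
      linarith
    rw [maj, h3]
    linarith
  have ha1 := norm_ang_le k w
  have ha2 := norm_ang_le k (GaussianInt.toComplex (fl w))
  by_cases h1 : ‖GaussianInt.toComplex (fl w)‖ ≤ R <;> by_cases h2 : ‖w‖ ≤ R
  · rw [if_pos h1, indicator_of_mem (mem_closedBall_zero_iff.2 h2)]
    refine (h w).trans ?_
    have h3 : (Iic (R + 2)).indicator (fun y => C * y⁻¹) ‖w‖ = C * ‖w‖⁻¹ :=
      indicator_of_mem (mem_Iic.2 (by linarith)) (fun y => C * y⁻¹)
    rw [maj, h3]
    linarith
  · rw [if_pos h1, indicator_of_notMem (fun h' => h2 (mem_closedBall_zero_iff.1 h')), sub_zero]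
    exact ha2.trans (hone (by linarith) (by linarith))
  · rw [if_neg h1, indicator_of_mem (mem_closedBall_zero_iff.2 h2), zero_sub, norm_neg]
    exact ha1.trans (hone (by linarith) (by linarith))
  · rw [if_neg h1, indicator_of_notMem (fun h' => h2 (mem_closedBall_zero_iff.1 h')), sub_zero,
      norm_zero, maj]
    linarith

/-! ### Finite sums -/

theorem nG_eq (z : GaussianInt) : (nG z : ℤ) = z.re * z.re + z.im * z.im := by
  have h : 0 ≤ z.norm := GaussianInt.norm_nonneg z
  rw [nG, Int.natAbs_of_nonneg h, Zsqrtd.norm_def]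
  ring

theorem nG_eq_norm_sq (z : GaussianInt) : (nG z : ℝ) = ‖GaussianInt.toComplex z‖ ^ 2 := by
  rw [← Complex.normSq_eq_norm_sq, Complex.normSq_apply, ← GaussianInt.intCast_re,
    ← GaussianInt.intCast_im]
  exact_mod_cast nG_eq z

theorem norm_le_iff (z : GaussianInt) (n : ℕ) :
    ‖GaussianInt.toComplex z‖ ≤ √(n : ℝ) ↔ nG z ≤ n := by
  rw [Real.le_sqrt (norm_nonneg _) (Nat.cast_nonneg n), ← nG_eq_norm_sq, Nat.cast_le]

/-- the Gaussian integers of norm at most `n` -/
theorem exists_ball (n : ℕ) : ∃ B : Finset GaussianInt, ∀ z, z ∈ B ↔ nG z ≤ n := by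
  have hfin : {z : GaussianInt | nG z ≤ n}.Finite := by
    have hbox : ((Icc (-(n : ℤ)) n) ×ˢ (Icc (-(n : ℤ)) n)).Finite :=
      (finite_Icc _ _).prod (finite_Icc _ _)
    refine Finite.of_injOn (f := fun z : GaussianInt => (z.re, z.im)) (t := _) ?_ ?_ hbox
    · intro z hz
      have hz' : (nG z : ℤ) ≤ n := by exact_mod_cast (show nG z ≤ n from hz)
      rw [nG_eq] at hz'
      refine ⟨⟨?_, ?_⟩, ⟨?_, ?_⟩⟩ <;> dsimp only <;> nlinarith [mul_self_nonneg z.re,
        mul_self_nonneg z.im, mul_self_nonneg (z.re - 1), mul_self_nonneg (z.re + 1),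
        mul_self_nonneg (z.im - 1), mul_self_nonneg (z.im + 1)]
    · intro z _ w _ h
      simp only [Prod.mk.injEq] at h
      exact Zsqrtd.ext h.1 h.2
  exact ⟨hfin.toFinset, fun z => by simp⟩

theorem sum_aG (k : ℤ) (n : ℕ) {B : Finset GaussianInt} (hB : ∀ z, z ∈ B ↔ nG z ≤ n) :
    ∑ m ∈ Finset.Icc 1 n, aG k m = ∑ z ∈ B, dir z ^ (4 * k) - dir 0 ^ (4 * k) := by
  classical
  have h1 : ∀ m ∈ Finset.Icc 1 n, aG k m = ∑ z ∈ B, if nG z = m then dir z ^ (4 * k) else 0 := by
    intro m hm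
    have h2 : aG k m = ∑' z : GaussianInt, if nG z = m then dir z ^ (4 * k) else 0 := by
      rw [aG]
      have h3 := tsum_subtype {z : GaussianInt | nG z = m} (fun z => dir z ^ (4 * k))
      refine h3.trans (tsum_congr fun z => ?_)
      by_cases hz : nG z = m <;> simp [indicator, hz]
    rw [h2]
    refine tsum_eq_sum fun z hz => if_neg fun h => hz ?_
    rw [hB, h]
    exact (Finset.mem_Icc.1 hm).2
  rw [Finset.sum_congr rfl h1, Finset.sum_comm]
  have h0 : (0 : GaussianInt) ∈ B := by rw [hB]; simp [nG]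
  rw [← Finset.add_sum_erase B _ h0, ← Finset.add_sum_erase B (fun z => dir z ^ (4 * k)) h0]
  have h2 : ∑ m ∈ Finset.Icc 1 n, (if nG 0 = m then dir 0 ^ (4 * k) else 0) = 0 := by
    refine Finset.sum_eq_zero fun m hm => if_neg ?_
    have := (Finset.mem_Icc.1 hm).1
    simp only [nG, Zsqrtd.norm_zero, Int.natAbs_zero]
    omega
  rw [h2, zero_add, add_sub_cancel_left]
  refine Finset.sum_congr rfl fun z hz => ?_
  rw [Finset.sum_ite_eq, if_pos]
  rw [Finset.mem_erase, hB] at hz
  refine Finset.mem_Icc.2 ⟨?_, hz.2⟩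
  rw [Nat.one_le_iff_ne_zero]
  intro h
  apply hz.1
  have h3 : z.norm = 0 := Int.natAbs_eq_zero.1 h
  exact (GaussianInt.norm_eq_zero).1 h3

end Lat

open Fermat.Agent.Cor.Gauss.Lat in
/-- **(G1)** the lattice point estimate -/
theorem latStmt : LatStmt := by
  intro k
  obtain ⟨C, hC, h⟩ := norm_ang_sub_le k
  refine IsBigO.of_bound (2 * Real.pi * ((C + 4) * 2) + 1) ?_
  filter_upwards [eventually_ge_atTop 5] with n hn
  obtain ⟨B, hB⟩ := exists_ball n
  have hn' : (5 : ℝ) ≤ n := by exact_mod_cast hn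
  have hR : 2 < √(n : ℝ) := by
    rw [Real.lt_sqrt (by norm_num)]
    linarith
  set f : GaussianInt → ℂ := fun z => if ‖GaussianInt.toComplex z‖ ≤ √(n : ℝ) then
    ang k (GaussianInt.toComplex z) else 0 with hf
  have hfB : ∀ z ∉ B, f z = 0 := fun z hz => if_neg fun h => hz ((hB z).2 ((norm_le_iff z n).1 h))
  have h1 : ∫ w, f (fl w) = ∑ z ∈ B, dir z ^ (4 * k) := by
    rw [integral_comp_fl B f hfB]
    refine Finset.sum_congr rfl fun z hz => ?_
    rw [hf]
    dsimp only
    rw [if_pos ((norm_le_iff z n).2 ((hB z).1 hz)), ang_toComplex]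
  have h2 : ∫ w, (Metric.closedBall (0 : ℂ) √(n : ℝ)).indicator (ang k) w =
      (if k = 0 then (Real.pi : ℂ) else 0) * n := by
    by_cases hk : k = 0
    · rw [if_pos hk, hk, integral_disc_zero (Real.sqrt_nonneg _)]
      congr 1
      exact_mod_cast Real.sq_sqrt (Nat.cast_nonneg n)
    · rw [if_neg hk, zero_mul, integral_disc k hk]
  have h3 : ‖∑ z ∈ B, dir z ^ (4 * k) - (if k = 0 then (Real.pi : ℂ) else 0) * n‖ ≤
      2 * Real.pi * ((C + 4) * (√(n : ℝ) + 2)) := by
    rw [← h1, ← h2, ← integral_sub (integrable_comp_fl B f hfB) (integrable_disc k _),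
      ← integral_maj C hR]
    exact norm_integral_le_of_norm_le (integrable_maj C _)
      (ae_of_all _ fun w => norm_sub_le_maj hC h hR w)
  have h4 : ‖dir 0 ^ (4 * k)‖ ≤ 1 := norm_ang_le k _
  rw [sum_aG k n hB, sub_right_comm, Real.norm_of_nonneg (by positivity), ← Real.sqrt_eq_rpow]
  refine (norm_sub_le _ _).trans ?_
  have h5 : 2 * Real.pi * ((C + 4) * (√(n : ℝ) + 2)) ≤
      2 * Real.pi * ((C + 4) * 2) * √(n : ℝ) := by
    have : 0 ≤ 2 * Real.pi * (C + 4) := by positivity
    nlinarith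
  nlinarith

end Fermat.Agent.Cor.Gauss
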