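import Fermat.Agent.Corollaries.Gauss.Defs2
import Fermat.Agent.Corollaries.Gauss.Lattice

/-!
# The lattice point estimate for a translate of `ℤ[i]`

For `δ : ℂ` and `j : ℤ`,
`∑_{u ∈ ℤ[i], 0 < |u + δ| ≤ R} ((u + δ) / |u + δ|) ^ j = [j = 0] π R² + O(R)`:
the sum is the integral over the plane of `w ↦ g_R(⌊w⌋ + δ)`, compared with the integral of
`g_R(w + δ)`, `g_R` the angular function cut off at `R`.
-/

set_option autoImplicit false

noncomputable section

open Filter Topology Asymptotics MeasureTheory Set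

namespace Fermat.Agent.Cor.Gauss

namespace Lat

/-- the angular function with any integral exponent -/
def angJ (j : ℤ) (w : ℂ) : ℂ := (w / ‖w‖) ^ j

theorem norm_angJ (j : ℤ) {w : ℂ} (hw : w ≠ 0) : ‖angJ j w‖ = 1 := by
  rw [angJ, norm_zpow, norm_unit hw, one_zpow]

theorem norm_angJ_le (j : ℤ) (w : ℂ) : ‖angJ j w‖ ≤ 1 := by
  rcases eq_or_ne w 0 with rfl | hw
  · rcases eq_or_ne j 0 with rfl | hj
    · simp [angJ]
    · simp [angJ, zero_zpow _ hj]
  · exact (norm_angJ j hw).le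

theorem norm_angJ_sub_le (j : ℤ) {p q : ℂ} (hp : p ≠ 0) (hq : q ≠ 0) (h : ‖p - q‖ ≤ 2) :
    ‖angJ j p - angJ j q‖ ≤ 4 * |(j : ℝ)| * ‖q‖⁻¹ := by
  refine (norm_zpow_sub_zpow_le (norm_unit hp) (norm_unit hq) _).trans ?_
  have h3 : 2 * ‖p - q‖ / ‖q‖ ≤ 4 * ‖q‖⁻¹ := by
    rw [div_eq_mul_inv]
    exact mul_le_mul_of_nonneg_right (by linarith) (inv_nonneg.2 (norm_nonneg _))
  calc |(j : ℝ)| * _ ≤ |(j : ℝ)| * (4 * ‖q‖⁻¹) :=
        mul_le_mul_of_nonneg_left ((norm_unit_sub_le hp hq).trans h3) (abs_nonneg _)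
    _ = 4 * |(j : ℝ)| * ‖q‖⁻¹ := by ring

/-- the angular function, cut off at `R` -/
def gR (j : ℤ) (R : ℝ) (p : ℂ) : ℂ := by
  classical exact if p ≠ 0 ∧ ‖p‖ ≤ R then angJ j p else 0

theorem gR_pos {j : ℤ} {R : ℝ} {p : ℂ} (h : p ≠ 0 ∧ ‖p‖ ≤ R) : gR j R p = angJ j p := if_pos h

theorem gR_neg {j : ℤ} {R : ℝ} {p : ℂ} (h : ¬ (p ≠ 0 ∧ ‖p‖ ≤ R)) : gR j R p = 0 := if_neg h

theorem norm_gR_sub_le (j : ℤ) {R : ℝ} (hR : 0 ≤ R) {p q : ℂ} (hq : q ≠ 0) (h : ‖p - q‖ ≤ 2) :
    ‖gR j R p - (Metric.closedBall (0 : ℂ) R).indicator (angJ j) q‖ ≤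
      maj (2 + 4 * |(j : ℝ)|) R ‖q‖ := by
  have hy0 : 0 < ‖q‖ := norm_pos_iff.2 hq
  have hj : 0 ≤ |(j : ℝ)| := abs_nonneg _
  have hb1 : ‖p‖ ≤ ‖q‖ + 2 := by
    have := norm_le_norm_add_norm_sub' p q
    linarith
  have hb2 : ‖q‖ ≤ ‖p‖ + 2 := by
    have := norm_le_norm_add_norm_sub' q p
    rw [norm_sub_rev] at this
    linarith
  have hm1 : 0 ≤ (Iic (R + 2)).indicator (fun y => (2 + 4 * |(j : ℝ)|) * y⁻¹) ‖q‖ := by
    refine indicator_apply_nonneg fun _ => ?_
    positivity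
  have hm2 : 0 ≤ (Icc (R - 2) (R + 2)).indicator (fun y => (R + 2) * y⁻¹) ‖q‖ := by
    refine indicator_apply_nonneg fun _ => ?_
    positivity
  have hone : R - 2 ≤ ‖q‖ → ‖q‖ ≤ R + 2 → 1 ≤ maj (2 + 4 * |(j : ℝ)|) R ‖q‖ := by
    intro h1 h2
    have h3 : (Icc (R - 2) (R + 2)).indicator (fun y => (R + 2) * y⁻¹) ‖q‖ =
        (R + 2) * ‖q‖⁻¹ := indicator_of_mem (mem_Icc.2 ⟨h1, h2⟩) (fun y => (R + 2) * y⁻¹)
    have h4 : 1 ≤ (R + 2) * ‖q‖⁻¹ := by
      rw [← div_eq_mul_inv, le_div_iff₀ hy0]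
      linarith
    rw [maj, h3]
    linarith
  have hfst : ‖q‖ ≤ R → (2 + 4 * |(j : ℝ)|) * ‖q‖⁻¹ ≤ maj (2 + 4 * |(j : ℝ)|) R ‖q‖ := by
    intro h2
    have h3 : (Iic (R + 2)).indicator (fun y => (2 + 4 * |(j : ℝ)|) * y⁻¹) ‖q‖ =
        (2 + 4 * |(j : ℝ)|) * ‖q‖⁻¹ :=
      indicator_of_mem (mem_Iic.2 (by linarith)) (fun y => (2 + 4 * |(j : ℝ)|) * y⁻¹)
    rw [maj, h3]
    linarith
  have hmaj : 0 ≤ maj (2 + 4 * |(j : ℝ)|) R ‖q‖ := by
    rw [maj]
    linarith
  have ha1 := norm_angJ_le j q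
  have ha2 := norm_angJ_le j p
  have hinv : 0 ≤ ‖q‖⁻¹ := inv_nonneg.2 hy0.le
  by_cases hp : p = 0
  · rw [gR_neg (fun h' => h'.1 hp), zero_sub, norm_neg]
    by_cases h2 : ‖q‖ ≤ R
    · rw [indicator_of_mem (mem_closedBall_zero_iff.2 h2)]
      refine ha1.trans (le_trans ?_ (hfst h2))
      rw [hp, norm_zero, zero_add] at hb2
      rw [← div_eq_mul_inv, le_div_iff₀ hy0]
      linarith
    · rwa [indicator_of_notMem (fun h' => h2 (mem_closedBall_zero_iff.1 h')), norm_zero]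
  by_cases h1 : ‖p‖ ≤ R <;> by_cases h2 : ‖q‖ ≤ R
  · rw [gR_pos ⟨hp, h1⟩, indicator_of_mem (mem_closedBall_zero_iff.2 h2)]
    refine (norm_angJ_sub_le j hp hq h).trans (le_trans ?_ (hfst h2))
    nlinarith
  · rw [gR_pos ⟨hp, h1⟩, indicator_of_notMem (fun h' => h2 (mem_closedBall_zero_iff.1 h')),
      sub_zero]
    exact ha2.trans (hone (by linarith) (by linarith))
  · rw [gR_neg (fun h' => h1 h'.2), indicator_of_mem (mem_closedBall_zero_iff.2 h2), zero_sub,
      norm_neg]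
    exact ha1.trans (hone (by linarith) (by linarith))
  · rw [gR_neg (fun h' => h1 h'.2),
      indicator_of_notMem (fun h' => h2 (mem_closedBall_zero_iff.1 h')), sub_zero, norm_zero]
    exact hmaj

theorem integral_maj_le {C R : ℝ} (hR : 0 ≤ R) :
    ∫ w : ℂ, maj C R ‖w‖ ≤ 2 * Real.pi * ((C + 4) * (R + 2)) := by
  rw [integral_fun_norm_addHaar, setIntegral_congr_fun measurableSet_Ioi (eqOn_maj C R),
    integral_add, integral_indicator measurableSet_Iic, integral_indicator measurableSet_Icc,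
    Measure.restrict_restrict measurableSet_Iic, Measure.restrict_restrict measurableSet_Icc,
    Iic_inter_Ioi]
  · have h1 : volume.real (Icc (R - 2) (R + 2) ∩ Ioi 0) ≤ 4 := by
      refine (measureReal_mono inter_subset_left (by simp [Real.volume_Icc])).trans ?_
      rw [measureReal_def, Real.volume_Icc, ENNReal.toReal_ofReal (by linarith)]
      linarith
    have h2 : volume.real (Ioc 0 (R + 2)) = R + 2 := by
      rw [measureReal_def, Real.volume_Ioc, ENNReal.toReal_ofReal (by linarith), sub_zero]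
    have h3 : volume.real (Metric.ball (0 : ℂ) 1) = Real.pi := by
      rw [measureReal_def, Complex.volume_ball]
      simp
    rw [setIntegral_const, setIntegral_const, Complex.finrank_real_complex, h2, h3]
    simp only [smul_eq_mul, nsmul_eq_mul, Nat.cast_ofNat]
    rw [mul_assoc]
    refine mul_le_mul_of_nonneg_left (mul_le_mul_of_nonneg_left ?_ Real.pi_pos.le) zero_le_two
    have h4 : volume.real (Icc (R - 2) (R + 2) ∩ Ioi 0) * (R + 2) ≤ 4 * (R + 2) :=
      mul_le_mul_of_nonneg_right h1 (by linarith)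
    linarith
  · rw [integrable_indicator_iff measurableSet_Iic, IntegrableOn, Measure.restrict_restrict
      measurableSet_Iic, Iic_inter_Ioi]
    exact integrableOn_const (by simp)
  · rw [integrable_indicator_iff measurableSet_Icc, IntegrableOn, Measure.restrict_restrict
      measurableSet_Icc]
    exact integrableOn_const
      ((measure_mono inter_subset_left).trans_lt (by simp [Real.volume_Icc])).ne

theorem measurable_angJ (j : ℤ) : Measurable (angJ j) := by
  unfold angJ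
  exact (measurable_id.div (Complex.measurable_ofReal.comp measurable_norm)).pow_const _

theorem integrable_discJ (j : ℤ) (R : ℝ) :
    Integrable ((Metric.closedBall (0 : ℂ) R).indicator (angJ j)) := by
  rw [integrable_indicator_iff Metric.isClosed_closedBall.measurableSet]
  refine Measure.integrableOn_of_bounded (M := 1) ?_ (measurable_angJ j).aestronglyMeasurable
    (ae_of_all _ fun w => norm_angJ_le j w)
  exact Metric.isBounded_closedBall.measure_lt_top.ne

theorem integral_discJ (j : ℤ) (hj : j ≠ 0) (R : ℝ) :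
    ∫ w, (Metric.closedBall (0 : ℂ) R).indicator (angJ j) w = 0 := by
  have hj' : (j : ℂ) ≠ 0 := by exact_mod_cast hj
  let c : Circle := Circle.exp (Real.pi / j)
  have hc : (c : ℂ) ^ j = -1 := by
    rw [Circle.coe_exp, ← Complex.exp_int_mul, ← Complex.exp_pi_mul_I]
    congr 1
    push_cast
    field_simp
  have h1 : ∀ w : ℂ, (Metric.closedBall (0 : ℂ) R).indicator (angJ j) (rotation c w) =
      -(Metric.closedBall (0 : ℂ) R).indicator (angJ j) w := by
    intro w
    have h2 : angJ j (rotation c w) = - angJ j w := by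
      rw [angJ, LinearIsometryEquiv.norm_map, rotation_apply, mul_div_assoc, mul_zpow, hc, angJ]
      ring
    by_cases hw : w ∈ Metric.closedBall (0 : ℂ) R
    · have hw' : rotation c w ∈ Metric.closedBall (0 : ℂ) R := by
        rw [mem_closedBall_zero_iff, LinearIsometryEquiv.norm_map]
        exact mem_closedBall_zero_iff.1 hw
      rw [indicator_of_mem hw, indicator_of_mem hw', h2]
    · have hw' : rotation c w ∉ Metric.closedBall (0 : ℂ) R := by
        rw [mem_closedBall_zero_iff, LinearIsometryEquiv.norm_map]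
        exact fun h => hw (mem_closedBall_zero_iff.2 h)
      rw [indicator_of_notMem hw, indicator_of_notMem hw', neg_zero]
  have h2 := (rotation c).measurePreserving.integral_comp
    (rotation c).toHomeomorph.measurableEmbedding
    (g := (Metric.closedBall (0 : ℂ) R).indicator (angJ j))
  simp only [h1, integral_neg] at h2
  linear_combination (-1 / 2 : ℂ) * h2

theorem integral_discJ_zero {R : ℝ} (hR : 0 ≤ R) :
    ∫ w, (Metric.closedBall (0 : ℂ) R).indicator (angJ 0) w = Real.pi * R ^ 2 := by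
  rw [integral_indicator Metric.isClosed_closedBall.measurableSet]
  simp only [angJ, zpow_zero]
  rw [setIntegral_const, measureReal_def, Complex.volume_closedBall]
  simp [hR]
  ring

/-- finitely many lattice points in a disc -/
theorem exists_ball_shift (δ : ℂ) (R : ℝ) : ∃ B : Finset GaussianInt, ∀ u : GaussianInt,
    ‖GaussianInt.toComplex u + δ‖ ≤ R → u ∈ B := by
  obtain ⟨B, hB⟩ := exists_ball ⌈(R + ‖δ‖) ^ 2⌉₊
  refine ⟨B, fun u hu => (hB u).2 ?_⟩
  have h1 : ‖GaussianInt.toComplex u‖ ≤ R + ‖δ‖ := by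
    have h2 := norm_sub_le (GaussianInt.toComplex u + δ) δ
    rw [add_sub_cancel_right] at h2
    linarith
  have h2 : (nG u : ℝ) ≤ (R + ‖δ‖) ^ 2 := by
    rw [nG_eq_norm_sq]
    exact pow_le_pow_left₀ (norm_nonneg _) h1 2
  exact_mod_cast h2.trans (Nat.le_ceil _)

end Lat

open Fermat.Agent.Cor.Gauss.Lat in
/-- **(G9)** the lattice point estimate for translates -/
theorem latShiftStmt : LatShiftStmt := by
  classical
  intro δ j
  refine ⟨2 * Real.pi * (((2 + 4 * |(j : ℝ)|) + 4) * 3), fun R hR => ?_⟩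
  have hR0 : 0 ≤ R := by linarith
  obtain ⟨B, hB⟩ := exists_ball_shift δ R
  have hfB : ∀ u ∉ B, gR j R (GaussianInt.toComplex u + δ) = 0 := fun u hu =>
    gR_neg fun h => hu (hB u h.2)
  have h1 : ∫ w, gR j R (GaussianInt.toComplex (fl w) + δ) =
      ∑' u : {u : GaussianInt // GaussianInt.toComplex u + δ ≠ 0 ∧
        ‖GaussianInt.toComplex u + δ‖ ≤ R},
        ((GaussianInt.toComplex u + δ) / ‖GaussianInt.toComplex u + δ‖) ^ j := by
    rw [integral_comp_fl B (fun u => gR j R (GaussianInt.toComplex u + δ)) hfB]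
    have h3 := tsum_subtype {u : GaussianInt | GaussianInt.toComplex u + δ ≠ 0 ∧
      ‖GaussianInt.toComplex u + δ‖ ≤ R} (fun u =>
      ((GaussianInt.toComplex u + δ) / ‖GaussianInt.toComplex u + δ‖) ^ j)
    refine Eq.trans ?_ h3.symm
    have h4 : ∑' u : GaussianInt, gR j R (GaussianInt.toComplex u + δ) =
        ∑ u ∈ B, gR j R (GaussianInt.toComplex u + δ) := tsum_eq_sum hfB
    rw [← h4]
    refine tsum_congr fun u => ?_
    by_cases hu : GaussianInt.toComplex u + δ ≠ 0 ∧ ‖GaussianInt.toComplex u + δ‖ ≤ R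
    · rw [gR_pos hu, indicator_of_mem (by exact hu)]
      rfl
    · rw [gR_neg hu, indicator_of_notMem (by exact hu)]
  have h2 : ∫ w, (Metric.closedBall (0 : ℂ) R).indicator (angJ j) (w + δ) =
      if j = 0 then (Real.pi : ℂ) * R ^ 2 else 0 := by
    rw [integral_add_right_eq_self]
    by_cases hj : j = 0
    · rw [if_pos hj, hj, integral_discJ_zero hR0]
    · rw [if_neg hj, integral_discJ j hj]
  have h5 : ∀ᵐ w : ℂ, ‖gR j R (GaussianInt.toComplex (fl w) + δ) -
      (Metric.closedBall (0 : ℂ) R).indicator (angJ j) (w + δ)‖ ≤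
        maj (2 + 4 * |(j : ℝ)|) R ‖w + δ‖ := by
    have h0 : ∀ᵐ w : ℂ, w ≠ -δ := Measure.ae_ne volume (-δ)
    filter_upwards [h0] with w hw
    refine norm_gR_sub_le j hR0 (fun h => hw (eq_neg_of_add_eq_zero_left h)) ?_
    rw [add_sub_add_right_eq_sub]
    exact norm_fl_sub_le w
  rw [← h1, ← h2, ← integral_sub (integrable_comp_fl B
    (fun u => gR j R (GaussianInt.toComplex u + δ)) hfB) ((integrable_discJ j R).comp_add_right δ)]
  refine (norm_integral_le_of_norm_le ((integrable_maj _ _).comp_add_right δ) h5).trans ?_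
  have h6 : ∫ w : ℂ, maj (2 + 4 * |(j : ℝ)|) R ‖w + δ‖ = ∫ w : ℂ, maj (2 + 4 * |(j : ℝ)|) R ‖w‖ :=
    integral_add_right_eq_self (fun w : ℂ => maj (2 + 4 * |(j : ℝ)|) R ‖w‖) δ
  rw [h6]
  refine (integral_maj_le hR0).trans ?_
  have h7 : 0 ≤ 2 * Real.pi * ((2 + 4 * |(j : ℝ)|) + 4) := by positivity
  nlinarith

end Fermat.Agent.Cor.Gauss
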