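import Fermat.Agent.Corollaries.Gauss.Sector
import Fermat.Agent.Corollaries.Gauss.Lattice

/-!
# Hecke's theorem on Gaussian primes in sectors

`PrG` : the Gaussian primes `π = a + b i` with `a > 0`, `b ≥ 0` (every Gaussian prime is associated
to exactly one of them), `nG π = a² + b²`, `argP π` its argument.

* `hecke_sector` : for `0 ≤ α ≤ β ≤ π/2`,
  `#{π : N π ≤ x, α < arg π < β} ~ (2 (β - α) / π) x / log x`.
* `hecke_slope` : for `0 ≤ s ≤ t` the number of pairs `(a, b)` of positive integers with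
  `a² + b² ≤ x` prime and `s < b / a < t` is `~ (2 (arctan t - arctan s) / π) x / log x`.
* `exists_prime_slope` : infinitely many primes `p = a² + b²` with `s < b / a < t`.
* `exists_prime_small` : infinitely many primes `p = a² + b²` with `0 < b < ε a`.
-/

set_option autoImplicit false

noncomputable section

open Filter Topology

namespace Fermat.Agent.Cor.Gauss

/-- **Hecke's theorem (1920): the Gaussian primes are equidistributed in sectors.** -/
theorem hecke_sector {α β : ℝ} (hα : 0 ≤ α) (hαβ : α ≤ β) (hβ : β ≤ Real.pi / 2) :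
    Tendsto (fun x : ℕ => (Nat.card {P : PrG // nG P.1 ≤ x ∧ α < argP P ∧ argP P < β} : ℝ) *
      Real.log x / x) atTop (𝓝 (2 * (β - α) / Real.pi)) :=
  sector_of_lat latStmt hα hαβ hβ

/-- **Primes `p = a² + b²` with `b / a` in a given interval.** -/
theorem hecke_slope {s t : ℝ} (hs : 0 ≤ s) (hst : s ≤ t) :
    Tendsto (fun x : ℕ => (Nat.card {q : ℕ × ℕ // 0 < q.1 ∧ 0 < q.2 ∧
      (q.1 ^ 2 + q.2 ^ 2).Prime ∧ q.1 ^ 2 + q.2 ^ 2 ≤ x ∧ s < (q.2 : ℝ) / q.1 ∧
        (q.2 : ℝ) / q.1 < t} : ℝ) * Real.log x / x) atTop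
      (𝓝 (2 * (Real.arctan t - Real.arctan s) / Real.pi)) :=
  slope_of_lat latStmt hs hst

/-- There are infinitely many primes `p = a² + b²` with `s < b / a < t`. -/
theorem exists_prime_slope {s t : ℝ} (hs : 0 ≤ s) (hst : s < t) (n : ℕ) :
    ∃ a b : ℕ, 0 < a ∧ 0 < b ∧ (a ^ 2 + b ^ 2).Prime ∧ n < a ^ 2 + b ^ 2 ∧
      s < (b : ℝ) / a ∧ (b : ℝ) / a < t :=
  exists_prime_slope_of_lat latStmt hs hst n

/-- There are infinitely many primes `p = a² + b²` with `0 < b < ε a`. -/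
theorem exists_prime_small {ε : ℝ} (hε : 0 < ε) (n : ℕ) :
    ∃ a b : ℕ, 0 < b ∧ (b : ℝ) < ε * a ∧ (a ^ 2 + b ^ 2).Prime ∧ n < a ^ 2 + b ^ 2 := by
  obtain ⟨a, b, ha, hb, hp, hn, -, ht⟩ := exists_prime_slope le_rfl hε n
  have ha' : (0 : ℝ) < a := by exact_mod_cast ha
  exact ⟨a, b, hb, (div_lt_iff₀ ha').1 ht, hp, hn⟩

/-- The number of Gaussian primes of norm `≤ x` in the quadrant is `~ x / log x`. -/
theorem card_gaussian_primes :
    Tendsto (fun x : ℕ => (Nat.card {P : PrG // nG P.1 ≤ x} : ℝ) * Real.log x / x) atTop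
      (𝓝 1) := by
  refine (tendsto_card_prG latStmt).congr fun x => ?_
  congr 3
  rw [← Nat.card_eq_finsetCard]
  exact Nat.card_congr (Equiv.subtypeEquivRight fun P => isCount_prG.mem_F)

end Fermat.Agent.Cor.Gauss
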