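import Fermat.Agent.Corollaries.Gauss.LFun

/-!
# The Gaussian primes of the quadrant, their norms and their arguments

* `prime_nG` : if `im π > 0`, then `N π` is a prime number.
* `prime_mk` : if `a² + b²` is a prime number, then `a + b i` is a Gaussian prime.
* `ang π = 2 arg(π) / π` (in `[0, 1)`), `exp_ang` : `e(k ang π) = (π / |π|)^{4 k}`.
* `arg_eq_arctan`.
-/

set_option autoImplicit false

noncomputable section

open Filter Topology Complex

namespace Fermat.Agent.Cor.Gauss

theorem isUnit_iff_nG {z : GaussianInt} : IsUnit z ↔ nG z = 1 := Zsqrtd.norm_eq_one_iff.symm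

theorem mul_star_eq (z : GaussianInt) : z * star z = ((nG z : ℕ) : GaussianInt) := by
  have h1 : ((nG z : ℕ) : GaussianInt) = ((nG z : ℤ) : GaussianInt) := by push_cast; rfl
  rw [h1, nG_eq]
  apply Zsqrtd.ext
  · simp [Zsqrtd.re_mul]
  · simp [Zsqrtd.im_mul]
    ring

/-- A Gaussian prime divides a prime number. -/
theorem exists_prime_dvd {P : GaussianInt} (hP : Prime P) :
    ∃ p : ℕ, p.Prime ∧ P ∣ (p : GaussianInt) := by
  have h1 : P ∣ ((nG P : ℕ) : GaussianInt) := by
    rw [← mul_star_eq]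
    exact dvd_mul_right _ _
  have h0 : nG P ≠ 0 := fun h => hP.ne_zero (nG_eq_zero.1 h)
  rw [← Nat.prod_primeFactorsList h0, Nat.cast_list_prod, hP.dvd_prod_iff] at h1
  obtain ⟨a, ha, hPa⟩ := h1
  obtain ⟨p, hp, rfl⟩ := List.mem_map.1 ha
  exact ⟨p, Nat.prime_of_mem_primeFactorsList hp, hPa⟩

theorem nG_natCast (n : ℕ) : nG (n : GaussianInt) = n ^ 2 := by
  zify
  rw [nG_eq]
  simp
  ring

/-- a Gaussian prime of the open quadrant has norm a prime number -/
theorem prime_nG (P : PrG) (h : 0 < P.1.im) : (nG P.1).Prime := by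
  obtain ⟨p, hp, w, hw⟩ := exists_prime_dvd P.2.1
  have h1 : p ^ 2 = nG P.1 * nG w := by
    rw [← nG_natCast, hw, nG_mul]
  obtain ⟨k, hk, hk'⟩ := (Nat.dvd_prime_pow hp).1 (Dvd.intro _ h1.symm)
  have h2 := two_le_nG P
  interval_cases k
  · rw [pow_zero] at hk'
    omega
  · rw [hk', pow_one]
    exact hp
  · exfalso
    have h3 : nG w = 1 := by
      rw [hk'] at h1
      have h4 : 0 < p ^ 2 := by
        have := hp.pos
        positivity
      exact Nat.eq_of_mul_eq_mul_left h4 (by omega)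
    have h4 : IsUnit w := isUnit_iff_nG.2 h3
    have h5 : w = 1 := unit_quad_eq_one h4 P.2.2.1 P.2.2.2
      (by rw [mul_comm, ← hw]; simp [hp.pos]) (by rw [mul_comm, ← hw]; simp)
    rw [h5, mul_one] at hw
    rw [← hw] at h
    simp at h

/-- `a + b i` is a Gaussian prime if `a² + b²` is a prime number. -/
theorem prime_of_nG {z : GaussianInt} (h : (nG z).Prime) : Prime z := by
  have h1 : Irreducible z := by
    refine ⟨fun h2 => ?_, fun x y hxy => ?_⟩
    · rw [isUnit_iff_nG] at h2
      rw [h2] at h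
      exact Nat.not_prime_one h
    · rw [hxy, nG_mul] at h
      rcases Nat.prime_mul_iff.1 h with h3 | h3
      · exact Or.inr (isUnit_iff_nG.2 h3.2)
      · exact Or.inl (isUnit_iff_nG.2 h3.2)
  exact h1.prime

theorem nG_mk (a b : ℕ) : nG ⟨a, b⟩ = a ^ 2 + b ^ 2 := by
  zify
  rw [nG_eq]
  ring

/-! ### Arguments -/

theorem toComplex_re_pos (P : PrG) : 0 < (GaussianInt.toComplex P.1).re := by
  rw [← GaussianInt.intCast_re]
  exact_mod_cast P.2.2.1

theorem toComplex_im_nonneg (P : PrG) : 0 ≤ (GaussianInt.toComplex P.1).im := by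
  rw [← GaussianInt.intCast_im]
  exact_mod_cast P.2.2.2

/-- the argument of a prime of the quadrant -/
def argP (P : PrG) : ℝ := (GaussianInt.toComplex P.1).arg

theorem argP_nonneg (P : PrG) : 0 ≤ argP P := Complex.arg_nonneg_iff.2 (toComplex_im_nonneg P)

theorem argP_lt (P : PrG) : argP P < Real.pi / 2 := by
  have h1 := (Complex.abs_arg_lt_pi_div_two_iff (z := GaussianInt.toComplex P.1)).2
    (Or.inl (toComplex_re_pos P))
  exact (le_abs_self _).trans_lt h1

theorem argP_eq_arctan (P : PrG) : argP P = Real.arctan (P.1.im / P.1.re) := by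
  have h1 := Complex.tan_arg (GaussianInt.toComplex P.1)
  rw [← GaussianInt.intCast_re, ← GaussianInt.intCast_im] at h1
  rw [← h1]
  have h2 := argP_nonneg P
  exact (Real.arctan_tan (by have := Real.pi_pos; change -(Real.pi / 2) < argP P; linarith)
    (argP_lt P)).symm

/-- `2 arg(π) / π`, in `[0, 1)` -/
def ang (P : PrG) : ℝ := 2 * argP P / Real.pi

theorem ang_nonneg (P : PrG) : 0 ≤ ang P :=
  div_nonneg (mul_nonneg two_pos.le (argP_nonneg P)) Real.pi_pos.le

theorem ang_lt_one (P : PrG) : ang P < 1 := by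
  rw [ang, div_lt_one Real.pi_pos]
  have := argP_lt P
  linarith

theorem dir_eq_exp (P : PrG) : dir P.1 = Complex.exp (argP P * I) := by
  have h1 := Complex.norm_mul_exp_arg_mul_I (GaussianInt.toComplex P.1)
  have h2 : (‖GaussianInt.toComplex P.1‖ : ℂ) ≠ 0 := by
    rw [Complex.ofReal_ne_zero, norm_ne_zero_iff]
    exact fun h => P.2.1.ne_zero (GaussianInt.toComplex_eq_zero.1 h)
  rw [dir, div_eq_iff h2, mul_comm]
  exact h1.symm

theorem exp_ang (P : PrG) (k : ℤ) :
    Complex.exp (2 * Real.pi * I * k * ang P) = (dir P.1 ^ (4 : ℤ)) ^ k := by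
  rw [dir_eq_exp, ← Complex.exp_int_mul, ← Complex.exp_int_mul, ang]
  congr 1
  have hpi : (Real.pi : ℂ) ≠ 0 := by exact_mod_cast Real.pi_ne_zero
  push_cast
  field_simp
  ring

end Fermat.Agent.Cor.Gauss
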