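import Fermat.Agent.Corollaries.Gauss.Defs

/-!
# Weyl's criterion on `[0, 1)` (block K20, piece G5)
-/

set_option autoImplicit false

open Filter Topology MeasureTheory Set AddCircle

namespace Fermat.Agent.Cor.Gauss

section Weyl

variable {ι : Type} {θ : ι → ℝ} {F : ℕ → Finset ι} {c : ℕ → ℝ}

/-- the weighted sum of `f` over the points `θ i`, `i ∈ F n` -/
noncomputable def wSum (θ : ι → ℝ) (F : ℕ → Finset ι) (c : ℕ → ℝ) (f : UnitAddCircle → ℂ)
    (n : ℕ) : ℂ :=
  (c n : ℂ) * ∑ i ∈ F n, f (θ i)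

theorem integral_fourier (k : ℤ) :
    ∫ x : UnitAddCircle, fourier k x ∂haarAddCircle = if k = 0 then 1 else 0 := by
  have h1 := congrFun (fourierCoeff_fourier (T := (1 : ℝ)) k) 0
  rw [fourierCoeff] at h1
  have h2 : ∀ x : UnitAddCircle, fourier (-0) x • (fourier k x : ℂ) = fourier k x := by
    intro x
    rw [neg_zero, fourier_zero, one_smul]
  rw [integral_congr_ae (Eventually.of_forall h2)] at h1
  rw [h1]
  by_cases hk : k = 0
  · rw [hk, Pi.single_eq_same, if_pos rfl]
  · rw [Pi.single_eq_of_ne (Ne.symm hk), if_neg hk]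

/-- convergence for all continuous functions -/
theorem tendsto_wSum (hc0 : ∀ n, 0 ≤ c n)
    (hcard : Tendsto (fun n => c n * ((F n).card : ℝ)) atTop (𝓝 1))
    (hk : ∀ k : ℤ, k ≠ 0 → Tendsto (fun n => (c n : ℂ) *
      ∑ i ∈ F n, Complex.exp (2 * Real.pi * Complex.I * k * θ i)) atTop (𝓝 0))
    (f : C(UnitAddCircle, ℂ)) :
    Tendsto (wSum θ F c f) atTop (𝓝 (∫ x, f x ∂haarAddCircle)) := by
  -- the span
  have hspan : ∀ g ∈ Submodule.span ℂ (range (@fourier (1 : ℝ))),
      Tendsto (wSum θ F c g) atTop (𝓝 (∫ x, g x ∂haarAddCircle)) := by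
    intro g hg
    induction hg using Submodule.span_induction with
    | mem g hg =>
      obtain ⟨k, rfl⟩ := hg
      rw [integral_fourier]
      by_cases h0 : k = 0
      · subst h0
        rw [if_pos rfl]
        have h1 : wSum θ F c (fourier 0) = fun n => ((c n * ((F n).card : ℝ) : ℝ) : ℂ) := by
          ext n
          unfold wSum
          simp
        rw [h1]
        exact_mod_cast (Complex.continuous_ofReal.tendsto 1).comp hcard
      · rw [if_neg h0]
        refine (hk k h0).congr fun n => ?_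
        unfold wSum
        congr 1
        refine Finset.sum_congr rfl fun i _ => ?_
        rw [fourier_coe_apply]
        simp
    | zero =>
      have h1 : wSum θ F c (0 : C(UnitAddCircle, ℂ)) = fun n => 0 := by
        ext n
        unfold wSum
        simp
      rw [h1]
      simp
    | add g g' _ _ h h' =>
      have h1 : wSum θ F c (g + g' : C(UnitAddCircle, ℂ)) =
          fun n => wSum θ F c g n + wSum θ F c g' n := by
        ext n
        unfold wSum
        simp only [ContinuousMap.add_apply, Finset.sum_add_distrib, mul_add]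
      rw [h1]
      have h2 : ∫ x, (g + g') x ∂haarAddCircle =
          (∫ x, g x ∂haarAddCircle) + ∫ x, g' x ∂haarAddCircle := by
        rw [← integral_add]
        · rfl
        · exact (map_continuous g).integrable_of_hasCompactSupport
            (HasCompactSupport.of_compactSpace _)
        · exact (map_continuous g').integrable_of_hasCompactSupport
            (HasCompactSupport.of_compactSpace _)
      rw [h2]
      exact h.add h'
    | smul a g _ h =>
      have h1 : wSum θ F c (a • g : C(UnitAddCircle, ℂ)) = fun n => a * wSum θ F c g n := by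
        ext n
        unfold wSum
        simp only [ContinuousMap.smul_apply, smul_eq_mul]
        rw [← Finset.mul_sum]
        ring
      rw [h1]
      have h2 : ∫ x, (a • g) x ∂haarAddCircle = a * ∫ x, g x ∂haarAddCircle := by
        rw [← integral_const_mul]
        rfl
      rw [h2]
      exact h.const_mul a
  have hcl : f ∈ (Submodule.span ℂ (range (@fourier (1 : ℝ)))).topologicalClosure := by
    rw [span_fourier_closure_eq_top]
    trivial
  rw [Metric.tendsto_atTop]
  intro ε hε
  have hcl' : f ∈ closure ((Submodule.span ℂ (range (@fourier (1 : ℝ))) :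
    Submodule ℂ C(UnitAddCircle, ℂ)) : Set C(UnitAddCircle, ℂ)) := hcl
  obtain ⟨g, hg, hfg⟩ := Metric.mem_closure_iff.mp hcl' (ε / 8) (by positivity)
  have hfg' : ∀ x, ‖f x - g x‖ ≤ ε / 8 := fun x => by
    rw [← dist_eq_norm]
    exact (ContinuousMap.dist_apply_le_dist x).trans hfg.le
  obtain ⟨N, hN⟩ := Metric.tendsto_atTop.mp (hspan g hg) (ε / 4) (by positivity)
  obtain ⟨N', hN'⟩ := eventually_atTop.mp (hcard.eventually (gt_mem_nhds (show (1 : ℝ) < 2 by
    norm_num)))
  refine ⟨max N N', fun n hn => ?_⟩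
  have h1 := hN n ((le_max_left _ _).trans hn)
  have h2 := hN' n ((le_max_right _ _).trans hn)
  rw [dist_eq_norm] at h1 ⊢
  have h3 : ‖wSum θ F c f n - wSum θ F c g n‖ ≤ ε / 4 := by
    unfold wSum
    rw [← mul_sub, ← Finset.sum_sub_distrib, norm_mul, Complex.norm_real,
      Real.norm_of_nonneg (hc0 n)]
    calc c n * ‖∑ i ∈ F n, (f (θ i) - g (θ i))‖ ≤ c n * ((F n).card * (ε / 8)) := by
          refine mul_le_mul_of_nonneg_left ?_ (hc0 n)
          refine (norm_sum_le _ _).trans ?_
          rw [← nsmul_eq_mul]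
          exact Finset.sum_le_card_nsmul _ _ _ fun i _ => hfg' _
      _ = (c n * (F n).card) * (ε / 8) := by ring
      _ ≤ 2 * (ε / 8) := by gcongr
      _ = ε / 4 := by ring
  have h4 : ‖(∫ x, g x ∂haarAddCircle) - ∫ x, f x ∂(haarAddCircle (T := (1 : ℝ)))‖ ≤ ε / 8 := by
    rw [← integral_sub ((map_continuous g).integrable_of_hasCompactSupport
      (HasCompactSupport.of_compactSpace _)) ((map_continuous f).integrable_of_hasCompactSupport
      (HasCompactSupport.of_compactSpace _))]
    have h5 := norm_integral_le_of_norm_le_const (μ := (haarAddCircle (T := (1 : ℝ))))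
      (f := fun x => g x - f x) (C := ε / 8) (Eventually.of_forall fun x => by
        rw [norm_sub_rev]
        exact hfg' x)
    simpa using h5
  have e : wSum θ F c f n - ∫ x, f x ∂haarAddCircle =
      (wSum θ F c f n - wSum θ F c g n) + (wSum θ F c g n - ∫ x, g x ∂haarAddCircle) +
      ((∫ x, g x ∂haarAddCircle) - ∫ x, f x ∂haarAddCircle) := by ring
  rw [e]
  refine (norm_add₃_le).trans_lt ?_
  linarith

/-- the trapezoid -/
noncomputable def trap (α β δ x : ℝ) : ℝ := max 0 (min 1 (min (x - α) (β - x) / δ))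

theorem trap_nonneg (α β δ x : ℝ) : 0 ≤ trap α β δ x := le_max_left _ _

theorem trap_le_one (α β δ x : ℝ) : trap α β δ x ≤ 1 :=
  max_le zero_le_one (min_le_left _ _)

theorem trap_eq_zero {α β δ x : ℝ} (hδ : 0 < δ) (h : x ≤ α ∨ β ≤ x) : trap α β δ x = 0 := by
  unfold trap
  refine max_eq_left ((min_le_right _ _).trans ?_)
  refine div_nonpos_of_nonpos_of_nonneg ?_ hδ.le
  rcases h with h | h
  · exact (min_le_left _ _).trans (by linarith)
  · exact (min_le_right _ _).trans (by linarith)

theorem trap_eq_one {α β δ x : ℝ} (hδ : 0 < δ) (h : α + δ ≤ x) (h' : x ≤ β - δ) :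
    trap α β δ x = 1 := by
  unfold trap
  have : 1 ≤ min (x - α) (β - x) / δ := by
    rw [le_div_iff₀ hδ, one_mul]
    exact le_min (by linarith) (by linarith)
  rw [min_eq_left this]
  exact max_eq_right zero_le_one

theorem continuous_trap (α β δ : ℝ) : Continuous (trap α β δ) := by
  unfold trap
  fun_prop

/-- the lower bound for open intervals -/
theorem eventually_gt_open (hθ0 : ∀ i, 0 ≤ θ i) (hθ1 : ∀ i, θ i < 1) (hc0 : ∀ n, 0 ≤ c n)
    (hcard : Tendsto (fun n => c n * ((F n).card : ℝ)) atTop (𝓝 1))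
    (hk : ∀ k : ℤ, k ≠ 0 → Tendsto (fun n => (c n : ℂ) *
      ∑ i ∈ F n, Complex.exp (2 * Real.pi * Complex.I * k * θ i)) atTop (𝓝 0))
    {α β : ℝ} (hα : 0 ≤ α) (hβ : β ≤ 1) {ℓ : ℝ} (hℓ : ℓ < β - α) :
    ∀ᶠ n in atTop, ℓ < c n * (((F n).filter fun i => α < θ i ∧ θ i < β).card : ℝ) ∨
      (ℓ < 0) := by
  by_cases hℓ0 : ℓ < 0
  · exact Eventually.of_forall fun n => Or.inr hℓ0
  push Not at hℓ0
  set δ : ℝ := (β - α - ℓ) / 4 with hδdef
  have hδ : 0 < δ := by
    rw [hδdef]
    linarith
  have hδ2 : 2 * δ ≤ β - α := by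
    rw [hδdef]
    linarith
  -- the continuous function on the circle
  have hend : trap α β δ 0 = trap α β δ 1 := by
    rw [trap_eq_zero hδ (Or.inl hα), trap_eq_zero hδ (Or.inr hβ)]
  let f : ℝ → ℂ := fun x => ((trap α β δ x : ℝ) : ℂ)
  have hfc : Continuous f := Complex.continuous_ofReal.comp (continuous_trap α β δ)
  have hcont : Continuous (liftIoc (1 : ℝ) 0 f) := by
    refine liftIoc_continuous ?_ hfc.continuousOn
    show ((trap α β δ 0 : ℝ) : ℂ) = ((trap α β δ (0 + 1) : ℝ) : ℂ)
    rw [zero_add, hend]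
  have hval : ∀ i, liftIoc (1 : ℝ) 0 f (θ i : UnitAddCircle) = f (θ i) := by
    intro i
    rcases (hθ0 i).eq_or_lt with h | h
    · rw [← h]
      have h1 : ((0 : ℝ) : UnitAddCircle) = ((1 : ℝ) : UnitAddCircle) := by
        rw [AddCircle.coe_period]
        rfl
      rw [h1, liftIoc_zero_coe_apply (by simp)]
      show ((trap α β δ 1 : ℝ) : ℂ) = ((trap α β δ 0 : ℝ) : ℂ)
      rw [hend]
    · exact liftIoc_zero_coe_apply ⟨h, (hθ1 i).le⟩
  have h1 := tendsto_wSum hc0 hcard hk ⟨_, hcont⟩
  have h2 : ∫ x, (⟨_, hcont⟩ : C(UnitAddCircle, ℂ)) x ∂haarAddCircle =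
      ((∫ x in (0 : ℝ)..1, trap α β δ x : ℝ) : ℂ) := by
    rw [integral_haarAddCircle, inv_one, one_smul]
    show ∫ x : UnitAddCircle, liftIoc (1 : ℝ) 0 f x = _
    rw [AddCircle.integral_liftIoc_eq_intervalIntegral, zero_add]
    exact intervalIntegral.integral_ofReal
  rw [h2] at h1
  have h3 := (Complex.continuous_re.tendsto _).comp h1
  rw [Complex.ofReal_re] at h3
  -- the integral is large
  have h4 : ℓ < ∫ x in (0 : ℝ)..1, trap α β δ x := by
    have h5 : ∫ x in (α + δ)..(β - δ), trap α β δ x = β - δ - (α + δ) := by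
      rw [intervalIntegral.integral_congr (g := fun _ => (1 : ℝ))]
      · simp
      · intro x hx
        rw [uIcc_of_le (by linarith)] at hx
        exact trap_eq_one hδ hx.1 hx.2
    have h6 : ∫ x in (α + δ)..(β - δ), trap α β δ x ≤ ∫ x in (0 : ℝ)..1, trap α β δ x := by
      refine intervalIntegral.integral_mono_interval (by linarith) (by linarith) (by linarith)
        (Eventually.of_forall fun x => trap_nonneg _ _ _ _)
        ((continuous_trap α β δ).intervalIntegrable _ _)
    rw [h5] at h6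
    refine lt_of_lt_of_le ?_ h6
    rw [hδdef]
    linarith
  filter_upwards [h3.eventually (lt_mem_nhds h4)] with n hn
  left
  refine hn.trans_le ?_
  have h5 : wSum θ F c (⟨_, hcont⟩ : C(UnitAddCircle, ℂ)) n =
      ((c n * ∑ i ∈ F n, trap α β δ (θ i) : ℝ) : ℂ) := by
    unfold wSum
    push_cast
    congr 1
    refine Finset.sum_congr rfl fun i _ => ?_
    exact hval i
  rw [Function.comp_apply, h5, Complex.ofReal_re]
  refine mul_le_mul_of_nonneg_left ?_ (hc0 n)
  rw [← Finset.sum_filter_add_sum_filter_not (F n) (fun i => α < θ i ∧ θ i < β)]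
  have h6 : ∑ i ∈ (F n).filter (fun i => ¬ (α < θ i ∧ θ i < β)), trap α β δ (θ i) = 0 := by
    refine Finset.sum_eq_zero fun i hi => ?_
    refine trap_eq_zero hδ ?_
    have := (Finset.mem_filter.mp hi).2
    by_contra hcon
    push Not at hcon
    exact this hcon
  rw [h6, add_zero]
  calc ∑ i ∈ (F n).filter (fun i => α < θ i ∧ θ i < β), trap α β δ (θ i) ≤
      ((F n).filter fun i => α < θ i ∧ θ i < β).card • (1 : ℝ) :=
        Finset.sum_le_card_nsmul _ _ _ fun i _ => trap_le_one _ _ _ _
    _ = _ := by simp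

theorem card_filter_open (n : ℕ) (α β : ℝ) :
    (Nat.card {i // i ∈ F n ∧ α < θ i ∧ θ i < β} : ℝ) =
      (((F n).filter fun i => α < θ i ∧ θ i < β).card : ℝ) := by
  rw [Nat.subtype_card ((F n).filter fun i => α < θ i ∧ θ i < β)]
  intro i
  rw [Finset.mem_filter]

theorem card_filter_closed (n : ℕ) (α β : ℝ) :
    (Nat.card {i // i ∈ F n ∧ α ≤ θ i ∧ θ i ≤ β} : ℝ) =
      (((F n).filter fun i => α ≤ θ i ∧ θ i ≤ β).card : ℝ) := by
  rw [Nat.subtype_card ((F n).filter fun i => α ≤ θ i ∧ θ i ≤ β)]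
  intro i
  rw [Finset.mem_filter]

end Weyl

/-- **(G5)** Weyl's criterion on `[0, 1)` -/
theorem weylStmt : WeylStmt := by
  intro ι θ F c hθ0 hθ1 hc0 hcard hk α β hα hαβ hβ
  have hopen : ∀ {α β : ℝ}, 0 ≤ α → β ≤ 1 → ∀ ℓ : ℝ, ℓ < β - α → ∀ᶠ n in atTop,
      ℓ < c n * (((F n).filter fun i => α < θ i ∧ θ i < β).card : ℝ) := by
    intro α β hα hβ ℓ hℓ
    filter_upwards [eventually_gt_open hθ0 hθ1 hc0 hcard hk hα hβ hℓ] with n hn
    rcases hn with h | h
    · exact h
    · exact h.trans_le (mul_nonneg (hc0 n) (Nat.cast_nonneg _))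
  have hle : ∀ n, c n * (((F n).filter fun i => α < θ i ∧ θ i < β).card : ℝ) ≤
      c n * (((F n).filter fun i => α ≤ θ i ∧ θ i ≤ β).card : ℝ) := by
    intro n
    refine mul_le_mul_of_nonneg_left ?_ (hc0 n)
    have h : (F n).filter (fun i => α < θ i ∧ θ i < β) ⊆
        (F n).filter fun i => α ≤ θ i ∧ θ i ≤ β := by
      intro i hi
      rw [Finset.mem_filter] at hi ⊢
      exact ⟨hi.1, hi.2.1.le, hi.2.2.le⟩
    exact_mod_cast Finset.card_le_card h
  have hup : ∀ u : ℝ, β - α < u → ∀ᶠ n in atTop,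
      c n * (((F n).filter fun i => α ≤ θ i ∧ θ i ≤ β).card : ℝ) < u := by
    intro u hu
    set ε : ℝ := (u - (β - α)) / 3 with hε
    have hε0 : 0 < ε := by
      rw [hε]
      linarith
    filter_upwards [hopen (le_refl (0 : ℝ)) (hαβ.trans hβ) (α - 0 - ε) (by linarith),
      hopen (hα.trans hαβ) (le_refl (1 : ℝ)) (1 - β - ε) (by linarith),
      hcard.eventually (gt_mem_nhds (show (1 : ℝ) < 1 + ε by linarith))] with n h1 h2 h3
    have h4 : ((F n).filter fun i => (0 : ℝ) < θ i ∧ θ i < α).card +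
        ((F n).filter fun i => α ≤ θ i ∧ θ i ≤ β).card +
        ((F n).filter fun i => β < θ i ∧ θ i < 1).card ≤ (F n).card := by
      classical
      rw [← Finset.card_union_of_disjoint, ← Finset.card_union_of_disjoint]
      · refine Finset.card_le_card ?_
        intro i hi
        simp only [Finset.mem_union, Finset.mem_filter] at hi
        tauto
      · rw [Finset.disjoint_left]
        intro i hi hi'
        simp only [Finset.mem_union, Finset.mem_filter] at hi hi'
        rcases hi with hi | hi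
        · linarith [hi.2.2, hi'.2.1]
        · linarith [hi.2.2, hi'.2.1]
      · rw [Finset.disjoint_left]
        intro i hi hi'
        simp only [Finset.mem_filter] at hi hi'
        linarith [hi.2.2, hi'.2.1]
    have h5 : (((F n).filter fun i => (0 : ℝ) < θ i ∧ θ i < α).card : ℝ) +
        (((F n).filter fun i => α ≤ θ i ∧ θ i ≤ β).card : ℝ) +
        (((F n).filter fun i => β < θ i ∧ θ i < 1).card : ℝ) ≤ ((F n).card : ℝ) := by
      exact_mod_cast h4
    have h6 := mul_le_mul_of_nonneg_left h5 (hc0 n)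
    have h7 : u = β - α + 3 * ε := by
      rw [hε]
      ring
    rw [h7]
    nlinarith
  simp only [card_filter_open, card_filter_closed]
  constructor
  · rw [tendsto_order]
    exact ⟨fun ℓ hℓ => hopen hα hβ ℓ hℓ, fun u hu => (hup u hu).mono fun n hn =>
      (hle n).trans_lt hn⟩
  · rw [tendsto_order]
    exact ⟨fun ℓ hℓ => (hopen hα hβ ℓ hℓ).mono fun n hn => hn.trans_le (hle n), fun u hu =>
      hup u hu⟩

end Fermat.Agent.Cor.Gauss
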