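import Fermat.Agent.Corollaries.Gauss.Primary
import Fermat.Agent.Corollaries.Gauss.Quad
import Fermat.Agent.Corollaries.Gauss.Weyl

/-!
# Equidistribution of the primary Gaussian primes

* `tP π` : the argument of `π`, divided by `2 π`, in `[0, 1)`.
* `tendsto_tP` : the arguments are equidistributed.
* `tendsto_cos` : for `-1 ≤ α ≤ β ≤ 1` the number of primary `π` with `im π > 0`, `N π ≤ x`,
  `α ≤ cos (arg π) ≤ β` is `~ ((arccos α - arccos β) / (2 π)) x / log x`.
-/

set_option autoImplicit false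

noncomputable section

open Filter Topology Complex

open scoped Classical

namespace Fermat.Agent.Cor.Gauss

/-- the argument of a primary prime -/
def argPP (π : PrP) : ℝ := (GaussianInt.toComplex π.1).arg

/-- the argument as a fraction of the full circle, in `[0, 1)` -/
def tP (π : PrP) : ℝ :=
  if 0 ≤ argPP π then argPP π / (2 * Real.pi) else argPP π / (2 * Real.pi) + 1

theorem argPP_le (π : PrP) : argPP π ≤ Real.pi := Complex.arg_le_pi _

theorem neg_pi_lt_argPP (π : PrP) : -Real.pi < argPP π := Complex.neg_pi_lt_arg _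

theorem tP_nonneg (π : PrP) : 0 ≤ tP π := by
  have hpi := Real.pi_pos
  rw [tP]
  split_ifs with h
  · positivity
  · have h1 := neg_pi_lt_argPP π
    have h2 : -(1 / 2) < argPP π / (2 * Real.pi) := by
      rw [lt_div_iff₀ (by positivity)]
      linarith
    linarith

theorem tP_lt_one (π : PrP) : tP π < 1 := by
  have hpi := Real.pi_pos
  rw [tP]
  split_ifs with h
  · rw [div_lt_one (by positivity)]
    have := argPP_le π
    linarith
  · have h2 : argPP π / (2 * Real.pi) < 0 := div_neg_of_neg_of_pos (not_le.1 h) (by positivity)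
    linarith

theorem dir_eq_exp_PP (π : PrP) : dir π.1 = Complex.exp (argPP π * I) := by
  have h1 := Complex.norm_mul_exp_arg_mul_I (GaussianInt.toComplex π.1)
  have h2 : (‖GaussianInt.toComplex π.1‖ : ℂ) ≠ 0 := by
    rw [Complex.ofReal_ne_zero, norm_ne_zero_iff]
    exact fun h => π.2.1.ne_zero (GaussianInt.toComplex_eq_zero.1 h)
  rw [dir, div_eq_iff h2, mul_comm]
  exact h1.symm

theorem exp_tP (π : PrP) (k : ℤ) :
    Complex.exp (2 * Real.pi * I * k * tP π) = dir π.1 ^ k := by
  have hpi : (Real.pi : ℂ) ≠ 0 := by exact_mod_cast Real.pi_ne_zero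
  rw [dir_eq_exp_PP, ← Complex.exp_int_mul, tP]
  split_ifs with h
  · congr 1
    push_cast
    field_simp
  · have h1 : 2 * Real.pi * I * k * ((argPP π / (2 * Real.pi) + 1 : ℝ) : ℂ) =
        k * (argPP π * I) + k * (2 * Real.pi * I) := by
      push_cast
      field_simp
    rw [h1, Complex.exp_add, Complex.exp_int_mul_two_pi_mul_I, mul_one]

/-- **Equidistribution** of the arguments of the primary primes. -/
theorem tendsto_tP (hlat : LatPrimStmt) {a b : ℝ} (ha : 0 ≤ a) (hab : a ≤ b) (hb : b ≤ 1) :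
    Tendsto (fun n : ℕ => Real.log n / n *
      (Nat.card {π : PrP // π ∈ isCount_prP.F n ∧ a ≤ tP π ∧ tP π ≤ b} : ℝ)) atTop
      (𝓝 (b - a)) := by
  obtain ⟨L, Z, h⟩ := exists_heckeDatP hlat
  refine (weylStmt PrP tP isCount_prP.F (fun n => Real.log n / n) tP_nonneg tP_lt_one
    (fun n => div_nonneg (Real.log_natCast_nonneg n) (Nat.cast_nonneg n)) ?_ ?_ a b ha hab hb).2
  · refine (h.tendsto_card isCount_prP).congr fun x => ?_
    ring
  · intro k hk
    refine (h.tendsto_sum isCount_prP hk).congr fun x => ?_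
    simp only [exp_tP]

/-! ### Cosines -/

/-- `cos (arg π) = re π / √(N π)` -/
theorem cos_argPP (π : PrP) : Real.cos (argPP π) = π.1.re / Real.sqrt (nG π.1) := by
  have h1 : GaussianInt.toComplex π.1 ≠ 0 :=
    fun h => π.2.1.ne_zero (GaussianInt.toComplex_eq_zero.1 h)
  have h2 : ‖GaussianInt.toComplex π.1‖ = Real.sqrt (nG π.1) := by
    rw [Complex.norm_def]
    congr 1
    rw [← GaussianInt.intCast_real_norm, nG]
    have := GaussianInt.norm_nonneg π.1
    have h3 : ((π.1.norm.natAbs : ℕ) : ℤ) = π.1.norm := Int.natAbs_of_nonneg this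
    rw [← Int.cast_natCast (R := ℝ) π.1.norm.natAbs, h3]
  rw [argPP, Complex.cos_arg h1, h2, ← GaussianInt.intCast_re]

/-- the condition of the upper half plane -/
def good (α β : ℝ) (π : PrP) : Prop :=
  0 < π.1.im ∧ α ≤ π.1.re / Real.sqrt (nG π.1) ∧ (π.1.re : ℝ) / Real.sqrt (nG π.1) ≤ β

theorem argPP_pos_lt {π : PrP} (h : 0 < π.1.im) : 0 < argPP π ∧ argPP π < Real.pi := by
  have h1 : 0 < (GaussianInt.toComplex π.1).im := by
    rw [← GaussianInt.intCast_im]
    exact_mod_cast h
  constructor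
  · rcases (Complex.arg_nonneg_iff.2 h1.le).lt_or_eq with h2 | h2
    · exact h2
    · exfalso
      have h3 := (Complex.arg_eq_zero_iff.1 h2.symm).2
      linarith
  · exact Complex.arg_lt_pi_iff.2 (Or.inr h1.ne')

theorem good_iff {α β : ℝ} (hα : -1 ≤ α) (hαβ : α ≤ β) (hβ : β ≤ 1) {π : PrP}
    (h : 0 < π.1.im) : (α ≤ π.1.re / Real.sqrt (nG π.1) ∧
      (π.1.re : ℝ) / Real.sqrt (nG π.1) ≤ β) ↔
      Real.arccos β / (2 * Real.pi) ≤ tP π ∧ tP π ≤ Real.arccos α / (2 * Real.pi) := by
  have hpi := Real.pi_pos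
  obtain ⟨h1, h2⟩ := argPP_pos_lt h
  rw [tP, if_pos h1.le, div_le_div_iff_of_pos_right (by positivity),
    div_le_div_iff_of_pos_right (by positivity), ← cos_argPP]
  have m : argPP π ∈ Set.Icc 0 Real.pi := ⟨h1.le, h2.le⟩
  have ma : Real.arccos α ∈ Set.Icc 0 Real.pi := ⟨Real.arccos_nonneg α, Real.arccos_le_pi α⟩
  have mb : Real.arccos β ∈ Set.Icc 0 Real.pi := ⟨Real.arccos_nonneg β, Real.arccos_le_pi β⟩
  have ca : Real.cos (Real.arccos α) = α := Real.cos_arccos hα (hαβ.trans hβ)
  have cb : Real.cos (Real.arccos β) = β := Real.cos_arccos (hα.trans hαβ) hβ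
  constructor
  · rintro ⟨h3, h4⟩
    constructor
    · rw [← cb] at h4
      exact (Real.strictAntiOn_cos.le_iff_ge m mb).1 h4
    · rw [← ca] at h3
      exact (Real.strictAntiOn_cos.le_iff_ge ma m).1 h3
  · rintro ⟨h3, h4⟩
    constructor
    · rw [← ca]
      exact (Real.strictAntiOn_cos.le_iff_ge ma m).2 h4
    · rw [← cb]
      exact (Real.strictAntiOn_cos.le_iff_ge m mb).2 h3

/-- the real primary primes: few -/
theorem card_real_le (x : ℕ) :
    ((isCount_prP.F x).filter fun π => π.1.im = 0).card ≤ 2 * Nat.sqrt x + 1 := by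
  have h1 : ∀ π ∈ (isCount_prP.F x).filter fun π => π.1.im = 0,
      π.1.re ∈ Finset.Icc (-(Nat.sqrt x : ℤ)) (Nat.sqrt x) := by
    intro π hπ
    rw [Finset.mem_filter, isCount_prP.mem_F] at hπ
    have h2 := nG_eq π.1
    rw [hπ.2, mul_zero, add_zero] at h2
    have h3 : (nG π.1 : ℤ) ≤ x := by exact_mod_cast hπ.1
    have h4 : π.1.re.natAbs ≤ Nat.sqrt x := by
      rw [Nat.le_sqrt]
      zify
      rw [← abs_mul, abs_of_nonneg (mul_self_nonneg _)]
      linarith
    rw [Finset.mem_Icc]
    omega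
  have h2 := Finset.card_le_card_of_injOn (fun π : PrP => π.1.re) h1 (by
    intro π hπ π' hπ' h
    rw [Finset.mem_coe, Finset.mem_filter] at hπ hπ'
    exact Subtype.ext (Zsqrtd.ext h (hπ.2.trans hπ'.2.symm)))
  refine h2.trans ?_
  rw [Int.card_Icc]
  omega

theorem tendsto_real :
    Tendsto (fun n : ℕ => Real.log n / n *
      (((isCount_prP.F n).filter fun π => π.1.im = 0).card : ℝ)) atTop (𝓝 0) := by
  have h1 : Tendsto (fun x : ℝ => 3 * (Real.log x / x ^ (1 / 2 : ℝ))) atTop (𝓝 (3 * 0)) :=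
    ((isLittleO_log_rpow_atTop (by norm_num : (0 : ℝ) < 1 / 2)).tendsto_div_nhds_zero).const_mul _
  rw [mul_zero] at h1
  have h2 := h1.comp tendsto_natCast_atTop_atTop
  refine squeeze_zero' (Eventually.of_forall fun n => ?_) ?_ h2
  · exact mul_nonneg (div_nonneg (Real.log_natCast_nonneg n) (Nat.cast_nonneg n))
      (Nat.cast_nonneg _)
  · filter_upwards [eventually_ge_atTop 1] with n hn
    have hn' : (1 : ℝ) ≤ n := by exact_mod_cast hn
    have h3 : (((isCount_prP.F n).filter fun π => π.1.im = 0).card : ℝ) ≤ 3 * Real.sqrt n := by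
      have h4 : (((isCount_prP.F n).filter fun π => π.1.im = 0).card : ℝ) ≤
          2 * (Nat.sqrt n : ℝ) + 1 := by exact_mod_cast card_real_le n
      have h5 : (Nat.sqrt n : ℝ) ≤ Real.sqrt n := Real.nat_sqrt_le_real_sqrt
      have h6 : 1 ≤ Real.sqrt n := Real.one_le_sqrt.2 hn'
      linarith
    have h7 : 0 ≤ Real.log n / n := div_nonneg (Real.log_natCast_nonneg n) (Nat.cast_nonneg n)
    refine (mul_le_mul_of_nonneg_left h3 h7).trans (le_of_eq ?_)
    simp only [Function.comp_apply]
    rw [← Real.sqrt_eq_rpow]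
    have h8 : (n : ℝ) = Real.sqrt n * Real.sqrt n := (Real.mul_self_sqrt (by linarith)).symm
    have h9 : Real.sqrt n ≠ 0 := by
      have h6 : 1 ≤ Real.sqrt n := Real.one_le_sqrt.2 hn'
      linarith
    calc Real.log n / n * (3 * Real.sqrt n) =
          Real.log n / (Real.sqrt n * Real.sqrt n) * (3 * Real.sqrt n) := by rw [← h8]
      _ = 3 * (Real.log n / Real.sqrt n) := by
        field_simp

/-- **The cosines of the arguments of the primary primes.** -/
theorem tendsto_cos (hlat : LatPrimStmt) {α β : ℝ} (hα : -1 ≤ α) (hαβ : α ≤ β) (hβ : β ≤ 1) :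
    Tendsto (fun n : ℕ => Real.log n / n *
      (((isCount_prP.F n).filter (good α β)).card : ℝ)) atTop
      (𝓝 ((Real.arccos α - Real.arccos β) / (2 * Real.pi))) := by
  have hpi := Real.pi_pos
  have ha0 := Real.arccos_nonneg β
  have hb1 : Real.arccos α ≤ Real.pi := Real.arccos_le_pi α
  have hanti : Real.arccos β ≤ Real.arccos α := Real.antitone_arccos hαβ
  have h1 := tendsto_tP hlat (a := Real.arccos β / (2 * Real.pi))
    (b := Real.arccos α / (2 * Real.pi)) (by positivity)
    (div_le_div_of_nonneg_right hanti (by positivity))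
    ((div_le_one (by positivity)).2 (by linarith))
  rw [← sub_div] at h1
  have h2 := h1.sub tendsto_real
  rw [sub_zero] at h2
  have hcard : ∀ n : ℕ, Nat.card {π : PrP // π ∈ isCount_prP.F n ∧
      Real.arccos β / (2 * Real.pi) ≤ tP π ∧ tP π ≤ Real.arccos α / (2 * Real.pi)} =
      ((isCount_prP.F n).filter fun π => Real.arccos β / (2 * Real.pi) ≤ tP π ∧
        tP π ≤ Real.arccos α / (2 * Real.pi)).card := by
    intro n
    rw [← Nat.card_eq_finsetCard]
    exact Nat.card_congr (Equiv.subtypeEquivRight fun π => by rw [Finset.mem_filter])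
  refine tendsto_of_tendsto_of_tendsto_of_le_of_le h2 h1 (fun n => ?_) fun n => ?_
  · have h7 : 0 ≤ Real.log n / n := div_nonneg (Real.log_natCast_nonneg n) (Nat.cast_nonneg n)
    simp only
    rw [← mul_sub]
    refine mul_le_mul_of_nonneg_left ?_ h7
    rw [hcard, sub_le_iff_le_add]
    have h3 : ((isCount_prP.F n).filter fun π => Real.arccos β / (2 * Real.pi) ≤ tP π ∧
        tP π ≤ Real.arccos α / (2 * Real.pi)).card ≤
        ((isCount_prP.F n).filter (good α β)).card +
          ((isCount_prP.F n).filter fun π => π.1.im = 0).card := by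
      refine (Finset.card_le_card fun π hπ => ?_).trans (Finset.card_union_le _ _)
      rw [Finset.mem_filter] at hπ
      obtain ⟨hF, h4, h5⟩ := hπ
      rw [Finset.mem_union, Finset.mem_filter, Finset.mem_filter]
      have h6 : tP π ≤ 1 / 2 := by
        refine h5.trans ?_
        rw [div_le_iff₀ (by positivity)]
        linarith
      have h8 : 0 ≤ argPP π := by
        by_contra h9
        have h10 := neg_pi_lt_argPP π
        rw [tP, if_neg h9] at h6
        have h11 : -(1 / 2) < argPP π / (2 * Real.pi) := by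
          rw [lt_div_iff₀ (by positivity)]
          linarith
        linarith
      have h9 : 0 ≤ π.1.im := by
        have h10 := Complex.arg_nonneg_iff.1 h8
        rw [← GaussianInt.intCast_im] at h10
        exact_mod_cast h10
      rcases h9.lt_or_eq with h10 | h10
      · exact Or.inl ⟨hF, h10, (good_iff hα hαβ hβ h10).2 ⟨h4, h5⟩⟩
      · exact Or.inr ⟨hF, h10.symm⟩
    exact_mod_cast h3
  · have h7 : 0 ≤ Real.log n / n := div_nonneg (Real.log_natCast_nonneg n) (Nat.cast_nonneg n)
    refine mul_le_mul_of_nonneg_left ?_ h7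
    rw [hcard, Nat.cast_le]
    refine Finset.card_le_card fun π hπ => ?_
    rw [Finset.mem_filter] at hπ ⊢
    exact ⟨hπ.1, (good_iff hα hαβ hβ hπ.2.1).1 hπ.2.2⟩

end Fermat.Agent.Cor.Gauss
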