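import Fermat.Agent.Corollaries.Gauss.Defs2
import Fermat.Agent.Corollaries.Gauss.LFun
import Fermat.Agent.Corollaries.Gauss.Cont
import Fermat.Agent.Corollaries.Gauss.CharPNT
import Fermat.Agent.Corollaries.ZetaK.Moebius

/-!
# Primary Gaussian integers

* `prim z` : the primary associate of `z`, if the norm of `z` is odd.
* `fP k hs` : the function `z ↦ (prim z / |z|)^k N(z)^{-s}` (`0` for even norm), completely
  multiplicative.
* `tsum_fP` : its sum over `ℤ[i]` is four times `∑ b_k(n) n^{-s}`.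
* `exists_heckeDatP` : the Hecke `L`-functions `∑_{z primary} (z / |z|)^k N(z)^{-s}`.
-/

set_option autoImplicit false

noncomputable section

open Filter Topology Complex

open scoped Classical

namespace Fermat.Agent.Cor.Gauss

/-! ### Primary numbers -/

theorem primary_one : Primary 1 := by simp [Primary]

theorem Primary.ne_zero {z : GaussianInt} (h : Primary z) : z ≠ 0 := by
  rintro rfl
  simp [Primary] at h

theorem Primary.mul {z w : GaussianInt} (hz : Primary z) (hw : Primary w) : Primary (z * w) := by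
  obtain ⟨h1, h2⟩ := hz
  obtain ⟨h3, h4⟩ := hw
  obtain ⟨b, hb⟩ : ∃ b, z.im = 2 * b := ⟨z.im / 2, by omega⟩
  obtain ⟨d, hd⟩ : ∃ d, w.im = 2 * d := ⟨w.im / 2, by omega⟩
  obtain ⟨m, hm⟩ : ∃ m, z.re = 1 - 2 * b + 4 * m := ⟨(z.re - 1 + 2 * b) / 4, by omega⟩
  obtain ⟨n, hn⟩ : ∃ n, w.re = 1 - 2 * d + 4 * n := ⟨(w.re - 1 + 2 * d) / 4, by omega⟩
  constructor
  · rw [Zsqrtd.im_mul, hb, hd]
    have : z.re * (2 * d) + 2 * b * w.re = 2 * (z.re * d + b * w.re) := by ring
    omega
  · rw [Zsqrtd.im_mul, Zsqrtd.re_mul, hb, hd, hm, hn]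
    have : (1 - 2 * b + 4 * m) * (1 - 2 * d + 4 * n) + -1 * (2 * b) * (2 * d) +
        ((1 - 2 * b + 4 * m) * (2 * d) + 2 * b * (1 - 2 * d + 4 * n)) =
        1 + 4 * (m - 2 * m * d + n + 4 * m * n - 2 * b * n - b * d - b * d + 2 * m * d +
          2 * b * n) := by ring
    omega

/-- odd norm -/
def OddG (z : GaussianInt) : Prop := (z.re + z.im) % 2 = 1

theorem Primary.oddG {z : GaussianInt} (h : Primary z) : OddG z := by
  obtain ⟨h1, h2⟩ := h
  rw [OddG]
  omega

theorem oddG_mul {z w : GaussianInt} : OddG (z * w) ↔ OddG z ∧ OddG w := by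
  simp only [OddG, Zsqrtd.re_mul, Zsqrtd.im_mul]
  have h1 : z.re * w.re + -1 * z.im * w.im + (z.re * w.im + z.im * w.re) =
      (z.re + z.im) * (w.re + w.im) - 2 * (z.im * w.im) := by ring
  rw [h1]
  have h2 : ((z.re + z.im) * (w.re + w.im) - 2 * (z.im * w.im)) % 2 =
      ((z.re + z.im) * (w.re + w.im)) % 2 := by omega
  rw [h2, ← Int.odd_iff, ← Int.odd_iff, ← Int.odd_iff, Int.odd_mul]

theorem oddG_unit {u : GaussianInt} (hu : IsUnit u) : OddG u := by
  rcases unit_cases hu with rfl | rfl | rfl | rfl <;> simp [OddG]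

theorem exists_unit_primary {z : GaussianInt} (hz : OddG z) :
    ∃ u : GaussianInt, IsUnit u ∧ Primary (u * z) := by
  rw [OddG] at hz
  by_cases h1 : z.im % 2 = 0
  · by_cases h2 : (z.re + z.im) % 4 = 1
    · exact ⟨1, isUnit_one, by rw [one_mul]; exact ⟨h1, h2⟩⟩
    · refine ⟨⟨-1, 0⟩, isUnit_negOne, ?_, ?_⟩
      · simp [Zsqrtd.im_mul]
        omega
      · simp [Zsqrtd.im_mul, Zsqrtd.re_mul]
        omega
  · by_cases h2 : (z.re - z.im) % 4 = 1
    · refine ⟨⟨0, 1⟩, isUnit_I, ?_, ?_⟩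
      · simp [Zsqrtd.im_mul]
        omega
      · simp [Zsqrtd.im_mul, Zsqrtd.re_mul]
        omega
    · refine ⟨⟨0, -1⟩, isUnit_negI, ?_, ?_⟩
      · simp [Zsqrtd.im_mul]
        omega
      · simp [Zsqrtd.im_mul, Zsqrtd.re_mul]
        omega

theorem unit_primary_eq_one {u z : GaussianInt} (hu : IsUnit u) (h : Primary z)
    (h' : Primary (u * z)) : u = 1 := by
  obtain ⟨h1, h2⟩ := h
  obtain ⟨h3, h4⟩ := h'
  rcases unit_cases hu with rfl | rfl | rfl | rfl
  · rfl
  · simp [Zsqrtd.im_mul, Zsqrtd.re_mul] at h3 h4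
    omega
  · simp [Zsqrtd.im_mul, Zsqrtd.re_mul] at h3 h4
    omega
  · simp [Zsqrtd.im_mul, Zsqrtd.re_mul] at h3 h4
    omega

/-- the primary associate -/
def prim (z : GaussianInt) : GaussianInt :=
  if h : OddG z then (exists_unit_primary h).choose * z else 0

theorem prim_spec {z : GaussianInt} (h : OddG z) :
    Primary (prim z) ∧ ∃ u : GaussianInt, IsUnit u ∧ prim z = u * z := by
  rw [prim, dif_pos h]
  exact ⟨(exists_unit_primary h).choose_spec.2, _, (exists_unit_primary h).choose_spec.1, rfl⟩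

theorem eq_prim {z w u : GaussianInt} (hw : Primary w) (hu : IsUnit u) (h : w = u * z) :
    w = prim z := by
  have hz : OddG z := by
    have h1 := hw.oddG
    rw [h, oddG_mul] at h1
    exact h1.2
  obtain ⟨h1, v, hv, h2⟩ := prim_spec hz
  obtain ⟨v', hv'⟩ := hv.exists_right_inv
  have h3 : w = (u * v') * prim z := by
    rw [h, h2]
    calc u * z = u * (v * v') * z := by rw [hv', mul_one]
      _ = u * v' * (v * z) := by ring
  have h4 : IsUnit (u * v') := hu.mul (IsUnit.of_mul_eq_one v (by rw [mul_comm]; exact hv'))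
  rw [h3, unit_primary_eq_one h4 h1 (by rw [← h3]; exact hw), one_mul]

theorem prim_of_primary {z : GaussianInt} (h : Primary z) : prim z = z :=
  (eq_prim h isUnit_one (one_mul z).symm).symm

theorem prim_mul {z w : GaussianInt} (hz : OddG z) (hw : OddG w) :
    prim (z * w) = prim z * prim w := by
  obtain ⟨h1, u, hu, h2⟩ := prim_spec hz
  obtain ⟨h3, v, hv, h4⟩ := prim_spec hw
  refine (eq_prim (h1.mul h3) (hu.mul hv) ?_).symm
  rw [h2, h4]
  ring

theorem prim_unit_mul {z u : GaussianInt} (hu : IsUnit u) (hz : OddG z) :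
    prim (u * z) = prim z := by
  obtain ⟨h1, v, hv, h2⟩ := prim_spec hz
  obtain ⟨u', hu'⟩ := hu.exists_left_inv
  refine (eq_prim h1 (hv.mul (IsUnit.of_mul_eq_one u hu')) ?_).symm
  rw [h2]
  calc v * z = v * (u' * u) * z := by rw [hu', mul_one]
    _ = v * u' * (u * z) := by ring

theorem nG_unit_mul {u : GaussianInt} (hu : IsUnit u) (z : GaussianInt) : nG (u * z) = nG z := by
  have h1 : nG u = 1 := Zsqrtd.norm_eq_one_iff.2 hu
  rw [nG_mul, h1, one_mul]

/-! ### The completely multiplicative functions -/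

/-- `z ↦ (prim z / |z|)^k N(z)^{-s}` for odd norm, `0` for even norm -/
def fP (k : ℤ) {s : ℂ} (_hs : s ≠ 0) : GaussianInt →*₀ ℂ where
  toFun z := if OddG z then dir (prim z) ^ k * (nG z : ℂ) ^ (-s) else 0
  map_zero' := by
    rw [if_neg]
    simp [OddG]
  map_one' := by
    rw [if_pos (oddG_unit isUnit_one), prim_of_primary primary_one, nG_one, Nat.cast_one, one_cpow,
      dir_one, one_zpow, mul_one]
  map_mul' z w := by
    by_cases hz : OddG z
    · by_cases hw : OddG w
      · rw [if_pos (oddG_mul.2 ⟨hz, hw⟩), if_pos hz, if_pos hw, prim_mul hz hw, dir_mul, mul_zpow,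
          nG_mul, Nat.cast_mul, Complex.natCast_mul_natCast_cpow]
        ring
      · rw [if_neg (fun h => hw (oddG_mul.1 h).2), if_neg hw, mul_zero]
    · rw [if_neg (fun h => hz (oddG_mul.1 h).1), if_neg hz, zero_mul]

theorem fP_of_odd (k : ℤ) {s : ℂ} (hs : s ≠ 0) {z : GaussianInt} (hz : OddG z) :
    fP k hs z = dir (prim z) ^ k * (nG z : ℂ) ^ (-s) := if_pos hz

theorem fP_of_not_odd (k : ℤ) {s : ℂ} (hs : s ≠ 0) {z : GaussianInt} (hz : ¬ OddG z) :
    fP k hs z = 0 := if_neg hz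

theorem fP_of_primary (k : ℤ) {s : ℂ} (hs : s ≠ 0) {z : GaussianInt} (hz : Primary z) :
    fP k hs z = dir z ^ k * (nG z : ℂ) ^ (-s) := by
  rw [fP_of_odd k hs hz.oddG, prim_of_primary hz]

theorem fP_unit_mul (k : ℤ) {s : ℂ} (hs : s ≠ 0) {u : GaussianInt} (hu : IsUnit u)
    (z : GaussianInt) : fP k hs (u * z) = fP k hs z := by
  by_cases hz : OddG z
  · rw [fP_of_odd k hs hz, fP_of_odd k hs (oddG_mul.2 ⟨oddG_unit hu, hz⟩), prim_unit_mul hu hz,
      nG_unit_mul hu]
  · rw [fP_of_not_odd k hs hz, fP_of_not_odd k hs fun h => hz (oddG_mul.1 h).2]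

theorem fP_unit (k : ℤ) {s : ℂ} (hs : s ≠ 0) {u : GaussianInt} (hu : IsUnit u) :
    fP k hs u = 1 := by
  have h := fP_unit_mul k hs hu 1
  rwa [mul_one, map_one] at h

theorem norm_dir_zpow_le {z : GaussianInt} (hz : z ≠ 0) (k : ℤ) : ‖dir z ^ k‖ ≤ 1 := by
  rw [norm_zpow, norm_dir hz, one_zpow]

theorem norm_fP_le (k : ℤ) {s : ℂ} (h0 : s ≠ 0) (z : GaussianInt) :
    ‖fP k h0 z‖ ≤ (nG z : ℝ) ^ (-s.re) := by
  by_cases hz : OddG z
  · have hz0 : z ≠ 0 := by
      rintro rfl
      simp [OddG] at hz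
    rw [fP_of_odd k h0 hz, norm_mul, Complex.norm_natCast_cpow_of_pos
      (Nat.pos_of_ne_zero fun h => hz0 (nG_eq_zero.1 h)), neg_re]
    exact mul_le_of_le_one_left (Real.rpow_nonneg (Nat.cast_nonneg _) _)
      (norm_dir_zpow_le (prim_spec hz).1.ne_zero k)
  · rw [fP_of_not_odd k h0 hz, norm_zero]
    exact Real.rpow_nonneg (Nat.cast_nonneg _) _

theorem summable_fP (k : ℤ) {s : ℂ} (hs : 1 < s.re) (h0 : s ≠ 0) :
    Summable fun z => ‖fP k h0 z‖ :=
  (summable_nG hs).of_nonneg_of_le (fun _ => norm_nonneg _) fun z => norm_fP_le k h0 z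

/-! ### Four times the sum over the primary numbers -/

/-- the part of `fP` on the primary numbers -/
def FP (k : ℤ) (s : ℂ) (z : GaussianInt) : ℂ :=
  if Primary z then dir z ^ k * (nG z : ℂ) ^ (-s) else 0

theorem fP_eq_sum (k : ℤ) {s : ℂ} (hs : s ≠ 0) (z : GaussianInt) :
    fP k hs z = FP k s (⟨1, 0⟩ * z) + FP k s (⟨-1, 0⟩ * z) + FP k s (⟨0, 1⟩ * z) +
      FP k s (⟨0, -1⟩ * z) := by
  have key : ∀ u : GaussianInt, IsUnit u → Primary (u * z) → fP k hs z = FP k s (u * z) := by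
    intro u hu h
    rw [← fP_unit_mul k hs hu z, fP_of_primary k hs h, FP, if_pos h]
  have key0 : ∀ u v : GaussianInt, IsUnit u → IsUnit v → u ≠ v → Primary (u * z) →
      FP k s (v * z) = 0 := by
    intro u v hu hv huv h
    rw [FP, if_neg]
    intro h'
    apply huv
    have h1 := eq_prim h hu rfl
    have h2 := eq_prim h' hv rfl
    have hz : z ≠ 0 := by
      rintro rfl
      rw [mul_zero] at h
      exact h.ne_zero rfl
    exact mul_right_cancel₀ hz (h1.trans h2.symm)
  by_cases hz : OddG z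
  · obtain ⟨u, hu, hp⟩ := exists_unit_primary hz
    rcases unit_cases hu with rfl | rfl | rfl | rfl
    · rw [key0 _ ⟨-1, 0⟩ hu isUnit_negOne (by simp) hp, key0 _ ⟨0, 1⟩ hu isUnit_I (by simp) hp,
        key0 _ ⟨0, -1⟩ hu isUnit_negI (by simp) hp, ← key _ hu hp]
      ring
    · rw [key0 _ ⟨1, 0⟩ hu isUnit_one' (by simp) hp, key0 _ ⟨0, 1⟩ hu isUnit_I (by simp) hp,
        key0 _ ⟨0, -1⟩ hu isUnit_negI (by simp) hp, ← key _ hu hp]
      ring
    · rw [key0 _ ⟨1, 0⟩ hu isUnit_one' (by simp) hp, key0 _ ⟨-1, 0⟩ hu isUnit_negOne (by simp) hp,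
        key0 _ ⟨0, -1⟩ hu isUnit_negI (by simp) hp, ← key _ hu hp]
      ring
    · rw [key0 _ ⟨1, 0⟩ hu isUnit_one' (by simp) hp, key0 _ ⟨-1, 0⟩ hu isUnit_negOne (by simp) hp,
        key0 _ ⟨0, 1⟩ hu isUnit_I (by simp) hp, ← key _ hu hp]
      ring
  · have h0 : ∀ u : GaussianInt, FP k s (u * z) = 0 := by
      intro u
      rw [FP, if_neg]
      intro h
      exact hz (oddG_mul.1 h.oddG).2
    rw [fP_of_not_odd k hs hz, h0, h0, h0, h0]
    ring

theorem norm_FP_le (k : ℤ) (s : ℂ) (z : GaussianInt) : ‖FP k s z‖ ≤ (nG z : ℝ) ^ (-s.re) := by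
  rw [FP]
  split_ifs with h
  · rw [norm_mul, Complex.norm_natCast_cpow_of_pos
      (Nat.pos_of_ne_zero fun h' => h.ne_zero (nG_eq_zero.1 h')), neg_re]
    exact mul_le_of_le_one_left (Real.rpow_nonneg (Nat.cast_nonneg _) _)
      (norm_dir_zpow_le h.ne_zero k)
  · rw [norm_zero]
    exact Real.rpow_nonneg (Nat.cast_nonneg _) _

theorem summable_FP (k : ℤ) {s : ℂ} (hs : 1 < s.re) : Summable (FP k s) :=
  Summable.of_norm ((summable_nG hs).of_nonneg_of_le (fun _ => norm_nonneg _)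
    fun z => norm_FP_le k s z)

theorem hasSum_FP_unit (k : ℤ) {s : ℂ} (hs : 1 < s.re) {u : GaussianInt} (hu : IsUnit u) :
    HasSum (fun z => FP k s (u * z)) (∑' z, FP k s z) := by
  obtain ⟨v, rfl⟩ := hu
  exact (Equiv.hasSum_iff (Units.mulLeft v)).2 (summable_FP k hs).hasSum

theorem tsum_fP_eq (k : ℤ) {s : ℂ} (hs : 1 < s.re) (h0 : s ≠ 0) :
    ∑' z, fP k h0 z = 4 * ∑' z, FP k s z := by
  have h1 := (((hasSum_FP_unit k hs isUnit_one').add (hasSum_FP_unit k hs isUnit_negOne)).add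
    (hasSum_FP_unit k hs isUnit_I)).add (hasSum_FP_unit k hs isUnit_negI)
  have h2 : (fun z => fP k h0 z) = fun z => FP k s (⟨1, 0⟩ * z) + FP k s (⟨-1, 0⟩ * z) +
      FP k s (⟨0, 1⟩ * z) + FP k s (⟨0, -1⟩ * z) := funext fun z => fP_eq_sum k h0 z
  rw [h2, h1.tsum_eq]
  ring

/-- the Dirichlet series of the primary numbers -/
theorem hasSum_bG (k : ℤ) {s : ℂ} (hs : 1 < s.re) :
    HasSum (fun n => LSeries.term (bG k) s n) (∑' z, FP k s z) := by
  have hsum := summable_FP k hs
  have h1 := hsum.hasSum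
  rw [← (Equiv.sigmaFiberEquiv nG).hasSum_iff] at h1
  have h2 := h1.sigma (g := fun n => LSeries.term (bG k) s n) ?_
  · exact h2
  · intro n
    have h3 : Summable fun z : {z // nG z = n} => FP k s z :=
      hsum.comp_injective Subtype.val_injective
    have h4 : ∑' z : {z // nG z = n}, FP k s z = LSeries.term (bG k) s n := by
      rcases eq_or_ne n 0 with rfl | hn
      · rw [LSeries.term_zero]
        refine (tsum_congr fun z => ?_).trans tsum_zero
        rw [FP, if_neg]
        intro h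
        exact h.ne_zero (nG_eq_zero.1 z.2)
      · have h5 : ∑' z : {z // nG z = n}, FP k s z =
            ∑' z, {z : GaussianInt | nG z = n}.indicator (FP k s) z :=
          tsum_subtype {z : GaussianInt | nG z = n} (FP k s)
        have h6 : ∑' z : {z : GaussianInt // nG z = n ∧ Primary z},
            dir z ^ k * ((n : ℂ) ^ s)⁻¹ =
            ∑' z, {z : GaussianInt | nG z = n ∧ Primary z}.indicator
              (fun z => dir z ^ k * ((n : ℂ) ^ s)⁻¹) z :=
          tsum_subtype {z : GaussianInt | nG z = n ∧ Primary z}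
            (fun z => dir z ^ k * ((n : ℂ) ^ s)⁻¹)
        rw [LSeries.term_of_ne_zero hn, bG, div_eq_mul_inv, ← tsum_mul_right, h6, h5]
        refine tsum_congr fun z => ?_
        by_cases hz : nG z = n
        · by_cases hp : Primary z
          · rw [Set.indicator_of_mem (show z ∈ {z : GaussianInt | nG z = n} from hz),
              Set.indicator_of_mem (show z ∈ {z : GaussianInt | nG z = n ∧ Primary z} from
                ⟨hz, hp⟩), FP, if_pos hp, hz, Complex.cpow_neg]
          · rw [Set.indicator_of_mem (show z ∈ {z : GaussianInt | nG z = n} from hz),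
              Set.indicator_of_notMem (show z ∉ {z : GaussianInt | nG z = n ∧ Primary z} from
                fun h => hp h.2), FP, if_neg hp]
        · rw [Set.indicator_of_notMem (show z ∉ {z : GaussianInt | nG z = n} from hz),
            Set.indicator_of_notMem (show z ∉ {z : GaussianInt | nG z = n ∧ Primary z} from
              fun h => hz h.1)]
    rw [← h4]
    exact h3.hasSum

theorem lseriesSummable_bG (k : ℤ) {s : ℂ} (hs : 1 < s.re) : LSeriesSummable (bG k) s :=
  (hasSum_bG k hs).summable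

theorem tsum_fP (k : ℤ) {s : ℂ} (hs : 1 < s.re) (h0 : s ≠ 0) :
    ∑' z, fP k h0 z = 4 * LSeries (bG k) s := by
  rw [tsum_fP_eq k hs h0, ← (hasSum_bG k hs).tsum_eq]
  rfl

/-! ### The primary primes and the primes of the quadrant -/

/-- the associate in the quadrant of a primary prime -/
def toQ (π : PrP) : PrG :=
  ⟨(exists_unit_quad π.2.1.ne_zero).choose * π.1,
    (associated_unit_mul_left π.1 _ (exists_unit_quad π.2.1.ne_zero).choose_spec.1).symm.prime
      π.2.1, (exists_unit_quad π.2.1.ne_zero).choose_spec.2⟩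

theorem toQ_spec (π : PrP) : ∃ u : GaussianInt, IsUnit u ∧ (toQ π).1 = u * π.1 :=
  ⟨_, (exists_unit_quad π.2.1.ne_zero).choose_spec.1, rfl⟩

theorem prim_toQ (π : PrP) : prim (toQ π).1 = π.1 := by
  obtain ⟨u, hu, h⟩ := toQ_spec π
  rw [h, prim_unit_mul hu π.2.2.oddG, prim_of_primary π.2.2]

theorem toQ_injective : Function.Injective toQ := by
  intro π π' h
  apply Subtype.ext
  rw [← prim_toQ π, ← prim_toQ π', h]

theorem oddG_toQ (π : PrP) : OddG (toQ π).1 := by
  obtain ⟨u, hu, h⟩ := toQ_spec π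
  rw [h]
  exact oddG_mul.2 ⟨oddG_unit hu, π.2.2.oddG⟩

theorem nG_toQ (π : PrP) : nG (toQ π).1 = nG π.1 := by
  obtain ⟨u, hu, h⟩ := toQ_spec π
  rw [h, nG_unit_mul hu]

theorem mem_range_toQ {P : PrG} (hP : OddG P.1) : P ∈ Set.range toQ := by
  obtain ⟨h1, u, hu, h2⟩ := prim_spec hP
  have h3 : Prime (prim P.1) := by
    rw [h2]
    exact (associated_unit_mul_left P.1 u hu).symm.prime P.2.1
  refine ⟨⟨prim P.1, h3, h1⟩, ?_⟩
  apply prG_dvd_prG
  obtain ⟨v, hv, h4⟩ := toQ_spec ⟨prim P.1, h3, h1⟩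
  rw [h4]
  simp only [h2]
  exact (associated_unit_mul_left _ v hv).dvd.trans (associated_unit_mul_left P.1 u hu).dvd

theorem fP_toQ (k : ℤ) {s : ℂ} (hs : s ≠ 0) (π : PrP) :
    fP k hs (toQ π).1 = dir π.1 ^ k * (nG π.1 : ℂ) ^ (-s) := by
  rw [fP_of_odd k hs (oddG_toQ π), prim_toQ, nG_toQ]

theorem tsum_log_toQ (k : ℤ) {s : ℂ} (hs : s ≠ 0) :
    ∑' P : PrG, -Complex.log (1 - fP k hs P.1) =
      ∑' π : PrP, -Complex.log (1 - dir π.1 ^ k * (nG π.1 : ℂ) ^ (-s)) := by
  rw [← toQ_injective.tsum_eq]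
  · refine tsum_congr fun π => ?_
    rw [fP_toQ]
  · intro P hP
    by_contra h
    apply hP
    have h1 : ¬ OddG P.1 := fun h2 => h (mem_range_toQ h2)
    change -Complex.log (1 - fP k hs P.1) = 0
    rw [fP_of_not_odd k hs h1, sub_zero, Complex.log_one, neg_zero]

/-! ### The data of Hecke -/

theorem two_le_nG_P (π : PrP) : 2 ≤ nG π.1 := by
  rw [← nG_toQ]
  exact two_le_nG _

theorem isCount_prP : IsCount (fun π : PrP => nG π.1) 2 where
  two_le := two_le_nG_P
  fin x := by
    refine ((finite_prG x).preimage toQ_injective.injOn).subset fun π hπ => ?_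
    change nG (toQ π).1 ≤ x
    rw [nG_toQ]
    exact hπ
  card x := by
    have h1 : (toQ '' {π : PrP | nG π.1 ≤ x}).ncard ≤ 2 * x := by
      refine (Set.ncard_le_ncard ?_ (finite_prG x)).trans (ncard_prG_le x)
      rintro _ ⟨π, hπ, rfl⟩
      change nG (toQ π).1 ≤ x
      rw [nG_toQ]
      exact hπ
    rw [Set.ncard_image_of_injective _ toQ_injective] at h1
    exact_mod_cast h1

theorem exists_heckeDatP (hlat : LatPrimStmt) : ∃ (L : ℤ → ℂ → ℂ) (Z : ℂ → ℂ),
    HeckeDat (fun π : PrP => nG π.1) (fun π : PrP => dir π.1) L Z {s : ℂ | 1 / 2 < s.re} := by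
  choose H hH hH' using fun k : ℤ => contStmt (bG k) (if k = 0 then (Real.pi / 8 : ℂ) else 0)
    (1 / 2) (by norm_num) (by norm_num) (fun s hs => lseriesSummable_bG k hs) (hlat k)
  set L : ℤ → ℂ → ℂ := fun k s => H k s + (if k = 0 then (Real.pi / 8 : ℂ) else 0) * riemannZeta s
    with hL
  have hopen : IsOpen {s : ℂ | 1 / 2 < s.re} := isOpen_lt continuous_const continuous_re
  have hHd : ∀ (k : ℤ) (s : ℂ), s ∈ {s : ℂ | 1 / 2 < s.re} → DifferentiableAt ℂ (H k) s :=
    fun k s hs => (hH k).differentiableAt (hopen.mem_nhds hs)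
  refine ⟨L, fun s => (s - 1) * H 0 s + Real.pi / 8 * zet s, ?_⟩
  refine
    { two_le := two_le_nG_P
      norm_z := fun π => norm_dir π.2.1.ne_zero
      summable := fun σ hσ => (summable_nG hσ).comp_injective Subtype.val_injective
      isOpen := hopen
      subset := fun s hs => by
        have h1 : (1 : ℝ) ≤ s.re := hs
        change (1 / 2 : ℝ) < s.re
        linarith
      euler := fun k => ⟨1, one_ne_zero, fun s hs => ?_⟩
      diff := fun k s hs h => ?_
      diffZ := ?_
      Z_one := ?_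
      Z_eq := fun s _ h1 => ?_ }
  · have h0 : s ≠ 0 := Complex.ne_zero_of_one_lt_re hs
    have h1 := (eulerStmt (fP k h0) (fun u hu => fP_unit k h0 hu) (summable_fP k hs h0)).2.2
    rw [tsum_fP k hs h0, tsum_log_toQ] at h1
    simp only [hL]
    rw [← hH' k s hs, one_mul, eul]
    exact mul_left_cancel₀ (by norm_num) h1
  · rcases eq_or_ne k 0 with rfl | hk
    · have h1 : s ≠ 1 := by
        rcases h with h | h
        · exact h
        · exact absurd rfl h
      exact (hHd 0 s hs).add ((differentiableAt_riemannZeta h1).const_mul _)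
    · have h2 : L k = H k := by
        ext s
        simp only [hL, if_neg hk, zero_mul, add_zero]
      rw [h2]
      exact hHd k s hs
  · have h1 : DifferentiableOn ℂ (fun s : ℂ => s - 1) {s : ℂ | 1 / 2 < s.re} :=
      (differentiable_id.sub_const (1 : ℂ)).differentiableOn
    exact (h1.mul (hH 0)).add (differentiable_zet.const_mul _).differentiableOn
  · rw [sub_self, zero_mul, zero_add, zet_one, mul_one]
    have := Real.pi_ne_zero
    exact div_ne_zero (by exact_mod_cast this) (by norm_num)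
  · simp only [hL, if_true]
    rw [zet_of_ne h1]
    ring

end Fermat.Agent.Cor.Gauss
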