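import Fermat.Agent.Corollaries.Gauss.SatoTateAux
import Fermat.Agent.Corollaries.Gauss.LatPrim

/-!
# The Sato-Tate law for the elliptic curve `y² = x³ + 4 x`

`E4` is the elliptic curve `y² = x³ + 4 x` (complex multiplication by `ℤ[i]`), `a_p` its trace of
Frobenius: `a_p = p + 1 - #E4(𝔽_p)`.

* `sato_tate` : for `-1 ≤ α ≤ β ≤ 1` the number of odd primes `p ≤ x` with
  `α ≤ a_p / (2 √p) ≤ β` is `~ μ([α, β]) x / log x`, where `μ` is the measure
  `(1 / 2) δ_0 + (1 / (2 π)) dt / √(1 - t²)`.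
* `sato_tate_split` : the same for the primes `p ≡ 1 mod 4` (for the other odd primes `a_p = 0`).
* `angles_equidistributed` : the arguments of the primary Gaussian primes are equidistributed.
* `exists_prime_ap` : infinitely many primes with `a_p / (2 √p)` in a given interval.
-/

set_option autoImplicit false

noncomputable section

open Filter Topology

namespace Fermat.Agent.Cor.Gauss

/-- **The Sato-Tate law for `y² = x³ + 4 x`**: for `-1 ≤ α ≤ β ≤ 1`, the number of odd primes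
`p ≤ x` with `α ≤ a_p / (2 √p) ≤ β`, multiplied by `log x / x`, tends to
`(arccos α - arccos β) / (2 π)`, plus `1 / 2` if `0 ∈ [α, β]`. -/
theorem sato_tate {α β : ℝ} (hα : -1 ≤ α) (hαβ : α ≤ β) (hβ : β ≤ 1) :
    Tendsto (fun x : ℕ => (Nat.card {p : ℕ // p.Prime ∧ p ≠ 2 ∧ p ≤ x ∧
      α ≤ (E4.apOfModel p : ℝ) / (2 * Real.sqrt p) ∧
      (E4.apOfModel p : ℝ) / (2 * Real.sqrt p) ≤ β} : ℝ) * Real.log x / x) atTop
      (𝓝 ((if α ≤ 0 ∧ 0 ≤ β then 1 / 2 else 0) +
        (Real.arccos α - Real.arccos β) / (2 * Real.pi))) := by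
  have h := satoTate_of_lat latPrimStmt hα hαβ hβ
  convert h using 3

/-- **The primes `p ≡ 1 mod 4`.** -/
theorem sato_tate_split {α β : ℝ} (hα : -1 ≤ α) (hαβ : α ≤ β) (hβ : β ≤ 1) :
    Tendsto (fun x : ℕ => (Nat.card {p : ℕ // p.Prime ∧ p ≤ x ∧ p % 4 = 1 ∧
      α ≤ (E4.apOfModel p : ℝ) / (2 * Real.sqrt p) ∧
      (E4.apOfModel p : ℝ) / (2 * Real.sqrt p) ≤ β} : ℝ) * Real.log x / x) atTop
      (𝓝 ((Real.arccos α - Real.arccos β) / (2 * Real.pi))) :=
  satoTate_split_of_lat latPrimStmt hα hαβ hβ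

/-- The arguments of the primary Gaussian primes (`tP π = arg π / (2 π)` in `[0, 1)`) are
equidistributed. -/
theorem angles_equidistributed {a b : ℝ} (ha : 0 ≤ a) (hab : a ≤ b) (hb : b ≤ 1) :
    Tendsto (fun n : ℕ => Real.log n / n *
      (Nat.card {π : PrP // nG π.1 ≤ n ∧ a ≤ tP π ∧ tP π ≤ b} : ℝ)) atTop (𝓝 (b - a)) := by
  refine (tendsto_tP latPrimStmt ha hab hb).congr fun n => ?_
  congr 2
  exact Nat.card_congr (Equiv.subtypeEquivRight fun π => by rw [isCount_prP.mem_F])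

/-- There are infinitely many primes `p` with `a_p / (2 √p)` in a given interval. -/
theorem exists_prime_ap {α β : ℝ} (hα : -1 ≤ α) (hαβ : α < β) (hβ : β ≤ 1) (n : ℕ) :
    ∃ p : ℕ, p.Prime ∧ n < p ∧ p % 4 = 1 ∧ α ≤ (E4.apOfModel p : ℝ) / (2 * Real.sqrt p) ∧
      (E4.apOfModel p : ℝ) / (2 * Real.sqrt p) ≤ β := by
  by_contra hno
  push Not at hno
  have hfin : ∀ x, Nat.card (splitSet α β x) ≤ n + 1 := by
    intro x
    have h1 : ∀ q : splitSet α β x, q.1 ∈ Finset.range (n + 1) := by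
      intro q
      obtain ⟨p, h1, h2, h3, h4, h5⟩ := q
      have h7 : ¬ n < p := fun h => absurd h5 (not_le.2 (hno p h1 h h3 h4))
      rw [Finset.mem_range]
      simp only
      omega
    have h2 : Function.Injective fun q : splitSet α β x =>
        (⟨q.1, h1 q⟩ : {q // q ∈ Finset.range (n + 1)}) := by
      intro q q' h
      exact Subtype.ext (Subtype.mk.inj h)
    have h3 := Nat.card_le_card_of_injective _ h2
    rw [Nat.card_eq_finsetCard, Finset.card_range] at h3
    exact h3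
  have h1 : Tendsto (fun x : ℕ => ((n + 1 : ℕ) : ℝ) * (Real.log x / x)) atTop
      (𝓝 ((n + 1 : ℕ) * 0)) :=
    ((Real.isLittleO_log_id_atTop.tendsto_div_nhds_zero).comp
      tendsto_natCast_atTop_atTop).const_mul _
  rw [mul_zero] at h1
  have h2 := le_of_tendsto_of_tendsto' (satoTate_split_of_lat latPrimStmt hα hαβ.le hβ) h1
    fun x => by
      rw [mul_div_assoc]
      exact mul_le_mul_of_nonneg_right (by exact_mod_cast hfin x)
        (div_nonneg (Real.log_natCast_nonneg x) (Nat.cast_nonneg x))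
  have h3 : 0 < (Real.arccos α - Real.arccos β) / (2 * Real.pi) := by
    have h4 := Real.strictAntiOn_arccos ⟨hα, hαβ.le.trans hβ⟩ ⟨hα.trans hαβ.le, hβ⟩ hαβ
    have := Real.pi_pos
    have h5 : 0 < Real.arccos α - Real.arccos β := by linarith
    positivity
  linarith

end Fermat.Agent.Cor.Gauss
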