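import Fermat.Agent.Corollaries.Gauss.PrimAngle
import Fermat.Agent.Corollaries.Gauss.CurveCM
import Fermat.Agent.Corollaries.ZetaK.PNTAP

/-!
# The Sato-Tate law for `y² = x³ + 4 x`, from the lattice point estimate
-/

set_option autoImplicit false

noncomputable section

open Filter Topology

open scoped Classical

namespace Fermat.Agent.Cor.Gauss

/-- the norm of a primary prime of the upper half plane is a prime number -/
theorem prime_nG_P {π : PrP} (h : 0 < π.1.im) : (nG π.1).Prime := by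
  obtain ⟨p, hp, w, hw⟩ := exists_prime_dvd π.2.1
  have h1 : p ^ 2 = nG π.1 * nG w := by
    rw [← nG_natCast, hw, nG_mul]
  obtain ⟨k, hk, hk'⟩ := (Nat.dvd_prime_pow hp).1 (Dvd.intro _ h1.symm)
  have h2 := two_le_nG_P π
  interval_cases k
  · rw [pow_zero] at hk'
    omega
  · rw [hk', pow_one]
    exact hp
  · exfalso
    have h3 : nG w = 1 := by
      rw [hk'] at h1
      have h4 : 0 < p ^ 2 := by
        have := hp.pos
        positivity
      exact Nat.eq_of_mul_eq_mul_left h4 (by omega)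
    have h5 := congrArg Zsqrtd.im hw
    have h6 := congrArg Zsqrtd.re hw
    have h7 := π.2.2.1
    have h8 := π.2.2.2
    rcases unit_cases (isUnit_iff_nG.2 h3) with rfl | rfl | rfl | rfl <;>
      simp [Zsqrtd.im_mul, Zsqrtd.re_mul] at h5 h6 <;> omega

theorem nG_eq_sq (z : GaussianInt) : ((nG z : ℕ) : ℤ) = z.re ^ 2 + z.im ^ 2 := by
  rw [nG_eq]
  ring

theorem nG_mod_four {z : GaussianInt} (h : Primary z) : nG z % 4 = 1 := by
  obtain ⟨h1, h2⟩ := h
  have h3 := nG_eq_sq z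
  obtain ⟨b, hb⟩ : ∃ b, z.im = 2 * b := ⟨z.im / 2, by omega⟩
  obtain ⟨a, ha⟩ : ∃ a, z.re = 2 * a + 1 := ⟨z.re / 2, by omega⟩
  rw [ha, hb] at h3
  have h4 : (2 * a + 1) ^ 2 + (2 * b) ^ 2 = 4 * (a ^ 2 + a + b ^ 2) + 1 := by ring
  omega

theorem ap_nG {π : PrP} (h : 0 < π.1.im) : E4.apOfModel (nG π.1) = 2 * π.1.re := by
  have : Fact (nG π.1).Prime := ⟨prime_nG_P h⟩
  exact ap_E4_of_two_squares (nG_eq_sq π.1) π.2.2.1 π.2.2.2

/-- two primary primes of the upper half plane with the same norm are equal -/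
theorem nG_injOn {π π' : PrP} (h : 0 < π.1.im) (h' : 0 < π'.1.im) (hn : nG π.1 = nG π'.1) :
    π = π' := by
  have h1 := π.2.2.1
  have h2 := π.2.2.2
  have h3 := π'.2.2.1
  have h4 := π'.2.2.2
  obtain ⟨h5, h6⟩ := Diary.sq_eq_sq_of_two_squares (a' := π'.1.re) (b' := π'.1.im)
    (prime_nG_P h) h1 (by omega) (by omega) (nG_eq_sq π.1) (by rw [hn]; exact nG_eq_sq π'.1)
  have h7 : π.1.im = π'.1.im := by
    rcases sq_eq_sq_iff_eq_or_eq_neg.1 h6 with h8 | h8 <;> omega
  have h8 : π.1.re = π'.1.re := by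
    rcases sq_eq_sq_iff_eq_or_eq_neg.1 h5 with h9 | h9 <;> omega
  exact Subtype.ext (Zsqrtd.ext h8 h7)

/-- every prime number `≡ 1 mod 4` is the norm of a primary prime of the upper half plane -/
theorem exists_nG_eq {p : ℕ} (hp : p.Prime) (h4 : p % 4 = 1) :
    ∃ π : PrP, 0 < π.1.im ∧ nG π.1 = p := by
  have : Fact p.Prime := ⟨hp⟩
  obtain ⟨a, ⟨b, hab, hb, hab4⟩, -⟩ := Diary.existsUnique_two_squares (p := p) h4
  have hb0 : b ≠ 0 := by
    rintro rfl
    have h1 : p = a.natAbs ^ 2 := by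
      zify
      rw [hab, sq_abs]
      ring
    rw [h1] at hp
    exact Nat.Prime.not_prime_pow (le_refl 2) hp
  have key : ∀ b : ℤ, (p : ℤ) = a ^ 2 + b ^ 2 → b % 2 = 0 → (a + b) % 4 = 1 → 0 < b →
      ∃ π : PrP, 0 < π.1.im ∧ nG π.1 = p := by
    intro b h1 h2 h3 h5
    have h6 : nG ⟨a, b⟩ = p := by
      zify
      rw [nG_eq_sq, h1]
    exact ⟨⟨⟨a, b⟩, prime_of_nG (by rw [h6]; exact hp), h2, h3⟩, h5, h6⟩
  rcases lt_trichotomy b 0 with h5 | h5 | h5
  · exact key (-b) (by rw [hab]; ring) (by omega) (by omega) (by omega)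
  · exact absurd h5 hb0
  · exact key b hab hb hab4 h5

/-- the split primes with `a_p / (2 √p)` in `[α, β]` -/
def splitSet (α β : ℝ) (x : ℕ) : Type := {p : ℕ // p.Prime ∧ p ≤ x ∧ p % 4 = 1 ∧
  α ≤ (E4.apOfModel p : ℝ) / (2 * Real.sqrt p) ∧ (E4.apOfModel p : ℝ) / (2 * Real.sqrt p) ≤ β}

theorem ratio_eq {π : PrP} (h : 0 < π.1.im) :
    (E4.apOfModel (nG π.1) : ℝ) / (2 * Real.sqrt (nG π.1)) = π.1.re / Real.sqrt (nG π.1) := by
  rw [ap_nG h]
  push_cast
  rw [mul_div_mul_left _ _ two_ne_zero]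

theorem card_splitSet (α β : ℝ) (x : ℕ) :
    Nat.card (splitSet α β x) = ((isCount_prP.F x).filter (good α β)).card := by
  rw [← Nat.card_eq_finsetCard]
  symm
  refine Nat.card_congr (Equiv.ofBijective (fun π => ⟨nG π.1.1, ?_⟩) ⟨?_, ?_⟩)
  · obtain ⟨h1, h2, h3, h4⟩ := Finset.mem_filter.1 π.2
    refine ⟨prime_nG_P h2, isCount_prP.mem_F.1 h1, nG_mod_four π.1.2.2, ?_, ?_⟩
    · rw [ratio_eq h2]
      exact h3
    · rw [ratio_eq h2]
      exact h4
  · intro π π' h
    obtain ⟨-, h2, -⟩ := Finset.mem_filter.1 π.2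
    obtain ⟨-, h2', -⟩ := Finset.mem_filter.1 π'.2
    exact Subtype.ext (nG_injOn h2 h2' (Subtype.mk.inj h))
  · rintro ⟨p, hp, hpx, hp4, h1, h2⟩
    obtain ⟨π, hπ, rfl⟩ := exists_nG_eq hp hp4
    refine ⟨⟨π, Finset.mem_filter.2 ⟨isCount_prP.mem_F.2 hpx, hπ, ?_, ?_⟩⟩, rfl⟩
    · rw [← ratio_eq hπ]
      exact h1
    · rw [← ratio_eq hπ]
      exact h2

/-- **The split primes.** -/
theorem satoTate_split_of_lat (hlat : LatPrimStmt) {α β : ℝ} (hα : -1 ≤ α) (hαβ : α ≤ β)
    (hβ : β ≤ 1) :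
    Tendsto (fun x : ℕ => (Nat.card (splitSet α β x) : ℝ) * Real.log x / x) atTop
      (𝓝 ((Real.arccos α - Real.arccos β) / (2 * Real.pi))) := by
  refine (tendsto_cos hlat hα hαβ hβ).congr fun x => ?_
  rw [card_splitSet]
  ring

/-- the inert primes -/
theorem tendsto_inert :
    Tendsto (fun x : ℕ => (((Finset.Icc 1 x).filter
      fun p : ℕ => p.Prime ∧ (p : ZMod 4) = 3).card : ℝ) * Real.log x / x) atTop (𝓝 (1 / 2)) := by
  have h1 : IsUnit (3 : ZMod 4) := by decide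
  have h2 := prime_number_theorem_ap_nat h1
  have h3 : Nat.totient 4 = 2 := by decide
  rw [h3] at h2
  simpa using h2

/-- **The Sato-Tate law**, all odd primes -/
theorem satoTate_of_lat (hlat : LatPrimStmt) {α β : ℝ} (hα : -1 ≤ α) (hαβ : α ≤ β)
    (hβ : β ≤ 1) :
    Tendsto (fun x : ℕ => (Nat.card {p : ℕ // p.Prime ∧ p ≠ 2 ∧ p ≤ x ∧
      α ≤ (E4.apOfModel p : ℝ) / (2 * Real.sqrt p) ∧
      (E4.apOfModel p : ℝ) / (2 * Real.sqrt p) ≤ β} : ℝ) * Real.log x / x) atTop
      (𝓝 ((if α ≤ 0 ∧ 0 ≤ β then 1 / 2 else 0) +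
        (Real.arccos α - Real.arccos β) / (2 * Real.pi))) := by
  have hcard : ∀ x : ℕ, Nat.card {p : ℕ // p.Prime ∧ p ≠ 2 ∧ p ≤ x ∧
      α ≤ (E4.apOfModel p : ℝ) / (2 * Real.sqrt p) ∧
      (E4.apOfModel p : ℝ) / (2 * Real.sqrt p) ≤ β} =
      (if α ≤ 0 ∧ 0 ≤ β then ((Finset.Icc 1 x).filter
        fun p : ℕ => p.Prime ∧ (p : ZMod 4) = 3).card else 0) + Nat.card (splitSet α β x) := by
    intro x
    have e1 : Nat.card (splitSet α β x) = ((Finset.Icc 1 x).filter fun p : ℕ => p.Prime ∧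
        p % 4 = 1 ∧ α ≤ (E4.apOfModel p : ℝ) / (2 * Real.sqrt p) ∧
        (E4.apOfModel p : ℝ) / (2 * Real.sqrt p) ≤ β).card := by
      rw [← Nat.card_eq_finsetCard]
      refine Nat.card_congr (Equiv.subtypeEquivRight fun p => ?_)
      rw [Finset.mem_filter, Finset.mem_Icc]
      exact ⟨fun h => ⟨⟨h.1.one_le, h.2.1⟩, h.1, h.2.2⟩, fun h => ⟨h.2.1, h.1.2, h.2.2⟩⟩
    have e2 : Nat.card {p : ℕ // p.Prime ∧ p ≠ 2 ∧ p ≤ x ∧
        α ≤ (E4.apOfModel p : ℝ) / (2 * Real.sqrt p) ∧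
        (E4.apOfModel p : ℝ) / (2 * Real.sqrt p) ≤ β} =
        ((Finset.Icc 1 x).filter fun p : ℕ => p.Prime ∧ p ≠ 2 ∧
          α ≤ (E4.apOfModel p : ℝ) / (2 * Real.sqrt p) ∧
          (E4.apOfModel p : ℝ) / (2 * Real.sqrt p) ≤ β).card := by
      rw [← Nat.card_eq_finsetCard]
      refine Nat.card_congr (Equiv.subtypeEquivRight fun p => ?_)
      rw [Finset.mem_filter, Finset.mem_Icc]
      exact ⟨fun h => ⟨⟨h.1.one_le, h.2.2.1⟩, h.1, h.2.1, h.2.2.2⟩,
        fun h => ⟨h.2.1, h.2.2.1, h.1.2, h.2.2.2⟩⟩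
    rw [e1, e2]
    have e3 : ((Finset.Icc 1 x).filter fun p : ℕ => p.Prime ∧ p ≠ 2 ∧
          α ≤ (E4.apOfModel p : ℝ) / (2 * Real.sqrt p) ∧
          (E4.apOfModel p : ℝ) / (2 * Real.sqrt p) ≤ β) =
        (if α ≤ 0 ∧ 0 ≤ β then ((Finset.Icc 1 x).filter
          fun p : ℕ => p.Prime ∧ (p : ZMod 4) = 3) else ∅) ∪
        ((Finset.Icc 1 x).filter fun p : ℕ => p.Prime ∧
          p % 4 = 1 ∧ α ≤ (E4.apOfModel p : ℝ) / (2 * Real.sqrt p) ∧
          (E4.apOfModel p : ℝ) / (2 * Real.sqrt p) ≤ β) := by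
      ext p
      rw [Finset.mem_union]
      have h3 : ((p : ZMod 4) = 3) ↔ p % 4 = 3 := by
        have := ZMod.natCast_eq_natCast_iff' p 3 4
        simpa using this
      by_cases hp : p.Prime
      · have : Fact p.Prime := ⟨hp⟩
        by_cases hm1 : p % 4 = 1
        · split_ifs <;> simp [h3, hm1, hp] <;> omega
        · by_cases hm3 : p % 4 = 3
          · have h0 : (E4.apOfModel p : ℝ) / (2 * Real.sqrt p) = 0 := by
              rw [ap_E4_of_three hm3]
              simp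
            have h2 : p ≠ 2 := by omega
            rw [Finset.mem_filter, Finset.mem_filter, h0]
            split_ifs with h
            · rw [Finset.mem_filter, h3]
              simp [hm3, hp, h2, h]
            · simp only [Finset.notMem_empty, false_or]
              constructor
              · rintro ⟨-, -, -, h4⟩
                exact absurd h4 h
              · rintro ⟨-, -, h4, -⟩
                omega
          · have h2 : p = 2 := by
              by_contra h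
              have := hp.eq_two_or_odd
              omega
            subst h2
            split_ifs
            · simp
              intro _ _
              decide
            · simp
      · split_ifs <;> simp [hp]
    rw [e3, Finset.card_union_of_disjoint]
    · split_ifs <;> simp
    · split_ifs
      · rw [Finset.disjoint_filter]
        rintro p - ⟨-, h1⟩ ⟨-, h2, -⟩
        have h3 : ((p : ZMod 4) = 3) ↔ p % 4 = 3 := by
          have := ZMod.natCast_eq_natCast_iff' p 3 4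
          simpa using this
        have := h3.1 h1
        omega
      · exact Finset.disjoint_empty_left _
  have h1 := satoTate_split_of_lat hlat hα hαβ hβ
  by_cases h : α ≤ 0 ∧ 0 ≤ β
  · simp only [if_pos h] at hcard ⊢
    refine (tendsto_inert.add h1).congr fun x => ?_
    rw [hcard]
    push_cast
    ring
  · simp only [if_neg h, zero_add] at hcard ⊢
    refine h1.congr fun x => ?_
    rw [hcard]

end Fermat.Agent.Cor.Gauss
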