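import Fermat.Agent.Corollaries.Gauss.Hecke
import Fermat.Agent.Corollaries.Gauss.Quad
import Fermat.Agent.Corollaries.Gauss.Weyl

/-!
# Gaussian primes in sectors, from the lattice point estimate

* `sector_of_lat` : `#{π : N π ≤ x, α < arg π < β} ~ (2 (β - α) / π) x / log x`.
* `slope_of_lat` : `#{(a, b) : a, b > 0, a² + b² ≤ x prime, s < b / a < t}
  ~ (2 (arctan t - arctan s) / π) x / log x`.
* `exists_prime_slope_of_lat` : there are infinitely many primes `p = a² + b²` with `s < b / a < t`.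
-/

set_option autoImplicit false

noncomputable section

open Filter Topology Complex

namespace Fermat.Agent.Cor.Gauss

/-- **Hecke's theorem** -/
theorem sector_of_lat (hlat : LatStmt) {α β : ℝ} (hα : 0 ≤ α) (hαβ : α ≤ β)
    (hβ : β ≤ Real.pi / 2) :
    Tendsto (fun x : ℕ => (Nat.card {P : PrG // nG P.1 ≤ x ∧ α < argP P ∧ argP P < β} : ℝ) *
      Real.log x / x) atTop (𝓝 (2 * (β - α) / Real.pi)) := by
  have hpi := Real.pi_pos
  have h1 := (weylStmt PrG ang isCount_prG.F (fun n => Real.log n / n) ang_nonneg ang_lt_one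
    (fun n => div_nonneg (Real.log_natCast_nonneg n) (Nat.cast_nonneg n)) ?_ ?_
    (2 * α / Real.pi) (2 * β / Real.pi) (by positivity)
    (div_le_div_of_nonneg_right (by linarith) hpi.le)
    ((div_le_one hpi).2 (by linarith))).1
  · have e : 2 * β / Real.pi - 2 * α / Real.pi = 2 * (β - α) / Real.pi := by ring
    rw [e] at h1
    refine h1.congr fun x => ?_
    rw [mul_comm, ← mul_div_assoc]
    congr 3
    refine Nat.card_congr (Equiv.subtypeEquivRight fun P => ?_)
    rw [isCount_prG.mem_F, ang, div_lt_div_iff_of_pos_right hpi,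
      div_lt_div_iff_of_pos_right hpi, mul_lt_mul_iff_right₀ two_pos, mul_lt_mul_iff_right₀ two_pos]
  · refine (tendsto_card_prG hlat).congr fun x => ?_
    ring
  · intro k hk
    refine (tendsto_sum_prG hlat hk).congr fun x => ?_
    simp only [exp_ang]

/-- the pairs `(a, b)` with `a, b > 0`, `a² + b² ≤ x` prime and `s < b / a < t` -/
def pairs (s t : ℝ) (x : ℕ) : Type :=
  {q : ℕ × ℕ // 0 < q.1 ∧ 0 < q.2 ∧ (q.1 ^ 2 + q.2 ^ 2).Prime ∧ q.1 ^ 2 + q.2 ^ 2 ≤ x ∧
    s < (q.2 : ℝ) / q.1 ∧ (q.2 : ℝ) / q.1 < t}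

/-- the pairs and the primes of a sector -/
def pairsEquiv {s t : ℝ} (hs : 0 ≤ s) (x : ℕ) : pairs s t x ≃
    {P : PrG // nG P.1 ≤ x ∧ Real.arctan s < argP P ∧ argP P < Real.arctan t} where
  toFun q := ⟨⟨⟨q.1.1, q.1.2⟩, prime_of_nG (by rw [nG_mk]; exact q.2.2.2.1),
    by simpa using q.2.1, by simp⟩, by
      refine ⟨?_, ?_, ?_⟩
      · rw [nG_mk]
        exact q.2.2.2.2.1
      · rw [argP_eq_arctan]
        simpa using Real.arctan_strictMono q.2.2.2.2.2.1
      · rw [argP_eq_arctan]
        simpa using Real.arctan_strictMono q.2.2.2.2.2.2⟩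
  invFun P := ⟨(P.1.1.re.toNat, P.1.1.im.toNat), by
    have h1 := P.1.2.2.1
    have h2 := P.2.2.1
    have h3 := P.2.2.2
    rw [argP_eq_arctan, Real.arctan_strictMono.lt_iff_lt] at h2 h3
    have h4 : (0 : ℝ) < P.1.1.re := by exact_mod_cast h1
    have h5 : (0 : ℝ) < P.1.1.im := by
      by_contra h6
      have h7 := div_nonpos_of_nonpos_of_nonneg (not_lt.1 h6) h4.le
      linarith
    have h6 : 0 < P.1.1.im := by exact_mod_cast h5
    have e1 : ((P.1.1.re.toNat : ℕ) : ℝ) = P.1.1.re := by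
      have : ((P.1.1.re.toNat : ℕ) : ℤ) = P.1.1.re := Int.toNat_of_nonneg h1.le
      exact_mod_cast this
    have e2 : ((P.1.1.im.toNat : ℕ) : ℝ) = P.1.1.im := by
      have : ((P.1.1.im.toNat : ℕ) : ℤ) = P.1.1.im := Int.toNat_of_nonneg h6.le
      exact_mod_cast this
    have e3 : P.1.1.re.toNat ^ 2 + P.1.1.im.toNat ^ 2 = nG P.1.1 := by
      zify
      rw [Int.toNat_of_nonneg h1.le, Int.toNat_of_nonneg h6.le, nG_eq]
      ring
    refine ⟨by simpa using h1, by simpa using h6, ?_, ?_, ?_, ?_⟩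
    · simp only [e3]
      exact prime_nG P.1 h6
    · simp only [e3]
      exact P.2.1
    · simp only [e1, e2]
      exact h2
    · simp only [e1, e2]
      exact h3⟩
  left_inv q := by
    apply Subtype.ext
    simp
  right_inv P := by
    apply Subtype.ext
    apply Subtype.ext
    have h1 := P.1.2.2.1
    have h2 := P.1.2.2.2
    apply Zsqrtd.ext
    · exact Int.toNat_of_nonneg h1.le
    · exact Int.toNat_of_nonneg h2

/-- **Primes `p = a² + b²` with `b / a` in an interval.** -/
theorem slope_of_lat (hlat : LatStmt) {s t : ℝ} (hs : 0 ≤ s) (hst : s ≤ t) :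
    Tendsto (fun x : ℕ => (Nat.card (pairs s t x) : ℝ) * Real.log x / x) atTop
      (𝓝 (2 * (Real.arctan t - Real.arctan s) / Real.pi)) := by
  refine (sector_of_lat hlat (by rw [← Real.arctan_zero]; exact Real.arctan_strictMono.monotone hs)
    (Real.arctan_strictMono.monotone hst) (Real.arctan_lt_pi_div_two t).le).congr fun x => ?_
  rw [Nat.card_congr (pairsEquiv hs x)]

/-- infinitely many primes `p = a² + b²` with `s < b / a < t` -/
theorem exists_prime_slope_of_lat (hlat : LatStmt) {s t : ℝ} (hs : 0 ≤ s) (hst : s < t) (n : ℕ) :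
    ∃ a b : ℕ, 0 < a ∧ 0 < b ∧ (a ^ 2 + b ^ 2).Prime ∧ n < a ^ 2 + b ^ 2 ∧
      s < (b : ℝ) / a ∧ (b : ℝ) / a < t := by
  by_contra hno
  push Not at hno
  have hfin : ∀ x, Nat.card (pairs s t x) ≤ (n + 1) * (n + 1) := by
    intro x
    have h1 : ∀ q : pairs s t x, q.1 ∈ Finset.range (n + 1) ×ˢ Finset.range (n + 1) := by
      intro q
      obtain ⟨⟨a, b⟩, h1, h2, h3, h4, h5, h6⟩ := q
      have h7 : ¬ n < a ^ 2 + b ^ 2 := fun h => absurd h6 (not_lt.2 (hno a b h1 h2 h3 h h5))
      rw [Finset.mem_product, Finset.mem_range, Finset.mem_range]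
      constructor
      · have : a ≤ a ^ 2 := Nat.le_self_pow two_ne_zero a
        simp only
        omega
      · have : b ≤ b ^ 2 := Nat.le_self_pow two_ne_zero b
        simp only
        omega
    have h2 : Function.Injective fun q : pairs s t x =>
        (⟨q.1, h1 q⟩ : {q // q ∈ Finset.range (n + 1) ×ˢ Finset.range (n + 1)}) := by
      intro q q' h
      exact Subtype.ext (Subtype.mk.inj h)
    have h3 := Nat.card_le_card_of_injective _ h2
    rw [Nat.card_eq_finsetCard, Finset.card_product, Finset.card_range] at h3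
    exact h3
  have h1 : Tendsto (fun x : ℕ => (((n + 1) * (n + 1) : ℕ) : ℝ) * (Real.log x / x)) atTop
      (𝓝 (((n + 1) * (n + 1) : ℕ) * 0)) :=
    ((Real.isLittleO_log_id_atTop.tendsto_div_nhds_zero).comp
      tendsto_natCast_atTop_atTop).const_mul _
  rw [mul_zero] at h1
  have h2 := le_of_tendsto_of_tendsto' (slope_of_lat hlat hs hst.le) h1 fun x => by
    rw [mul_div_assoc]
    exact mul_le_mul_of_nonneg_right (by exact_mod_cast hfin x)
      (div_nonneg (Real.log_natCast_nonneg x) (Nat.cast_nonneg x))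
  have h3 : 0 < 2 * (Real.arctan t - Real.arctan s) / Real.pi := by
    have := Real.arctan_strictMono hst
    have := Real.pi_pos
    have h4 : 0 < Real.arctan t - Real.arctan s := by linarith
    positivity
  linarith

end Fermat.Agent.Cor.Gauss
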